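import Fermat.Agent.RTE.Point

/-!
The normalised point defined by a semistable elliptic curve, and its structure at `p`.
-/

set_option autoImplicit false
set_option linter.unusedSectionVars false

namespace Fermat.Agent.RTE

open WeierstrassCurve WeierstrassCurve.Affine IsLocalRing
open Fermat.Agent.ERep Fermat.Agent.Tate Fermat.Agent.LocRing
open Fermat.Agent.DefRing (M2 mapRep mapRep_apply MatCont Red Norm SliceData conjRep)
open Fermat.Agent.TWP (Pl Pl_lies)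
open Matrix

section AtP

variable (E : WeierstrassCurve ℚ) [E.IsElliptic] (p : ℕ) [hp : Fact p.Prime]
  {W : WeierstrassCurve ℤ} (hWE : W.IsIntegralModelOf E)
  {O : Type} [CommRing O] [IsLocalRing O] (f : ℤ_[p] →+* O)

/-- Line data at `p`: `w` spans a line stable under the decomposition group, the quotient is
given by the sign character `z`, unramified. -/
structure LineAt (A : ValuationSubring Qb) (χ : GQ → O) (r : GQ →* M2 O) (w : Fin 2 → O)
    (z : GQ → ℤ) : Prop where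
  w_unit : ∃ i, IsUnit (w i) ∨ ∃ u : M2 O, IsUnit u ∧ IsUnit ((u *ᵥ w) i)
  pm : ∀ σ ∈ A.decompositionSubgroup ℚ, z σ = 1 ∨ z σ = -1
  inertia : ∀ σ ∈ A.inertiaSubgroupIn ℚ, z σ = 1
  mul : ∀ σ ∈ A.decompositionSubgroup ℚ, ∀ σ' ∈ A.decompositionSubgroup ℚ, z (σ * σ') = z σ * z σ'
  line : ∀ σ ∈ A.decompositionSubgroup ℚ, r σ *ᵥ w = ((z σ : O) * χ σ) • w
  quot : ∀ σ ∈ A.decompositionSubgroup ℚ, ∀ u : Fin 2 → O, ∃ c : O,
    r σ *ᵥ u - (z σ : O) • u = c • w

theorem LineAt.w_ne {A : ValuationSubring Qb} {χ : GQ → O} {r : GQ →* M2 O} {w : Fin 2 → O}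
    {z : GQ → ℤ} (h : LineAt A χ r w z) : w ≠ 0 := by
  rintro rfl
  obtain ⟨i, h1 | ⟨u, -, h1⟩⟩ := h.w_unit
  · exact not_isUnit_zero h1
  · rw [Matrix.mulVec_zero] at h1
    exact not_isUnit_zero h1

theorem LineAt.conj {A : ValuationSubring Qb} {χ : GQ → O} {r : GQ →* M2 O} {w : Fin 2 → O}
    {z : GQ → ℤ} (hw : ∃ i, IsUnit (w i)) (h : LineAt A χ r w z) (u : (M2 O)ˣ) :
    LineAt A χ (conjRep u r) ((u : M2 O) *ᵥ w) z where
  w_unit := by
    obtain ⟨i, hi⟩ := hw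
    refine ⟨i, Or.inr ⟨(↑u⁻¹ : M2 O), Units.isUnit _, ?_⟩⟩
    rwa [Matrix.mulVec_mulVec, Units.inv_mul, Matrix.one_mulVec]
  pm := h.pm
  inertia := h.inertia
  mul := h.mul
  line σ hσ := by
    rw [DefRing.conjRep_apply, Matrix.mulVec_mulVec, mul_assoc, Units.inv_mul, mul_one,
      ← Matrix.mulVec_mulVec, h.line σ hσ, Matrix.mulVec_smul]
  quot σ hσ v := by
    obtain ⟨c, hc⟩ := h.quot σ hσ ((↑u⁻¹ : M2 O) *ᵥ v)
    refine ⟨c, ?_⟩
    have h1 := congrArg (fun x => (u : M2 O) *ᵥ x) hc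
    simp only [Matrix.mulVec_sub, Matrix.mulVec_smul, Matrix.mulVec_mulVec, Units.mul_inv,
      Matrix.one_mulVec] at h1
    rw [DefRing.conjRep_apply, mul_assoc]
    exact h1

include hWE in
/-- **The line at `p`** of a curve with multiplicative reduction at `p`. -/
theorem exists_lineAt (hns : NonScalar E p) (hp2 : p ≠ 2) {A : ValuationSubring Qb}
    (hA : A.LiesOverPrime p) (hΔ : (p : ℤ) ∣ W.Δ) (hc : ¬ (p : ℤ) ∣ W.c₄) :
    ∃ (w : Fin 2 → O) (z : GQ → ℤ), (∃ i, IsUnit (w i)) ∧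
      LineAt A (chiO p f) (rE E p f) w z := by
  obtain ⟨e, φ, z, he, hφs, hφ, hzpm, hzI, hzmul, hφr, hre⟩ := exists_line E p hWE hA hΔ hc hp2 hns
  have he' : ∃ i, IsUnit ((fun i => f (e i)) i) := by
    obtain ⟨i, hi⟩ := he
    exact ⟨i, hi.map f⟩
  have hvec : ∀ (M : M2 ℤ_[p]) (x : Fin 2 → ℤ_[p]), (f.mapMatrix M) *ᵥ (fun i => f (x i)) =
      fun i => f ((M *ᵥ x) i) := by
    intro M x
    funext i
    simp only [Matrix.mulVec, dotProduct, RingHom.mapMatrix_apply, Matrix.map_apply, map_sum,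
      map_mul]
  refine ⟨fun i => f (e i), z, he', ⟨?_, hzpm, hzI, hzmul, ?_, ?_⟩⟩
  · obtain ⟨i, hi⟩ := he'
    exact ⟨i, Or.inl hi⟩
  · intro σ hσ
    rw [rE_eq, hvec, matE_mulVec, hre σ hσ]
    funext i
    simp only [Pi.smul_apply, smul_eq_mul, map_mul, map_intCast, chiO]
  · intro σ hσ u
    -- basis vectors
    have h1 : ∀ x : Fin 2 → ℤ_[p], ∃ a : ℤ_[p], matE E p σ *ᵥ x - (z σ : ℤ_[p]) • x = a • e := by
      intro x
      rw [← hφ, matE_mulVec, map_sub, hφr σ hσ, map_smul, smul_eq_mul, sub_self]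
    obtain ⟨a₀, ha₀⟩ := h1 (Pi.single 0 1)
    obtain ⟨a₁, ha₁⟩ := h1 (Pi.single 1 1)
    refine ⟨f a₀ * u 0 + f a₁ * u 1, ?_⟩
    rw [Matrix.mulVec_single_one] at ha₀ ha₁
    funext i
    have e0 := congrArg f (congrFun ha₀ i)
    have e1 := congrArg f (congrFun ha₁ i)
    simp only [Pi.sub_apply, Matrix.col_apply, Pi.smul_apply, smul_eq_mul, map_sub, map_mul,
      map_intCast] at e0 e1
    have hr : ∀ i j, rE E p f σ i j = f (matE E p σ i j) := fun i j => rfl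
    simp only [Pi.sub_apply, Matrix.mulVec, dotProduct, Fin.sum_univ_two, Pi.smul_apply,
      smul_eq_mul, hr]
    fin_cases i
    · simp at e0 e1 ⊢
      linear_combination u 0 * e0 + u 1 * e1
    · simp at e0 e1 ⊢
      linear_combination u 0 * e0 + u 1 * e1

include hWE in
/-- ordinary structure -/
theorem ordAt_rE (hns : NonScalar E p) (hp2 : p ≠ 2) (hΔ : (p : ℤ) ∣ W.Δ)
    (hc : ¬ (p : ℤ) ∣ W.c₄) : RTan.OrdAt p (chiO p f) (rE E p f) := by
  intro σ₀ hσ₀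
  have hA : (Pl (ExtCitation.pPrime p)).LiesOverPrime p := Pl_lies (ExtCitation.pPrime p)
  refine ordM_map p f ?_ (ordM_matE E p hWE hns hA hΔ hc hp2 hσ₀)
  rfl

end AtP

section Norm

variable (E : WeierstrassCurve ℚ) [E.IsElliptic] (p : ℕ) [hp : Fact p.Prime]
  {W : WeierstrassCurve ℤ} (hWE : W.IsIntegralModelOf E)
  {O : Type} [CommRing O] [IsLocalRing O] [IsAdicComplete (maximalIdeal O) O]
  (hpO : (p : O) ∈ maximalIdeal O) (f : ℤ_[p] →+* O)
  (sd : SliceData (rbE E p f))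

/-- the normalising matrix -/
noncomputable def uN : (M2 O)ˣ := (DefRing.slice_exists sd (red_rE E p f)).choose

/-- **The normalised representation** of `E` with coefficients in `O`. -/
noncomputable def rN : GQ →* M2 O := conjRep (uN E p f sd) (rE E p f)

theorem rN_red : Red (rbE E p f) (rN E p f sd) :=
  (DefRing.slice_exists sd (red_rE E p f)).choose_spec.1

theorem rN_norm : Norm sd (rN E p f sd) :=
  (DefRing.slice_exists sd (red_rE E p f)).choose_spec.2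

include hpO in
theorem rN_cont : MatCont O (rN E p f sd) := DefRing.conjRep_cont _ _ (rE_cont E p hpO f)

/-- the component of the joint deformation ring defined by `E` -/
noncomputable def ptE : RT8.Cpt sd where
  T := O
  r := rN E p f sd
  cont := rN_cont E p hpO f sd
  red := rN_red E p f sd
  norm := rN_norm E p f sd

theorem ptE_r : (ptE E p hpO f sd).r = rN E p f sd := rfl

include hWE in
theorem rN_det (hns : NonScalar E p) (s : GQ) : (rN E p f sd s).det = chiO p f s := by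
  rw [rN, det_conj, det_rE E p hWE f hns]

include hWE in
theorem rN_isUni (hns : NonScalar E p) (hp2 : p ≠ 2) (hss : W.IsSemistableModel)
    {A : ValuationSubring Qb} {q : ℕ} (hq : q.Prime) (hA : A.LiesOverPrime q) (hqp : q ≠ p)
    {φ τ : GQ} (hφ : A.IsFrobeniusAt φ q) (hτ : τ ∈ A.inertiaSubgroupIn ℚ) :
    IsUni (q : O) (rN E p f sd φ) (rN E p f sd τ - 1) :=
  isUni_conj' _ _ (isUni_rE E p hWE f hns hp2 hss hq hA hqp hφ hτ)

include hWE in
theorem rN_inertia_good {A : ValuationSubring Qb} {q : ℕ} (hq : q.Prime)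
    (hA : A.LiesOverPrime q) (hqp : q ≠ p) (hW : W.IsGoodPrimeFor q) {s : GQ}
    (hs : s ∈ A.inertiaSubgroupIn ℚ) : rN E p f sd s = 1 := by
  rw [rN, conj_one_iff]
  exact rE_inertia_good E p hWE f hq hA hqp hW hs

include hWE in
theorem rN_inertia_sq (hss : W.IsSemistableModel) {A : ValuationSubring Qb} {q : ℕ} (hq : q.Prime)
    (hA : A.LiesOverPrime q) (hqp : q ≠ p) {s : GQ}
    (hs : s ∈ A.inertiaSubgroupIn ℚ) : (rN E p f sd s - 1) * (rN E p f sd s - 1) = 0 := by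
  rw [rN, conj_sub_one]
  have h1 := rE_inertia_sq E p hWE f hss hq hA hqp hs
  calc _ = (uN E p f sd : M2 O) * ((rE E p f s - 1) * (rE E p f s - 1)) *
        (↑(uN E p f sd)⁻¹ : M2 O) := by
        simp only [mul_assoc]
        rw [Units.inv_mul_cancel_left]
    _ = 0 := by rw [h1, mul_zero, zero_mul]

include hWE in
theorem rN_trace_frob (hns : NonScalar E p) {A : ValuationSubring Qb} {q : ℕ} (hq : q.Prime)
    (hA : A.LiesOverPrime q) (hqp : q ≠ p) (hW : W.IsGoodPrimeFor q) {σ : GQ}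
    (hσ : A.IsFrobeniusAt σ q) : (rN E p f sd σ).trace = ((W.apOfModel q : ℤ) : O) := by
  rw [rN, trace_conj, trace_rE_frob E p hWE f hns hq hA hqp hW hσ]

include hWE in
theorem rN_tame (hf : Function.Injective f) {l : Nat.Primes} (hlp : (l : ℕ) ≠ p)
    (hΔ : ((l : ℕ) : ℤ) ∣ W.Δ) (hc : ¬ ((l : ℕ) : ℤ) ∣ W.c₄)
    {c : Qb} (hcl : c ^ p = ((l : ℕ) : Qb)) {τ : GQ} (hτ : τ ∈ (Pl l).inertiaSubgroupIn ℚ)
    (hτc : τ c ≠ c) (hp2 : p ≠ 2) : rN E p f sd τ ≠ 1 := by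
  rw [rN, Ne, conj_one_iff]
  exact rE_tame E p hWE f hf hlp hΔ hc hcl hτ hτc hp2

include hWE in
theorem rN_ordAt (hns : NonScalar E p) (hp2 : p ≠ 2) (hΔ : (p : ℤ) ∣ W.Δ)
    (hc : ¬ (p : ℤ) ∣ W.c₄) : RTan.OrdAt p (chiO p f) (rN E p f sd) := fun σ₀ hσ₀ =>
  ordM_conj _ _ (ordAt_rE E p hWE f hns hp2 hΔ hc σ₀ hσ₀)

include hWE in
theorem rN_line (hns : NonScalar E p) (hp2 : p ≠ 2) {A : ValuationSubring Qb}
    (hA : A.LiesOverPrime p) (hΔ : (p : ℤ) ∣ W.Δ) (hc : ¬ (p : ℤ) ∣ W.c₄) :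
    ∃ (w : Fin 2 → O) (z : GQ → ℤ), LineAt A (chiO p f) (rN E p f sd) w z := by
  obtain ⟨w, z, hw, h⟩ := exists_lineAt E p hWE f hns hp2 hA hΔ hc
  exact ⟨_, z, h.conj hw _⟩

end Norm

end Fermat.Agent.RTE
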