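import Fermat.Agent.RTE.PointP

/-!
Specialisation to an integral model.
-/

set_option autoImplicit false

namespace Fermat.Agent.RTE

open WeierstrassCurve WeierstrassCurve.Affine IsLocalRing
open Fermat.Agent.ERep

/-- the curve over `ℚ` -/
abbrev EW (W : WeierstrassCurve ℤ) : WeierstrassCurve ℚ := W.map (Int.castRingHom ℚ)

theorem isElliptic_EW {W : WeierstrassCurve ℤ} (h : W.Δ ≠ 0) : (EW W).IsElliptic := by
  constructor
  rw [EW, WeierstrassCurve.map_Δ, isUnit_iff_ne_zero]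
  simpa using h

theorem isIntegralModelOf_EW (W : WeierstrassCurve ℤ) : W.IsIntegralModelOf (EW W) :=
  ⟨1, one_smul _ _⟩

theorem nonScalar_EW {W : WeierstrassCurve ℤ} (p : ℕ) [Fact p.Prime] [(EW W).IsElliptic]
    (h : W.ModRepIsIrreducible p) : NonScalar (EW W) p := nonScalar_of_irreducible (EW W) p h

theorem rd_EW {W : WeierstrassCurve ℤ} {p : ℕ} [hp : Fact p.Prime] [(EW W).IsElliptic]
    (hss : W.IsSemistableModel) (h2 : (2 : ℤ) ∣ W.Δ) (hp2 : p ≠ 2)
    (hcase : Case W p) (hirr : W.ModRepIsIrreducible p)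
    {O : Type} [CommRing O] [IsLocalRing O] (hpO : (p : O) ∈ maximalIdeal O) (f : ℤ_[p] →+* O)
    (i : GaloisField p 2 →+* ResidueField O) : TWP.RD p (rbE (EW W) p f) :=
  rd_rbE (EW W) p f (isIntegralModelOf_EW W) hpO hss h2 hp2 hcase hirr i

end Fermat.Agent.RTE
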