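import Fermat.Agent.ECP.Exists
import Fermat.Agent.ECP.Node
import Fermat.Agent.ECP.Count
import Fermat.Agent.ERep.Node

/-!
# Existence of `p`-torsion outside the kernel of reduction, above `p`
-/

set_option autoImplicit false
set_option linter.unusedSectionVars false

namespace Fermat.Agent.RTE

open WeierstrassCurve WeierstrassCurve.Affine Polynomial
open Fermat.Agent.ECP

section Count

variable {F : Type*} [Field F] {W : WeierstrassCurve.Affine F} [DecidableEq F]

omit [DecidableEq F] in
lemma fibers_card (R : Finset F) : (⋃ x ∈ R, {P : W.Point | P ≠ 0 ∧ xc P = x}).Finite ∧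
    (⋃ x ∈ R, {P : W.Point | P ≠ 0 ∧ xc P = x}).ncard ≤ 2 * R.card := by
  classical
  induction R using Finset.induction with
  | empty => simp
  | insert a s ha ih =>
    rw [Finset.set_biUnion_insert, Finset.card_insert_of_notMem ha]
    have h3 := Set.ncard_union_le {P : W.Point | P ≠ 0 ∧ xc P = a}
      (⋃ x ∈ s, {P : W.Point | P ≠ 0 ∧ xc P = x})
    have h4 := fiber_card (W := W) a
    exact ⟨h4.1.union ih.1, by omega⟩

/-- The roots of the `p`-division polynomial are the `x`-coordinates of the points of order `p`. -/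
theorem exists_of_root {p : ℕ} (hp : p.Prime) (hp2 : p ≠ 2) (hpF : (p : F) ≠ 0)
    (hcard : {P : W.Point | p • P = 0}.ncard = p ^ 2) {r : F} (hr : r ∈ (W.preΨ' p).roots) :
    ∃ P : W.Point, P ≠ 0 ∧ p • P = 0 ∧ xc P = r := by
  classical
  have hne : W.preΨ' p ≠ 0 := W.preΨ'_ne_zero hpF
  have hodd : ¬ Even p := by rw [Nat.not_even_iff_odd]; exact hp.odd_of_ne_two hp2
  by_contra hcon
  push Not at hcon
  set R : Finset F := (W.preΨ' p).roots.toFinset with hR
  have hRcard : 2 * R.card ≤ p ^ 2 - 1 := by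
    have h1 : R.card ≤ (W.preΨ' p).natDegree :=
      (Multiset.toFinset_card_le _).trans (Polynomial.card_roots' _)
    rw [W.natDegree_preΨ' hpF, if_neg hodd] at h1
    have h2 := Nat.div_mul_le_self (p ^ 2 - 1) 2
    omega
  have hrR : r ∈ R := Multiset.mem_toFinset.mpr hr
  have hsub : {P : W.Point | p • P = 0} ⊆
      insert 0 (⋃ x ∈ R.erase r, {P : W.Point | P ≠ 0 ∧ xc P = x}) := by
    intro P hP
    by_cases h0 : P = 0
    · exact Or.inl h0
    · right
      simp only [Set.mem_iUnion, Set.mem_setOf_eq]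
      refine ⟨xc P, ?_, h0, rfl⟩
      rw [Finset.mem_erase]
      refine ⟨hcon P h0 hP, ?_⟩
      rw [hR, Multiset.mem_toFinset, Polynomial.mem_roots hne]
      exact preΨ'_eval_eq_zero hp hp2 h0 hP
  obtain ⟨hfinU, hcardU⟩ := fibers_card (W := W) (R.erase r)
  have hfinI := hfinU.insert (0 : W.Point)
  have h5 := Set.ncard_insert_le (0 : W.Point) (⋃ x ∈ R.erase r, {P : W.Point | P ≠ 0 ∧ xc P = x})
  have h6 := Set.ncard_le_ncard hsub hfinI
  have h7 := Finset.card_erase_of_mem hrR
  have h8 : 0 < R.card := Finset.card_pos.mpr ⟨r, hrR⟩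
  have h9 : 1 ≤ p ^ 2 := Nat.one_le_pow _ _ hp.pos
  omega

end Count

section Val

variable {K Γ₀ : Type*} [Field K] [LinearOrderedCommGroupWithZero Γ₀] {v : Valuation K Γ₀}
  {W : WeierstrassCurve.Affine K} {e t b : K}

/-- the third division polynomial at the node -/
lemma node_Ψ₃ (hn : NodeData v W e t b) : W.Ψ₃.eval e = -b ^ 2 := by
  simp only [WeierstrassCurve.Ψ₃, eval_add, eval_mul, eval_C, eval_pow, eval_X, eval_ofNat]
  linear_combination hn.h8

lemma node_Ψ₂Sq (hn : NodeData v W e t b) : W.Ψ₂Sq.eval e = 0 := by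
  simp only [WeierstrassCurve.Ψ₂Sq, eval_add, eval_mul, eval_C, eval_pow, eval_X, eval_ofNat]
  linear_combination hn.h6

/-- the division polynomials are not units at the node -/
lemma val_preΨ'_node_lt (hn : NodeData v W e t b) (n : ℕ) (hodd : ¬ Even n) (h3 : 3 ≤ n) :
    v ((W.preΨ' n).eval e) < 1 := by
  have h2 := node_Ψ₂Sq hn
  have hint : ∀ m : ℕ, v ((W.preΨ' m).eval e) ≤ 1 := fun m =>
    (intCoeff_preΨ' hn.isInt m).eval_le hn.e_le
  have hΨ₃ : v (W.Ψ₃.eval e) < 1 := by
    rw [node_Ψ₃ hn, Valuation.map_neg, map_pow]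
    exact pow_lt_one₀ zero_le hn.beta_lt two_ne_zero
  induction n using Nat.strong_induction_on with
  | _ n ih =>
    rcases Nat.lt_or_ge n 5 with hlt | hge
    · interval_cases n
      · simpa using hΨ₃
      · exact absurd (by decide) hodd
    · rw [Nat.not_even_iff_odd] at hodd
      obtain ⟨k, rfl⟩ := hodd
      obtain ⟨m, rfl⟩ : ∃ m, k = m + 2 := ⟨k - 2, by omega⟩
      rw [WeierstrassCurve.preΨ'_odd]
      by_cases hm : Even m
      · have e3 := ih (m + 3) (by omega) (by
          simpa [show m + 3 = m + 2 + 1 from rfl, Nat.even_add_one] using hm) (by omega)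
        simp only [if_pos hm, eval_sub, eval_mul, eval_pow, h2, mul_one]
        rw [zero_pow two_ne_zero, mul_zero, zero_sub, Valuation.map_neg, map_mul, map_pow]
        exact mul_lt_one_of_nonneg_of_lt_one_right (hint _) zero_le
          (pow_lt_one₀ zero_le e3 three_ne_zero)
      · have hm' : Odd m := Nat.not_even_iff_odd.mp hm
        have e4 := ih (m + 4) (by omega) (by
          rw [Nat.not_even_iff_odd]; exact hm'.add_even (by decide)) (by omega)
        simp only [if_neg hm, eval_sub, eval_mul, eval_pow, h2, mul_one]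
        rw [zero_pow two_ne_zero, mul_zero, sub_zero, map_mul, map_pow]
        exact mul_lt_one_of_nonneg_of_lt_one_left zero_le e4 (pow_le_one' (hint _) 3)

/-- another `2`-torsion point, not reducing to the node -/
lemma exists_other (hn : NodeData v W e t b) [IsAlgClosed K] (h2 : v (2 : K) = 1) :
    ∃ e' : K, v e' ≤ 1 ∧ W.Ψ₂Sq.eval e' = 0 ∧ v (W.Ψ₃.eval e') = 1 := by
  have h4 : v (4 : K) = 1 := by
    have : (4 : K) = 2 * 2 := by norm_num
    rw [this, map_mul, h2, one_mul]
  have h40 : (4 : K) ≠ 0 := by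
    intro h; rw [h, _root_.map_zero] at h4; exact zero_ne_one h4
  -- roots of `4 X² + s X + 4 b`
  obtain ⟨X, hX, hvX⟩ : ∃ X : K, 4 * X ^ 2 + (W.b₂ + 12 * e) * X + 4 * b = 0 ∧ v X = 1 := by
    obtain ⟨X, hX⟩ : ∃ X : K, 4 * X ^ 2 + (W.b₂ + 12 * e) * X + 4 * b = 0 := by
      let q : K[X] := C 4 * Polynomial.X ^ 2 + C (W.b₂ + 12 * e) * Polynomial.X + C (4 * b)
      obtain ⟨X, hX⟩ := IsAlgClosed.exists_root q (by rw [degree_quadratic h40]; decide)
      refine ⟨X, ?_⟩
      simpa [q, Polynomial.IsRoot] using hX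
    set Y : K := -(W.b₂ + 12 * e) / 4 - X with hY
    have hsum : 4 * (X + Y) = -(W.b₂ + 12 * e) := by rw [hY]; field_simp; ring
    have hprod : X * Y = b := by
      apply mul_left_cancel₀ h40
      linear_combination X * hsum - hX
    have hvs : v (X + Y) = 1 := by
      have := congrArg v hsum
      rw [map_mul, h4, one_mul, Valuation.map_neg, hn.unit] at this
      exact this
    have hYr : 4 * Y ^ 2 + (W.b₂ + 12 * e) * Y + 4 * b = 0 := by
      linear_combination Y * hsum - 4 * hprod
    have hvXle : v X ≤ 1 := by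
      refine EC.val_le_of_sum_prod_le v (b := Y) (r := 1) hvs.le ?_
      rw [hprod, one_pow]; exact hn.beta_lt.le
    have hvYle : v Y ≤ 1 := by
      refine EC.val_le_of_sum_prod_le v (b := X) (r := 1) ?_ ?_
      · rw [add_comm]; exact hvs.le
      · rw [mul_comm, hprod, one_pow]; exact hn.beta_lt.le
    by_cases h : v X = 1
    · exact ⟨X, hX, h⟩
    · have hlt := lt_of_le_of_ne hvXle h
      refine ⟨Y, hYr, ?_⟩
      by_contra h'
      have hlt' := lt_of_le_of_ne hvYle h'
      have := ERep.add_lt hlt hlt'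
      exact absurd hvs this.ne
  refine ⟨e + X, (v.map_add _ _).trans (max_le hn.e_le hvX.le), ?_, ?_⟩
  · simp only [WeierstrassCurve.Ψ₂Sq, eval_add, eval_mul, eval_C, eval_pow, eval_X, eval_ofNat]
    linear_combination X * hX + hn.h6 + 2 * X * hn.h4
  · have h5 : W.Ψ₃.eval (e + X) = -(X ^ 2 - b) ^ 2 := by
      simp only [WeierstrassCurve.Ψ₃, eval_add, eval_mul, eval_C, eval_pow, eval_X, eval_ofNat]
      linear_combination X ^ 2 * hX + hn.h8 + 3 * X * hn.h6 + 3 * X ^ 2 * hn.h4
    rw [h5, Valuation.map_neg, map_pow, Valuation.map_sub_eq_of_lt_left, map_pow, hvX, one_pow,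
      one_pow]
    rw [map_pow, hvX, one_pow]
    exact hn.beta_lt

variable [DecidableEq K]

/-- Above `p` there are `p`-torsion points which are not in the kernel of reduction. -/
theorem exists_tors_le [IsAlgClosed K] (hn : NodeData v W e t b) {p : ℕ} (hp : p.Prime)
    (hp2 : p ≠ 2) (hvp : v (p : K) < 1) (hpK : (p : K) ≠ 0)
    (hcard : {P : W.Point | p • P = 0}.ncard = p ^ 2) :
    ∃ P : W.Point, P ≠ 0 ∧ p • P = 0 ∧ v (xc P) ≤ 1 := by
  by_contra hcon
  push Not at hcon
  have hodd : ¬ Even p := by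
    rw [Nat.not_even_iff_odd]; exact hp.odd_of_ne_two hp2
  have h2 : v (2 : K) = 1 := by
    have := val_nat_eq_one_of_lt (v := v) hp hvp (n := 2) two_pos
      (lt_of_le_of_ne hp.two_le (Ne.symm hp2))
    exact_mod_cast this
  obtain ⟨e', he', h2', h3'⟩ := exists_other hn h2
  have hroots : ∀ r ∈ (W.preΨ' p).roots, 1 < v r := by
    intro r hr
    obtain ⟨P, hP0, hP, rfl⟩ := exists_of_root hp hp2 hpK hcard hr
    exact hcon P hP0 hP
  have hval : ∀ c : K, v c ≤ 1 → v ((W.preΨ' p).eval c) =
      v (W.preΨ' p).leadingCoeff * ((W.preΨ' p).roots.map v).prod := by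
    intro c hc
    have hsplit := (IsAlgClosed.splits (W.preΨ' p)).eq_prod_roots
    conv_lhs => rw [hsplit]
    rw [eval_mul, eval_C, map_mul]
    congr 1
    rw [eval_multiset_prod, Multiset.map_map, map_multiset_prod, Multiset.map_map]
    refine congrArg _ (Multiset.map_congr rfl fun r hr => ?_)
    simp only [Function.comp_apply, eval_sub, eval_X, eval_C]
    rw [Valuation.map_sub_swap]
    exact Valuation.map_sub_eq_of_lt_left _ (lt_of_le_of_lt hc (hroots r hr))
  have k1 := val_preΨ'_node_lt hn p hodd (by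
    have := hp.two_le
    omega)
  have k2 := val_preΨ'_eval_two_torsion h2' h3' p hodd
  rw [hval e hn.e_le] at k1
  rw [hval e' he'] at k2
  exact absurd k2 k1.ne

end Val

end Fermat.Agent.RTE
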