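import Fermat.Agent.RTE.Ram
import Fermat.Agent.RTE.TorsOut
import Fermat.Agent.ZEC.Line
import Fermat.Agent.ZEC.Facts

/-!
# Local structure of `E(ℚ̄)` at a place of multiplicative reduction
-/

set_option autoImplicit false
set_option linter.unusedSectionVars false

namespace Fermat.Agent.RTE

open WeierstrassCurve WeierstrassCurve.Affine
open Fermat.Agent.FrobE Fermat.Agent.ERep Fermat.Agent.Tate
open Fermat.Agent.EC (IsInt InE1 xX xZ xX_some xZ_some xX_zero xZ_zero NS TrivMod)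

local notation "Qb" => AlgebraicClosure ℚ
local notation "GQ" => AlgebraicClosure ℚ ≃ₐ[ℚ] AlgebraicClosure ℚ

/-- Local structure of `E(ℚ̄)` at a place of multiplicative reduction. `m` is the valuation of the
discriminant. -/
structure LocMult (E : WeierstrassCurve ℚ) (A : ValuationSubring Qb) (q m : ℕ) where
  /-- points with nonsingular reduction -/
  B : AddSubgroup (E⁄Qb).Point
  /-- unramified quadratic character -/
  z : GQ → ℤ
  z_pm : ∀ s ∈ A.decompositionSubgroup ℚ, z s = 1 ∨ z s = -1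
  z_inertia : ∀ s ∈ A.inertiaSubgroupIn ℚ, z s = 1
  z_mul : ∀ s ∈ A.decompositionSubgroup ℚ, ∀ t ∈ A.decompositionSubgroup ℚ, z (s * t) = z s * z t
  stable : ∀ s ∈ A.decompositionSubgroup ℚ, ∀ P ∈ B, s • P ∈ B
  sub_mem : ∀ s ∈ A.decompositionSubgroup ℚ, ∀ (P : (E⁄Qb).Point) (N : ℕ), Odd N → N • P = 0 →
    s • P - z s • P ∈ B
  card_le : ∀ n : ℕ, 0 < n → ¬ q ∣ n → Nat.card {P : (E⁄Qb).Point // P ∈ B ∧ n • P = 0} ≤ n
  fix : ∀ s ∈ A.inertiaSubgroupIn ℚ, ∀ P ∈ B, ∀ n : ℕ, ¬ q ∣ n → n • P = 0 → s • P = P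
  ram : ∀ (P : (E⁄Qb).Point) (N : ℕ), Odd N → N • P = 0 →
    (∀ s ∈ A.inertiaSubgroupIn ℚ, s • P = P) → m • P ∈ B
  out : q ≠ 2 → ∃ P : (E⁄Qb).Point, q • P = 0 ∧ P ∉ B

variable (E : WeierstrassCurve ℚ) [E.IsElliptic] {W : WeierstrassCurve ℤ}
  (hWE : W.IsIntegralModelOf E) {A : ValuationSubring Qb} {q : ℕ} (hq : q.Prime)
  (hA : A.LiesOverPrime q) (hΔ : (q : ℤ) ∣ W.Δ) (hc : ¬ (q : ℤ) ∣ W.c₄)

include hWE hq hA hΔ hc

theorem exists_locMult : Nonempty (LocMult E A q (padicValInt q W.Δ)) := by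
  classical
  have : Fact q.Prime := ⟨hq⟩
  have hvq : A.valuation ((q : ℕ) : Qb) < 1 := A.mem_nonunits_iff.mp hA
  have hΔ0 : W.Δ ≠ 0 := Δ_ne_zero E hWE
  obtain ⟨θ, hθ⟩ := ZEC.exists_iso E hWE
  have hInt := isInt_model (A := A) (L := Qb) W
  have hΔv : A.valuation ((W.map (Int.castRingHom ℚ))⁄Qb).Δ < 1 := by
    rw [Δ_model]; exact val_int_lt_one (q := q) hvq (by exact_mod_cast hΔ)
  have hΔK : ((W.map (Int.castRingHom ℚ))⁄Qb).Δ ≠ 0 := by
    rw [Δ_model]; exact_mod_cast hΔ0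
  have hcv : A.valuation ((W.map (Int.castRingHom ℚ))⁄Qb).c₄ = 1 := by
    rw [c₄_model]; exact val_int_eq_one hq hvq (by exact_mod_cast hc)
  obtain ⟨x₀, y₀, α, β, h⟩ := exists_crit (v := A.valuation) hInt hΔv hcv
  obtain ⟨e, t, b, hn⟩ := MazX.exists_nodeData hInt hcv hΔK hΔv
  have i2 : CharP (IsLocalRing.ResidueField A) q := charP_residue hq hA
  let _ : Algebra (ZMod q) (IsLocalRing.ResidueField A) := ZMod.algebra _ q
  have hred := isRed_int (l := q) (A := A) (L := Qb) W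
  have hπ : ∀ a : A, IsLocalRing.residue A a = 0 ↔ A.valuation (a : Qb) < 1 :=
    valuation_lt_one_iff_residue
  have hαβ : α ≠ β := by
    rintro rfl
    have := h.unit
    rw [sub_self, _root_.map_zero] at this
    exact zero_ne_one this
  have hdec : ∀ s ∈ A.decompositionSubgroup ℚ, ∀ x, A.valuation (s x) = A.valuation x :=
    fun s hs x => ZEC.valuation_decomp_eq A hs x
  have hin : ∀ s ∈ A.inertiaSubgroupIn ℚ, ∀ x, A.valuation (s x) = A.valuation x :=
    fun s hs x => ECP.valuation_smul_eq A hs x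
  let B₀ : AddSubgroup ((W.map (Int.castRingHom ℚ))⁄Qb).Point := E0 hπ hred
  let z : GQ → ℤ := fun s => if s α = α then 1 else -1
  have hz : ∀ s ∈ A.decompositionSubgroup ℚ,
      (s α = α ∧ s β = β ∧ z s = 1) ∨ (s α = β ∧ s β = α ∧ z s = -1) := by
    intro s hs
    obtain ⟨-, -, h3 | h3⟩ := crit_decomp' h (hdec s hs)
    · exact Or.inl ⟨h3.1, h3.2, if_pos h3.1⟩
    · refine Or.inr ⟨h3.1, h3.2, if_neg ?_⟩
      rw [h3.1]
      exact hαβ.symm
  have memB : ∀ P, P ∈ B₀.map (θ : _ →+ (E⁄Qb).Point) ↔ θ.symm P ∈ B₀ := by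
    intro P
    constructor
    · rintro ⟨Q, hQ, rfl⟩
      change θ.symm (θ Q) ∈ B₀
      rw [AddEquiv.symm_apply_apply]
      exact hQ
    · intro hP
      exact ⟨θ.symm P, hP, θ.apply_symm_apply P⟩
  have hval : ∀ n : ℕ, ¬ q ∣ n → A.valuation (n : Qb) = 1 := fun n hn => val_nat_eq_one hq hA hn
  refine ⟨⟨B₀.map (θ : _ →+ (E⁄Qb).Point), z, ?_, ?_, ?_, ?_, ?_, ?_, ?_, ?_, ?_⟩⟩
  · intro s hs
    rcases hz s hs with h1 | h1
    · exact Or.inl h1.2.2
    · exact Or.inr h1.2.2
  · intro s hs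
    have := (h.fixed (R := ℚ) (S := ℚ) (EC.trivMod_of_mem_inertia A hs)).2.2.1
    exact if_pos this
  · intro s hs t ht
    rcases hz s hs with h1 | h1 <;> rcases hz t ht with h2 | h2 <;>
      rcases hz (s * t) (mul_mem hs ht) with h3 | h3
    · rw [h1.2.2, h2.2.2, h3.2.2]; rfl
    · exfalso
      apply hαβ
      rw [← h3.1, AlgEquiv.mul_apply, h2.1, h1.1]
    · exfalso
      apply hαβ
      have := h3.1
      rw [AlgEquiv.mul_apply, h2.1, h1.2.1] at this
      exact this.symm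
    · rw [h1.2.2, h2.2.2, h3.2.2]; rfl
    · exfalso
      apply hαβ
      have := h3.1
      rw [AlgEquiv.mul_apply, h2.1, h1.1] at this
      exact this.symm
    · rw [h1.2.2, h2.2.2, h3.2.2]; rfl
    · rw [h1.2.2, h2.2.2, h3.2.2]; rfl
    · exfalso
      apply hαβ
      have := h3.1
      rw [AlgEquiv.mul_apply, h2.1, h1.2.1] at this
      exact this
  · rintro s hs _ ⟨P, hP, rfl⟩
    have hcd := crit_decomp' h (hdec s hs)
    refine ⟨s • P, smul_mem_E0 hπ hred h (hdec s hs) hcd.1 hcd.2.1 hP, ?_⟩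
    exact (hθ s P).symm
  · intro s hs Q N hN hQ
    obtain ⟨Q', rfl⟩ := θ.surjective Q
    have hQ' : N • Q' = 0 := by
      apply θ.injective
      rw [map_nsmul, hQ, _root_.map_zero]
    have e : s • (θ Q') - z s • (θ Q') = θ (s • Q' - z s • Q') := by
      rw [map_sub, map_zsmul, ← hθ]
    rw [e, memB, AddEquiv.symm_apply_apply]
    have hcd := crit_decomp' h (hdec s hs)
    rcases hz s hs with h1 | h1
    · rw [h1.2.2, one_zsmul]
      exact smul_sub_mem_E0 hπ hred h (hdec s hs) hcd.1 hcd.2.1 h1.1 h1.2.1 hN hQ'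
    · rw [h1.2.2, neg_one_zsmul, sub_neg_eq_add]
      exact smul_add_mem_E0 hπ hred h (hdec s hs) hcd.1 hcd.2.1 h1.1 h1.2.1 hN hQ'
  · intro n hn0 hqn
    refine le_trans (le_of_eq ?_) (card_E0_le hπ hred h hn0 (hval n hqn))
    refine Nat.card_congr (Equiv.subtypeEquiv θ.symm.toEquiv fun P => ?_)
    rw [memB]
    refine and_congr Iff.rfl ?_
    change n • P = 0 ↔ n • θ.symm P = 0
    rw [← map_nsmul]
    exact (map_eq_zero_iff _ θ.symm.injective).symm
  · rintro s hs _ ⟨P, hP, rfl⟩ n hqn hP0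
    have hP0' : n • P = 0 := by
      apply θ.injective
      rw [map_nsmul, _root_.map_zero]
      exact hP0
    change s • θ P = θ P
    rw [hθ]
    congr 1
    refine EC.smul_eq_of_ns hInt (EC.trivMod_of_mem_inertia A hs) P ?_ (hval n hqn) ?_
    · intro hle
      rcases P with _ | ⟨x, y, np⟩
      · exfalso
        change A.valuation 1 ≤ A.valuation 0 at hle
        rw [_root_.map_one, _root_.map_zero] at hle
        exact absurd hle (not_le.mpr zero_lt_one)
      · have hx : x ∈ A := by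
          change A.valuation x ≤ A.valuation 1 at hle
          rw [_root_.map_one] at hle
          exact (A.valuation_le_one_iff _).mp hle
        exact ns_of_red hπ hred np hx (hred.y_mem np.1 hx) (hP hx _)
    · have e1 : n • (s • P) = s • (n • P) :=
        (map_nsmul (DistribSMul.toAddMonoidHom ((W.map (Int.castRingHom ℚ))⁄Qb).Point s) n P).symm
      rw [nsmul_sub, hP0', sub_zero, e1, hP0']
      exact smul_zero s
  · intro P N hN hP hfix
    obtain ⟨Q, rfl⟩ := θ.surjective P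
    have hQ : N • Q = 0 := by
      apply θ.injective
      rw [map_nsmul, hP, _root_.map_zero]
    rw [memB, map_nsmul, AddEquiv.symm_apply_apply]
    refine nsmul_mem_E0 hπ hred h hn hΔK (g := A.valuation ((q : ℕ) : Qb))
      (m := padicValInt q W.Δ) ?_ hN hQ ?_
    · rw [Δ_model]
      exact ZEC.val_int hq hA hΔ0
    · rintro x y np rfl hne
      refine SEL.exists_valuation_zpow_of_inertia A hq hA (sub_ne_zero.mpr hne) fun s hs => ?_
      have h1 := hfix s hs
      rw [hθ] at h1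
      have h2 := θ.injective h1
      have h3 : s x = x := by
        have h4 : s • (.some x y np : ((W.map (Int.castRingHom ℚ))⁄Qb).Point) = .some (s x) (s y)
          (((W.map (Int.castRingHom ℚ)).toAffine.baseChange_nonsingular (f := s.toAlgHom)
            s.toAlgHom.injective ..).mpr np) := rfl
        rw [h4] at h2
        exact congrArg ECP.xc h2
      have h5 := (h.fixed (R := ℚ) (S := ℚ) (EC.trivMod_of_mem_inertia A hs)).1
      rw [map_sub, h3]
      congr 1
  · intro hq2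
    have hcard : {P : ((W.map (Int.castRingHom ℚ))⁄Qb).Point | q • P = 0}.ncard = q ^ 2 := by
      rw [← card_torsionE E hq.pos]
      change Nat.card {P : ((W.map (Int.castRingHom ℚ))⁄Qb).Point // q • P = 0} = _
      refine Nat.card_congr (Equiv.subtypeEquiv θ.toEquiv fun P => ?_)
      change q • P = 0 ↔ q • θ P = 0
      rw [← map_nsmul]
      exact (map_eq_zero_iff _ θ.injective).symm
    obtain ⟨P, hP0, hP, hle⟩ := exists_tors_le hn hq hq2 hvq (by exact_mod_cast hq.ne_zero) hcard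
    refine ⟨θ P, ?_, ?_⟩
    · rw [← map_nsmul, hP, _root_.map_zero]
    · rw [memB, AddEquiv.symm_apply_apply]
      intro hPE
      have h1 := inE1_of_E0 hπ hred h (p := q) (n := 1) hPE (by rw [pow_one]; exact hP)
      rw [ECP.inE1_iff hP0] at h1
      exact absurd hle (not_le.mpr h1)

end Fermat.Agent.RTE
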