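import Mathlib

/-!
Two-dimensional representations: descent of eigenvectors and index-two subgroups.
-/

set_option autoImplicit false

namespace Fermat.Agent.RTE

open Matrix

section Alg

variable {F K : Type*} [Field F] [Field K]

/-- the determinant of two vectors -/
def d2 (u v : Fin 2 → K) : K := u 0 * v 1 - u 1 * v 0

theorem mulVec_two (M : Matrix (Fin 2) (Fin 2) K) (v : Fin 2 → K) :
    M *ᵥ v = ![M 0 0 * v 0 + M 0 1 * v 1, M 1 0 * v 0 + M 1 1 * v 1] := by
  ext i
  fin_cases i <;> simp [Matrix.mulVec, dotProduct, Fin.sum_univ_two]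

theorem exists_smul_of_d2 {u v : Fin 2 → K} (hv : v ≠ 0) (h : d2 u v = 0) : ∃ t : K, u = t • v := by
  have h1 : v 0 ≠ 0 ∨ v 1 ≠ 0 := by
    by_contra hc
    push Not at hc
    apply hv
    ext i
    fin_cases i
    · exact hc.1
    · exact hc.2
  rw [d2] at h
  rcases h1 with h1 | h1
  · refine ⟨u 0 / v 0, ?_⟩
    ext i
    fin_cases i
    · simp only [Fin.zero_eta, Pi.smul_apply, smul_eq_mul]; field_simp
    · simp only [Fin.mk_one, Pi.smul_apply, smul_eq_mul]; field_simp; linear_combination -h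
  · refine ⟨u 1 / v 1, ?_⟩
    ext i
    fin_cases i
    · simp only [Fin.zero_eta, Pi.smul_apply, smul_eq_mul]; field_simp; linear_combination h
    · simp only [Fin.mk_one, Pi.smul_apply, smul_eq_mul]; field_simp

theorem d2_smul (t : K) (v : Fin 2 → K) : d2 (t • v) v = 0 := by
  rw [d2, Pi.smul_apply, Pi.smul_apply, smul_eq_mul, smul_eq_mul]; ring

/-- two vectors killed by a nonzero matrix -/
theorem exists_vec_of_ker [Algebra F K] {M : Matrix (Fin 2) (Fin 2) F} (hM : M ≠ 0) :
    ∃ e : Fin 2 → F, e ≠ 0 ∧ ∀ v : Fin 2 → K, M.map (algebraMap F K) *ᵥ v = 0 →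
      ∃ t : K, v = t • (fun i => algebraMap F K (e i)) := by
  obtain ⟨i, hi⟩ : ∃ i, M i 0 ≠ 0 ∨ M i 1 ≠ 0 := by
    by_contra hc
    push Not at hc
    apply hM
    ext i j
    fin_cases j
    · exact (hc i).1
    · exact (hc i).2
  have he : (![M i 1, - M i 0] : Fin 2 → F) ≠ 0 := by
    intro h
    have h0 := congrFun h 0
    have h1 := congrFun h 1
    simp only [Matrix.cons_val_zero, Matrix.cons_val_one, Pi.zero_apply, neg_eq_zero] at h0 h1
    rcases hi with h | h
    · exact h h1
    · exact h h0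
  refine ⟨![M i 1, - M i 0], he, fun v hv => ?_⟩
  apply exists_smul_of_d2
  · intro h
    apply he
    ext j
    have hj := congrFun h j
    simp only [Pi.zero_apply] at hj
    exact (map_eq_zero (algebraMap F K)).mp hj
  · have h2 := congrFun hv i
    simp only [Matrix.mulVec, dotProduct, Fin.sum_univ_two, Matrix.map_apply, Pi.zero_apply] at h2
    rw [d2]
    simp only [Matrix.cons_val_zero, Matrix.cons_val_one, map_neg]
    linear_combination -h2

theorem sq_eq (M : Matrix (Fin 2) (Fin 2) K) : M * M = M.trace • M - M.det • 1 := by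
  ext i j
  fin_cases i <;> fin_cases j <;>
    simp [Matrix.mul_apply, Fin.sum_univ_two, Matrix.trace_fin_two, Matrix.det_fin_two] <;> ring

/-- **Descent of common eigenvectors** in the presence of an element with eigenvalues `1, -1`. -/
theorem eig_descend [Algebra F K] (h2 : (2 : F) ≠ 0) {G : Type*} [Group G]
    (r : G →* Matrix (Fin 2) (Fin 2) F) (H : Set G) {c : G} (hcH : c ∈ H) (hc : r c * r c = 1)
    (hdet : (r c).det = -1) (v : Fin 2 → K) (hv : v ≠ 0)
    (hev : ∀ h ∈ H, ∃ t : K, (r h).map (algebraMap F K) *ᵥ v = t • v) :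
    ∃ e : Fin 2 → F, e ≠ 0 ∧ ∀ h ∈ H, ∃ t : F, r h *ᵥ e = t • e := by
  obtain ⟨t, ht⟩ := hev c hcH
  have hcK : (r c).map (algebraMap F K) * (r c).map (algebraMap F K) = 1 := by
    rw [← Matrix.map_mul, hc, Matrix.map_one _ (map_zero _) (map_one _)]
  have ht2 : t * t = 1 := by
    have h3 : ((r c).map (algebraMap F K) * (r c).map (algebraMap F K)) *ᵥ v = (t * t) • v := by
      rw [← Matrix.mulVec_mulVec, ht, Matrix.mulVec_smul, ht, smul_smul]
    rw [hcK, Matrix.one_mulVec] at h3
    have h4 : (t * t - 1) • v = 0 := by rw [sub_smul, one_smul, ← h3, sub_self]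
    have h5 := (smul_eq_zero.mp h4).resolve_right hv
    exact sub_eq_zero.mp h5
  have hone : ∀ s : F, s * s = 1 → r c ≠ s • 1 := by
    intro s hs h
    rw [h, Matrix.det_smul, Matrix.det_one, Fintype.card_fin, mul_one, sq, hs] at hdet
    apply h2
    have : (1 : F) + 1 = 0 := by linear_combination hdet
    rw [← this]; norm_num
  -- the eigenvalue is `s = ±1`
  obtain ⟨s, hs, hst⟩ : ∃ s : F, s * s = 1 ∧ algebraMap F K s = t := by
    have h3 : (t - 1) * (t + 1) = 0 := by linear_combination ht2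
    rcases mul_eq_zero.mp h3 with h | h
    · exact ⟨1, by ring, by rw [map_one]; linear_combination -h⟩
    · exact ⟨-1, by ring, by rw [map_neg, map_one]; linear_combination -h⟩
  have hM : r c - s • 1 ≠ 0 := sub_ne_zero.mpr (hone s hs)
  obtain ⟨e, he, hker⟩ := exists_vec_of_ker (K := K) hM
  have hmap : (r c - s • 1).map (algebraMap F K) *ᵥ v = 0 := by
    have h3 : (r c - s • 1).map (algebraMap F K) = (r c).map (algebraMap F K) - t • 1 := by
      ext i j
      rw [Matrix.map_apply, Matrix.sub_apply, Matrix.sub_apply, Matrix.map_apply,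
        Matrix.smul_apply, Matrix.smul_apply, map_sub, smul_eq_mul, smul_eq_mul, map_mul, hst]
      congr 2
      rw [Matrix.one_apply, Matrix.one_apply]
      split_ifs <;> simp
    rw [h3, Matrix.sub_mulVec, ht, Matrix.smul_mulVec, Matrix.one_mulVec, sub_self]
  obtain ⟨a, ha⟩ := hker v hmap
  have ha0 : a ≠ 0 := by
    rintro rfl
    apply hv
    rw [ha, zero_smul]
  refine ⟨e, he, fun h hh => ?_⟩
  obtain ⟨b, hb⟩ := hev h hh
  apply exists_smul_of_d2 he
  have h3 : (r h).map (algebraMap F K) *ᵥ (fun i => algebraMap F K (e i)) =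
      b • (fun i => algebraMap F K (e i)) := by
    have h4 := hb
    rw [ha, Matrix.mulVec_smul, smul_comm] at h4
    exact smul_right_injective _ ha0 h4
  have h4 : (r h).map (algebraMap F K) *ᵥ (fun i => algebraMap F K (e i)) =
      fun i => algebraMap F K ((r h *ᵥ e) i) := by
    ext i
    simp only [Matrix.mulVec, dotProduct, Fin.sum_univ_two, Matrix.map_apply, map_add, map_mul]
  rw [h4] at h3
  have h5 := d2_smul b (fun i => algebraMap F K (e i))
  rw [← h3, d2, ← map_mul, ← map_mul, ← map_sub, map_eq_zero] at h5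
  exact h5

/-- **Dihedral type**: an index-two subgroup with a common eigenvector which is not a common
eigenvector of the whole group. -/
theorem dihedral {G : Type*} [Group G] (r : G →* Matrix (Fin 2) (Fin 2) K) {H : Subgroup G}
    (hH : H.index = 2) {v : Fin 2 → K} (hv : v ≠ 0) (hev : ∀ h ∈ H, ∃ t : K, r h *ᵥ v = t • v)
    (hne : ¬ ∀ g, ∃ t : K, r g *ᵥ v = t • v) :
    (∀ x, x ∉ H → (r x).trace = 0) ∧
      ∀ h, (r h - 1) * (r h - 1) = 0 → (2 : K) ≠ 0 → r h = 1 := by
  have hN : H.Normal := Subgroup.normal_of_index_eq_two hH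
  have key : ∀ x, x ∉ H → d2 (r x *ᵥ v) v ≠ 0 := by
    intro x hx h0
    obtain ⟨t, ht⟩ := exists_smul_of_d2 hv h0
    apply hne
    intro g
    by_cases hg : g ∈ H
    · exact hev g hg
    · have h1 : g * x⁻¹ ∈ H := by
        rw [Subgroup.mul_mem_iff_of_index_two hH, Subgroup.inv_mem_iff]
        tauto
      obtain ⟨s, hs⟩ := hev _ h1
      refine ⟨t * s, ?_⟩
      have h2 : g = (g * x⁻¹) * x := by group
      rw [h2, map_mul, ← Matrix.mulVec_mulVec, ht, Matrix.mulVec_smul, hs, smul_smul]
  have htr : ∀ x, x ∉ H → (r x).trace = 0 := by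
    intro x hx
    have h1 := key x hx
    have hxx : x * x ∈ H := by
      rw [Subgroup.mul_mem_iff_of_index_two hH]
    obtain ⟨b, hb⟩ := hev _ hxx
    rw [map_mul, sq_eq, Matrix.sub_mulVec, Matrix.smul_mulVec, Matrix.smul_mulVec,
      Matrix.one_mulVec] at hb
    have h2 : (r x).trace • (r x *ᵥ v) = (b + (r x).det) • v := by
      rw [add_smul, ← hb]; abel
    have h3 : (r x).trace * d2 (r x *ᵥ v) v = 0 := by
      have h4 : d2 ((r x).trace • (r x *ᵥ v)) v = (r x).trace * d2 (r x *ᵥ v) v := by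
        simp only [d2, Pi.smul_apply, smul_eq_mul]; ring
      rw [← h4, h2, d2_smul]
    exact (mul_eq_zero.mp h3).resolve_right h1
  refine ⟨htr, fun h hh h2 => ?_⟩
  obtain ⟨x, hx⟩ : ∃ x, x ∉ H := by
    by_contra hc
    push Not at hc
    have : H = ⊤ := by rw [eq_top_iff]; intro g _; exact hc g
    rw [this, Subgroup.index_top] at hH
    exact absurd hH (by norm_num)
  have htd : (r h).trace = 2 := by
    have h3 : (r h - 1).trace = 0 := by
      by_contra h4
      have h5 := sq_eq (r h - 1)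
      rw [hh] at h5
      have hdet : (r h - 1).det = 0 := by
        have h6 : ((r h - 1) * (r h - 1)).det = 0 := by rw [hh]; simp
        rw [Matrix.det_mul] at h6
        exact mul_self_eq_zero.mp h6
      rw [hdet, zero_smul, sub_zero] at h5
      have h7 := (smul_eq_zero.mp h5.symm).resolve_left h4
      rw [h7] at h4
      exact h4 (by simp)
    rw [Matrix.trace_sub, Matrix.trace_one, Fintype.card_fin] at h3
    have := sub_eq_zero.mp h3
    rw [this]; norm_num
  have hhH : h ∈ H := by
    by_contra hc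
    rw [htr h hc] at htd
    exact h2 htd.symm
  have hfix : ∀ u : Fin 2 → K, (∃ t : K, r h *ᵥ u = t • u) → (r h - 1) *ᵥ u = 0 := by
    rintro u ⟨t, ht⟩
    by_cases hu : u = 0
    · rw [hu, Matrix.mulVec_zero]
    have h3 : (r h - 1) *ᵥ u = (t - 1) • u := by
      rw [Matrix.sub_mulVec, ht, Matrix.one_mulVec, sub_smul, one_smul]
    have h4 : ((r h - 1) * (r h - 1)) *ᵥ u = ((t - 1) * (t - 1)) • u := by
      rw [← Matrix.mulVec_mulVec, h3, Matrix.mulVec_smul, h3, smul_smul]
    rw [hh, Matrix.zero_mulVec] at h4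
    have h5 := (smul_eq_zero.mp h4.symm).resolve_right hu
    rw [h3, mul_self_eq_zero.mp h5, zero_smul]
  have h3 := hfix v (hev h hhH)
  have h4 : (r h - 1) *ᵥ (r x *ᵥ v) = 0 := by
    apply hfix
    have h5 : x⁻¹ * h * x ∈ H := by
      have := hN.conj_mem h hhH x⁻¹
      simpa using this
    obtain ⟨t, ht⟩ := hev _ h5
    refine ⟨t, ?_⟩
    have h6 : h * x = x * (x⁻¹ * h * x) := by group
    rw [Matrix.mulVec_mulVec, ← map_mul, h6, map_mul, ← Matrix.mulVec_mulVec, ht,
      Matrix.mulVec_smul]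
  have h5 := key x hx
  rw [← sub_eq_zero]
  set N := r h - 1 with hN'
  set w := r x *ᵥ v with hw
  have hrow : ∀ i, N i 0 = 0 ∧ N i 1 = 0 := by
    intro i
    have e1 := congrFun h3 i
    have e2 := congrFun h4 i
    simp only [Matrix.mulVec, dotProduct, Fin.sum_univ_two, Pi.zero_apply] at e1 e2
    rw [d2] at h5
    constructor
    · have : N i 0 * (w 0 * v 1 - w 1 * v 0) = 0 := by linear_combination v 1 * e2 - w 1 * e1
      exact (mul_eq_zero.mp this).resolve_right h5
    · have : N i 1 * (w 0 * v 1 - w 1 * v 0) = 0 := by linear_combination w 0 * e1 - v 0 * e2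
      exact (mul_eq_zero.mp this).resolve_right h5
  ext i j
  fin_cases j
  · exact (hrow i).1
  · exact (hrow i).2

end Alg

end Fermat.Agent.RTE
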