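import Fermat.Agent.RTE.Mat
import Fermat.Agent.LevelRaise.GalKummer

/-!
Absolute irreducibility of `E[p]` on subgroups of index at most two.
-/

set_option autoImplicit false

namespace Fermat.Agent.RTE

open WeierstrassCurve WeierstrassCurve.Affine
open Fermat.Agent.ERep Fermat.Agent.Tate
open Fermat.Agent.DefRing (M2 mapRep mapRep_apply MatCont)
open Matrix

section Facts

variable (E : WeierstrassCurve ℚ) [E.IsElliptic] (p : ℕ) [hp : Fact p.Prime]
  {W : WeierstrassCurve ℤ} (hWE : W.IsIntegralModelOf E)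

/-- level of the residual representation -/
theorem modE_cont : ∃ L : IntermediateField ℚ Qb, FiniteDimensional ℚ L ∧
    ∀ σ : GQ, (∀ x ∈ L, σ x = x) → modE E p σ = 1 := by
  obtain ⟨L, hL, h⟩ := matE_cont E p 1
  refine ⟨L, hL, fun σ hσ => ?_⟩
  ext i j
  have h1 := h σ hσ i j
  rw [pow_one, Matrix.sub_apply, ← PadicInt.ker_toZMod, RingHom.mem_ker, map_sub, sub_eq_zero] at h1
  rw [modE_apply, h1, Matrix.one_apply, Matrix.one_apply]
  split_ifs <;> simp

include hWE in
theorem det_modE (hns : NonScalar E p) (s : GQ) (a : ℕ) (h : ∀ μ : Qb, μ ^ p = 1 → s μ = μ ^ a) :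
    (modE E p s).det = a := by
  have h1 : (modE E p s).det = PadicInt.toZMod (matE E p s).det := by
    rw [RingHom.map_det]
    rfl
  rw [h1, det_matE, det_eq_cyc E p hWE hns]
  have h2 := QuadRep.cyc_sub_mem (p_mem p) 1 a s (fun μ hμ => h μ (by rwa [pow_one] at hμ))
  rw [pow_one, ← PadicInt.ker_toZMod, RingHom.mem_ker, map_sub, sub_eq_zero, map_natCast] at h2
  exact h2

include hWE in
theorem modE_inertia_good {A : ValuationSubring Qb} {q : ℕ} (hq : q.Prime)
    (hA : A.LiesOverPrime q) (hqp : q ≠ p) (hW : W.IsGoodPrimeFor q) {s : GQ}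
    (hs : s ∈ A.inertiaSubgroupIn ℚ) : modE E p s = 1 := by
  rw [modE]
  have h1 := matE_of_repE E p (repE_inertia_good E p hWE hq hA hqp hW hs)
  ext i j
  rw [mapRep_apply, h1, Matrix.one_apply, Matrix.one_apply]
  split_ifs <;> simp

include hWE in
theorem matE_inertia_mult {A : ValuationSubring Qb} {q : ℕ} (hq : q.Prime)
    (hA : A.LiesOverPrime q) (hqp : q ≠ p) (hΔ : (q : ℤ) ∣ W.Δ) (hc : ¬ (q : ℤ) ∣ W.c₄) {s t : GQ}
    (hs : s ∈ A.inertiaSubgroupIn ℚ) (ht : t ∈ A.inertiaSubgroupIn ℚ) :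
    (matE E p s - 1) * (matE E p t - 1) = 0 := by
  have h1 := repE_inertia_mult E p hWE hq hA hqp hΔ hc ht hs
  rw [matE_eq, matE_eq, ← LinearMap.toMatrix'_one, ← map_sub, ← map_sub,
    ← LinearMap.toMatrix'_mul]
  rw [h1, map_zero]

include hWE in
theorem modE_inertia_mult {A : ValuationSubring Qb} {q : ℕ} (hq : q.Prime)
    (hA : A.LiesOverPrime q) (hqp : q ≠ p) (hΔ : (q : ℤ) ∣ W.Δ) (hc : ¬ (q : ℤ) ∣ W.c₄) {s : GQ}
    (hs : s ∈ A.inertiaSubgroupIn ℚ) :
    (modE E p s - 1) * (modE E p s - 1) = 0 := by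
  have h1 := matE_inertia_mult E p hWE hq hA hqp hΔ hc hs hs
  have h2 : modE E p s - 1 = (PadicInt.toZMod : ℤ_[p] →+* ZMod p).mapMatrix (matE E p s - 1) := by
    rw [map_sub, map_one]
    rfl
  rw [h2, ← map_mul, h1, map_zero]

end Facts

section Main

variable (E : WeierstrassCurve ℚ) [E.IsElliptic] (p : ℕ) [hp : Fact p.Prime]
  {W : WeierstrassCurve ℤ} (hWE : W.IsIntegralModelOf E)

include hWE in
theorem exists_conj_modE (_hp2 : p ≠ 2) (hns : NonScalar E p) :
    ∃ c : GQ, c * c = 1 ∧ (modE E p c).det = -1 ∧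
      (∀ (n : ℕ), 0 < n → ∀ ζ : Qb, ζ ^ n = 1 → c ζ = ζ⁻¹) := by
  obtain ⟨c, hc, hζ⟩ := LRGal.exists_conj
  refine ⟨c, hc, ?_, hζ⟩
  rw [det_modE E p hWE hns c (p - 1) (fun μ hμ => ?_)]
  · rw [Nat.cast_sub hp.out.one_le, CharP.cast_eq_zero]
    simp
  · rw [hζ p hp.out.pos μ hμ]
    have hμ0 : μ ≠ 0 := by
      rintro rfl
      rw [zero_pow hp.out.ne_zero] at hμ
      exact zero_ne_one hμ
    have h1 : μ * μ ^ (p - 1) = 1 := by
      rw [← pow_succ', Nat.sub_add_cancel hp.out.one_le, hμ]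
    exact inv_eq_of_mul_eq_one_right h1

theorem two_ne_zero_zmod (hp2 : p ≠ 2) : (2 : ZMod p) ≠ 0 := by
  intro h
  have h1 : ((2 : ℕ) : ZMod p) = 0 := by exact_mod_cast h
  rw [ZMod.natCast_eq_zero_iff] at h1
  exact hp2 ((Nat.prime_dvd_prime_iff_eq hp.out Nat.prime_two).mp h1)

include hWE in
/-- absolute irreducibility -/
theorem modE_absirr (hp2 : p ≠ 2) (hirr : Affine.Point.GaloisRepIsIrreducible (K := Qb) ℚ E p)
    {K : Type*} [Field K] [Algebra (ZMod p) K] {v : Fin 2 → K} (hv : v ≠ 0) :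
    ¬ ∀ s, ∃ t : K, (modE E p s).map (algebraMap (ZMod p) K) *ᵥ v = t • v := by
  intro hcon
  have hns := nonScalar_of_irreducible E p hirr
  obtain ⟨c, hc, hdet, -⟩ := exists_conj_modE E p hWE hp2 hns
  obtain ⟨e, he, hev⟩ := eig_descend (two_ne_zero_zmod p hp2) (modE E p) Set.univ (Set.mem_univ c)
    (by rw [← map_mul, hc, map_one]) hdet v hv (fun h _ => hcon h)
  obtain ⟨s, hs⟩ := modE_irr E p hirr he
  obtain ⟨t, ht⟩ := hev s (Set.mem_univ s)
  exact hs t ht

/-- the case hypothesis -/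
def Case (W : WeierstrassCurve ℤ) (p : ℕ) : Prop := p = 3 ∨ p = 5 ∨ ¬ p ∣ padicValInt 2 W.Δ

include hWE in
theorem modE_irr_two (hss : W.IsSemistableModel) (h2 : (2 : ℤ) ∣ W.Δ) (hp2 : p ≠ 2)
    (hcase : Case W p) (hirr : Affine.Point.GaloisRepIsIrreducible (K := Qb) ℚ E p)
    {K : Type*} [Field K] [Algebra (ZMod p) K] {H : Subgroup GQ} (hH : H.index = 2)
    {v : Fin 2 → K} (hv : v ≠ 0) :
    ¬ ∀ s ∈ H, ∃ t : K, (modE E p s).map (algebraMap (ZMod p) K) *ᵥ v = t • v := by
  intro hcon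
  have hns := nonScalar_of_irreducible E p hirr
  have hΔ0 : W.Δ ≠ 0 := Δ_ne_zero E hWE
  have hinj : Function.Injective (algebraMap (ZMod p) K) := (algebraMap (ZMod p) K).injective
  set r : GQ →* Matrix (Fin 2) (Fin 2) K :=
    ((algebraMap (ZMod p) K).mapMatrix : Matrix (Fin 2) (Fin 2) (ZMod p) →+* _).toMonoidHom.comp
      (modE E p) with hr
  have hr' : ∀ s, r s = (modE E p s).map (algebraMap (ZMod p) K) := fun s => rfl
  have habs : ¬ ∀ g, ∃ t : K, r g *ᵥ v = t • v := modE_absirr E p hWE hp2 hirr hv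
  have hcharK : CharP K p := charP_of_injective_algebraMap hinj p
  have h2K : (2 : K) ≠ 0 := by
    have := (map_ne_zero_iff _ hinj).mpr (two_ne_zero_zmod p hp2)
    rwa [map_ofNat] at this
  obtain ⟨htr, huni⟩ := dihedral r hH hv hcon habs
  -- unipotents are trivial
  have huni' : ∀ h, (modE E p h - 1) * (modE E p h - 1) = 0 → modE E p h = 1 := by
    intro h hh
    have h3 : (r h - 1) * (r h - 1) = 0 := by
      have h4 : r h - 1 = (algebraMap (ZMod p) K).mapMatrix (modE E p h - 1) := by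
        rw [map_sub, map_one]; rfl
      rw [h4, ← map_mul, hh, map_zero]
    have h5 := huni h h3 h2K
    ext i j
    apply hinj
    have h6 := congrFun (congrFun h5 i) j
    rw [hr', Matrix.map_apply] at h6
    rw [h6, Matrix.one_apply, Matrix.one_apply]
    split_ifs <;> simp
  -- inertia away from `p` is trivial
  have hin : ∀ l : ℕ, l.Prime → l ≠ p → ∀ A : ValuationSubring Qb, A.LiesOverPrime l →
      ∀ s ∈ A.inertiaSubgroupIn ℚ, modE E p s = 1 := by
    intro l hl hlp A hA s hs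
    by_cases hgood : W.IsGoodPrimeFor l
    · exact modE_inertia_good E p hWE hl hA hlp hgood hs
    · have hΔ : (l : ℤ) ∣ W.Δ := not_not.mp hgood
      exact huni' s (modE_inertia_mult E p hWE hl hA hlp hΔ (hss l hl hΔ) hs)
  -- the kernel is contained in `H`
  have hker : ∀ n, modE E p n = 1 → n ∈ H := by
    intro n hn
    by_contra hnH
    apply habs
    intro g
    by_cases hg : g ∈ H
    · exact hcon g hg
    · have h3 : g * n⁻¹ ∈ H := by
        rw [Subgroup.mul_mem_iff_of_index_two hH, Subgroup.inv_mem_iff]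
        tauto
      obtain ⟨t, ht⟩ := hcon _ h3
      refine ⟨t, ?_⟩
      have h4 : modE E p g = modE E p (g * n⁻¹) := by
        have h5 : g = (g * n⁻¹) * n := by group
        conv_lhs => rw [h5]
        rw [map_mul, hn, mul_one]
      rw [hr', h4]
      exact ht
  obtain ⟨L, hLfin, hL⟩ := modE_cont E p
  have hLker : ∀ K' : Subgroup GQ, (∀ n, modE E p n = 1 → n ∈ K') → L.fixingSubgroup ≤ K' := by
    intro K' hK' σ hσ
    apply hK'
    apply hL
    rwa [IntermediateField.mem_fixingSubgroup_iff] at hσ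
  obtain ⟨A, hA⟩ : ∃ A : ValuationSubring Qb, A.LiesOverPrime 2 :=
    Frob.exists_liesOverPrime Qb Nat.prime_two
  have h2' : ((2 : ℕ) : ℤ) ∣ W.Δ := by exact_mod_cast h2
  have hc2 : ¬ ((2 : ℕ) : ℤ) ∣ W.c₄ := hss 2 Nat.prime_two h2'
  obtain ⟨C⟩ := exists_locMult E hWE Nat.prime_two hA h2' hc2
  have h2p : ¬ 2 ∣ p := by
    intro h
    exact hp2 ((Nat.prime_dvd_prime_iff_eq Nat.prime_two hp.out).mp h).symm
  have hm0 : padicValInt 2 W.Δ ≠ 0 := by
    have : Fact (Nat.Prime 2) := ⟨Nat.prime_two⟩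
    intro h5
    have h6 : ((2 : ℕ) : ℤ) ^ 1 ∣ W.Δ := by simpa using h2'
    rcases (padicValInt_dvd_iff 1 W.Δ).mp h6 with h | h
    · exact hΔ0 h
    · omega
  rcases hcase with h3 | h5 | hpm
  · -- `p = 3`
    subst h3
    obtain ⟨c, hc, hdet, hζ⟩ := exists_conj_modE E 3 hWE hp2 hns
    obtain ⟨d, δ, h4, h5, hδ, hiff⟩ := exists_pstar Nat.prime_three (by norm_num) hH L
      (hLker H hker) (fun l hl hl3 A hA s hs => hker s (hin l hl hl3 A hA s hs))
    have hd : d = -3 := by
      push_cast at h5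
      omega
    have hcH : c ∉ H := by
      rw [hiff]
      intro hfix
      rw [hd] at hδ
      set ζ : Qb := (-1 + δ) / 2 with hζdef
      have h6 : ζ ^ 2 + ζ + 1 = 0 := by
        rw [hζdef]
        push_cast at hδ
        linear_combination (1 / 4 : Qb) * hδ
      have h7 : ζ ^ 3 = 1 := by linear_combination (ζ - 1) * h6
      have h8 : ζ ≠ 0 := by
        intro h
        rw [h] at h7
        norm_num at h7
      have h9 : c ζ = ζ := by
        rw [hζdef, map_div₀, map_add, hfix, map_neg, map_one, map_ofNat]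
      have h10 := hζ 3 (by norm_num) ζ h7
      rw [h9] at h10
      have h11 : ζ * ζ = 1 := by
        calc ζ * ζ = ζ * ζ⁻¹ := by rw [← h10]
          _ = 1 := mul_inv_cancel₀ h8
      have h12 : ζ = -2 := by linear_combination h6 - h11
      rw [h12] at h11
      norm_num at h11
    have hall := three_case (modE E 3) hcH (by rw [← map_mul, hc, map_one]) hker huni'
      (fun K' hK' hK'ker => eq_of_pstar Nat.prime_three (by norm_num) hK' hH L (hLker K' hK'ker)
        (hLker H hker) (fun l hl hl3 A hA s hs => hK'ker s (hin l hl hl3 A hA s hs))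
        (fun l hl hl3 A hA s hs => hker s (hin l hl hl3 A hA s hs)))
    -- an eigenvector of `r c`
    have hc1 : modE E 3 c - 1 ≠ 0 := by
      intro h
      apply hcH
      exact hker c (sub_eq_zero.mp h)
    obtain ⟨i, j, hij⟩ : ∃ i j, (modE E 3 c - 1) i j ≠ 0 := by
      by_contra hcc
      push Not at hcc
      apply hc1
      ext i j
      exact hcc i j
    set e : Fin 2 → ZMod 3 := (modE E 3 c - 1) *ᵥ (Pi.single j 1) with he
    have he0 : e ≠ 0 := by
      intro h
      apply hij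
      have := congrFun h i
      rw [he, Matrix.mulVec_single_one] at this
      exact this
    obtain ⟨s, hs⟩ := modE_irr E 3 hirr he0
    rcases hall s with h | h
    · apply hs 1
      rw [h, Matrix.one_mulVec, one_smul]
    · apply hs (-1)
      rw [h, he, Matrix.mulVec_mulVec, mul_sub, ← map_mul, hc, map_one, mul_one, neg_smul,
        one_smul, ← Matrix.neg_mulVec, neg_sub]
  · -- `p = 5`
    subst h5
    obtain ⟨d, δ, h4, h5, hδ, hiff⟩ := exists_pstar Nat.prime_five (by norm_num) hH L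
      (hLker H hker) (fun l hl hl3 A hA s hs => hker s (hin l hl hl3 A hA s hs))
    have hd : d = 5 := by
      push_cast at h5
      omega
    obtain ⟨σ, hσ⟩ := Frob.exists_isFrobeniusAt Nat.prime_two hA
    have hδ5 : δ ^ 2 = 5 := by rw [hδ, hd]; norm_num
    have hσH : σ ∉ H := by
      rw [hiff]
      exact frob_two_sqrt_five hδ5 hA hσ
    have h6 := htr σ hσH
    have hσD : σ ∈ A.decompositionSubgroup ℚ := hσ.mem_decompositionSubgroup
    have h7 := trE_mult E 5 C (by norm_num) h2p hm0 Nat.prime_two hWE hns hσD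
    have h8 : cycE 5 σ = ((2 : ℕ) : ℤ_[5]) :=
      QuadRep.cyc_frobenius (p_mem 5) Nat.prime_two (by norm_num) hA hσ
    have h9 : (r σ).trace = algebraMap (ZMod 5) K (PadicInt.toZMod (trE E 5 σ)) := by
      rw [← trace_matE]
      simp only [Matrix.trace, Matrix.diag_apply, map_sum]
      rfl
    rw [h9, h7, h8, map_mul, map_mul, map_add, map_one, map_natCast, map_intCast] at h6
    have h3 : ((3 : ℕ) : ZMod 5) ≠ 0 := by
      rw [Ne, ZMod.natCast_eq_zero_iff]
      norm_num
    have h10 : algebraMap (ZMod 5) K (1 + ((2 : ℕ) : ZMod 5)) ≠ 0 := by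
      rw [map_ne_zero_iff _ hinj]
      intro h
      apply h3
      rw [← h]; norm_num
    rcases mul_eq_zero.mp h6 with h | h
    · rw [map_eq_zero_iff _ hinj] at h
      rcases C.z_pm σ hσD with hz | hz
      · rw [hz] at h
        norm_num at h
      · rw [hz] at h
        norm_num at h
    · exact h10 h
  · -- ramified at `2`
    obtain ⟨s, hs, P, hP, hne⟩ := exists_inertia_ne E p C hp2 h2p hpm
    exact hne ((modE_eq_one_iff E p s).mp
      (hin 2 Nat.prime_two (fun h => hp2 h.symm) A hA s hs) P hP)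

end Main

end Fermat.Agent.RTE
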