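import Fermat.Agent.RTE.Curve
import Fermat.Agent.ERep.Trace
import Fermat.Agent.ELoc.Basis

/-!
# The line in the `p`-adic Tate module of a curve multiplicative at `p`
-/

set_option autoImplicit false
set_option linter.unusedSectionVars false

namespace Fermat.Agent.RTE

open WeierstrassCurve WeierstrassCurve.Affine
open Fermat.Agent.ERep Fermat.Agent.Tate

local notation "Qb" => AlgebraicClosure ℚ
local notation "GQ" => AlgebraicClosure ℚ ≃ₐ[ℚ] AlgebraicClosure ℚ

section Alg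

variable {p : ℕ} [hp : Fact p.Prime]

theorem exists_primitive {x : Fin 2 → ℤ_[p]} (hx : x ≠ 0) :
    ∃ (m : ℕ) (y : Fin 2 → ℤ_[p]), x = (p : ℤ_[p]) ^ m • y ∧ ∃ i, IsUnit (y i) := by
  classical
  have h2 : Prime (p : ℤ_[p]) := PadicInt.prime_p
  obtain ⟨j, hj⟩ : ∃ j, x j ≠ 0 := by
    by_contra hcon
    push Not at hcon
    exact hx (funext hcon)
  have hex : ∃ n : ℕ, ¬ ∀ i, (p : ℤ_[p]) ^ n ∣ x i := by
    have := FiniteMultiplicity.of_prime_left h2 hj
    obtain ⟨n, hn⟩ := this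
    exact ⟨n + 1, fun h => hn (h j)⟩
  obtain ⟨m, hm⟩ : ∃ m, Nat.find hex = m + 1 := by
    refine Nat.exists_eq_succ_of_ne_zero fun h => ?_
    have := Nat.find_spec hex
    rw [h] at this
    exact this fun i => by rw [pow_zero]; exact one_dvd _
  have h1 : ∀ i, (p : ℤ_[p]) ^ m ∣ x i := by
    by_contra hcon
    exact Nat.find_min hex (by omega) hcon
  choose y hy using h1
  refine ⟨m, y, funext hy, ?_⟩
  by_contra hcon
  push Not at hcon
  have h3 := Nat.find_spec hex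
  rw [hm] at h3
  apply h3
  intro i
  have h4 : (p : ℤ_[p]) ∣ y i := by
    have h5 : y i ∈ IsLocalRing.maximalIdeal ℤ_[p] := hcon i
    rwa [PadicInt.maximalIdeal_eq_span_p, Ideal.mem_span_singleton] at h5
  rw [pow_succ, hy i]
  exact mul_dvd_mul_left _ h4

/-- the determinant form -/
noncomputable def dform (e : Fin 2 → ℤ_[p]) : (Fin 2 → ℤ_[p]) →ₗ[ℤ_[p]] ℤ_[p] where
  toFun x := e 0 * x 1 - e 1 * x 0
  map_add' x y := by simp only [Pi.add_apply]; ring
  map_smul' a x := by simp only [Pi.smul_apply, smul_eq_mul, RingHom.id_apply]; ring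

theorem dform_apply (e x : Fin 2 → ℤ_[p]) : dform e x = e 0 * x 1 - e 1 * x 0 := rfl

theorem dform_self (e : Fin 2 → ℤ_[p]) : dform e e = 0 := by rw [dform_apply]; ring

theorem dform_surjective {e : Fin 2 → ℤ_[p]} (he : ∃ i, IsUnit (e i)) :
    Function.Surjective (dform e) := by
  intro c
  obtain ⟨i, u, hu⟩ := he
  have hinv : (u : ℤ_[p]) * (↑u⁻¹ : ℤ_[p]) = 1 := Units.mul_inv u
  fin_cases i
  · refine ⟨![0, (↑u⁻¹ : ℤ_[p]) * c], ?_⟩
    rw [dform_apply]
    have hu' : (u : ℤ_[p]) = e 0 := hu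
    rw [← hu']
    simp only [Matrix.cons_val_zero, Matrix.cons_val_one]
    linear_combination c * hinv
  · refine ⟨![-((↑u⁻¹ : ℤ_[p]) * c), 0], ?_⟩
    rw [dform_apply]
    have hu' : (u : ℤ_[p]) = e 1 := hu
    rw [← hu']
    simp only [Matrix.cons_val_zero, Matrix.cons_val_one]
    linear_combination c * hinv

theorem dform_eq_zero_iff {e : Fin 2 → ℤ_[p]} (he : ∃ i, IsUnit (e i)) (x : Fin 2 → ℤ_[p]) :
    dform e x = 0 ↔ ∃ a : ℤ_[p], x = a • e := by
  constructor
  · intro h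
    rw [dform_apply] at h
    obtain ⟨i, u, hu⟩ := he
    have hinv : (u : ℤ_[p]) * (↑u⁻¹ : ℤ_[p]) = 1 := Units.mul_inv u
    fin_cases i
    · have hu' : (u : ℤ_[p]) = e 0 := hu
      rw [← hu'] at h
      refine ⟨(↑u⁻¹ : ℤ_[p]) * x 0, funext fun j => ?_⟩
      fin_cases j
      · show x 0 = (↑u⁻¹ : ℤ_[p]) * x 0 * e 0
        rw [← hu']
        linear_combination (-x 0) * hinv
      · show x 1 = (↑u⁻¹ : ℤ_[p]) * x 0 * e 1
        linear_combination (↑u⁻¹ : ℤ_[p]) * h - x 1 * hinv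
    · have hu' : (u : ℤ_[p]) = e 1 := hu
      rw [← hu'] at h
      refine ⟨(↑u⁻¹ : ℤ_[p]) * x 1, funext fun j => ?_⟩
      fin_cases j
      · show x 0 = (↑u⁻¹ : ℤ_[p]) * x 1 * e 0
        linear_combination (-(↑u⁻¹ : ℤ_[p])) * h - x 0 * hinv
      · show x 1 = (↑u⁻¹ : ℤ_[p]) * x 1 * e 1
        rw [← hu']
        linear_combination (-x 1) * hinv
  · rintro ⟨a, rfl⟩
    rw [map_smul, dform_self, smul_zero]

/-- A saturated submodule of `ℤ_p²` different from `0` and everything is generated by a primitive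
vector. -/
theorem exists_gen {L : Submodule ℤ_[p] (Fin 2 → ℤ_[p])} (hsat : ∀ x, (p : ℤ_[p]) • x ∈ L → x ∈ L)
    (hbot : L ≠ ⊥) (htop : L ≠ ⊤) :
    ∃ e : Fin 2 → ℤ_[p], (∃ i, IsUnit (e i)) ∧ ∀ x, x ∈ L ↔ dform e x = 0 := by
  have hsat' : ∀ (m : ℕ) (x), (p : ℤ_[p]) ^ m • x ∈ L → x ∈ L := by
    intro m
    induction m with
    | zero => intro x hx; rwa [pow_zero, one_smul] at hx
    | succ m ih =>
      intro x hx
      rw [pow_succ, mul_smul] at hx
      exact hsat x (ih _ hx)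
  obtain ⟨x, hxL, hx0⟩ := (Submodule.ne_bot_iff L).mp hbot
  obtain ⟨m, e, hxe, he⟩ := exists_primitive hx0
  have heL : e ∈ L := hsat' m e (by rw [← hxe]; exact hxL)
  refine ⟨e, he, fun x => ⟨fun hx => ?_, fun hx => ?_⟩⟩
  · by_contra hne
    apply htop
    rw [Submodule.eq_top_iff']
    intro y
    have h1 : dform e x • y ∈ L := by
      have h2 : dform e x • y = dform e y • x + (y 0 * x 1 - y 1 * x 0) • e := by
        funext j
        fin_cases j
        · show dform e x * y 0 = dform e y * x 0 + (y 0 * x 1 - y 1 * x 0) * e 0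
          rw [dform_apply, dform_apply]; ring
        · show dform e x * y 1 = dform e y * x 1 + (y 0 * x 1 - y 1 * x 0) * e 1
          rw [dform_apply, dform_apply]; ring
      rw [h2]
      exact L.add_mem (L.smul_mem _ hx) (L.smul_mem _ heL)
    have h3 := PadicInt.unitCoeff_spec hne
    rw [h3, mul_comm, mul_smul] at h1
    have h4 : ((PadicInt.unitCoeff hne : ℤ_[p]ˣ) : ℤ_[p]) • y ∈ L :=
      hsat' (dform e x).valuation _ (by exact_mod_cast h1)
    have h5 := L.smul_mem (↑(PadicInt.unitCoeff hne)⁻¹ : ℤ_[p]) h4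
    rwa [← mul_smul, Units.inv_mul, one_smul] at h5
  · obtain ⟨a, rfl⟩ := (dform_eq_zero_iff he x).mp hx
    exact L.smul_mem a heL

end Alg

section Sub

variable (E : WeierstrassCurve ℚ) [E.IsElliptic] (p : ℕ) [hp : Fact p.Prime]
  {A : ValuationSubring Qb} {q m : ℕ} (C : LocMult E A q m)

/-- the part of the Tate module with nonsingular reduction -/
noncomputable def LocMult.line : Submodule ℤ_[p] (Fin 2 → ℤ_[p]) where
  carrier := {x | ∀ n, ((tb E p).pr n x : (E⁄Qb).Point) ∈ C.B}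
  add_mem' := fun {a b} ha hb n => by
    rw [map_add, AddSubgroup.coe_add]
    exact C.B.add_mem (ha n) (hb n)
  zero_mem' := fun n => by
    rw [_root_.map_zero]
    exact C.B.zero_mem
  smul_mem' := fun c x hx n => by
    rw [TBasis.pr_smul, AddSubgroup.coe_nsmul]
    exact C.B.nsmul_mem (hx n) _

theorem mem_line {x : Fin 2 → ℤ_[p]} :
    x ∈ C.line E p ↔ ∀ n, ((tb E p).pr n x : (E⁄Qb).Point) ∈ C.B := Iff.rfl

theorem odd_pow (hp2 : p ≠ 2) (n : ℕ) : Odd (p ^ n) := (hp.out.odd_of_ne_two hp2).pow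

theorem sub_mem_line (hp2 : p ≠ 2) {s : GQ} (hs : s ∈ A.decompositionSubgroup ℚ)
    (x : Fin 2 → ℤ_[p]) : repE E p s x - (C.z s : ℤ_[p]) • x ∈ C.line E p := by
  intro n
  have h1 := C.sub_mem s hs ((tb E p).pr n x) (p ^ n) (odd_pow p hp2 n)
    ((mem_tor p).mp ((tb E p).pr n x).2)
  rw [map_sub, AddSubgroup.coe_sub, pr_repE, Int.cast_smul_eq_zsmul, map_zsmul,
    AddSubgroup.coe_zsmul]
  exact h1

theorem line_stable {s : GQ} (hs : s ∈ A.decompositionSubgroup ℚ)
    {x : Fin 2 → ℤ_[p]} (hx : x ∈ C.line E p) : repE E p s x ∈ C.line E p := by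
  intro n
  rw [pr_repE]
  exact C.stable s hs _ (hx n)

theorem line_sat {x : Fin 2 → ℤ_[p]} (hx : (p : ℤ_[p]) • x ∈ C.line E p) : x ∈ C.line E p := by
  intro n
  have h1 := hx (n + 1)
  have h2 : (tb E p).pr (n + 1) ((p : ℤ_[p]) • x) = p • (tb E p).pr (n + 1) x := by
    rw [Nat.cast_smul_eq_nsmul, map_nsmul]
  rw [h2, AddSubgroup.coe_nsmul, TBasis.p_smul_pr] at h1
  exact h1

/-- inertia acts trivially on the line (`q ≠ p`) -/
theorem line_fix (hqp : ¬ q ∣ p) {s : GQ} (hs : s ∈ A.inertiaSubgroupIn ℚ) (hq : q.Prime)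
    {x : Fin 2 → ℤ_[p]} (hx : x ∈ C.line E p) : repE E p s x = x := by
  refine (tb E p).ext_pr fun n => ?_
  rw [pr_repE]
  refine C.fix s hs _ (hx n) (p ^ n) ?_ ((mem_tor p).mp ((tb E p).pr n x).2)
  exact fun h => hqp (hq.dvd_of_dvd_pow h)

theorem mem_decomp_of_inertia {s : GQ} (hs : s ∈ A.inertiaSubgroupIn ℚ) :
    s ∈ A.decompositionSubgroup ℚ := by
  obtain ⟨τ, -, rfl⟩ := hs
  exact τ.2

end Sub

section Ramified

variable (E : WeierstrassCurve ℚ) [E.IsElliptic] (p : ℕ) [hp : Fact p.Prime]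
  {A : ValuationSubring Qb} {q m : ℕ} (C : LocMult E A q m)

omit hp in
omit [E.IsElliptic] in
theorem mem_of_coprime {G : Type*} [AddCommGroup G] (B : AddSubgroup G) {P : G} {m p : ℕ}
    (h : Nat.Coprime m p) (hm : m • P ∈ B) (hp : p • P = 0) : P ∈ B := by
  obtain ⟨a, b, hab⟩ := Nat.isCoprime_iff_coprime.mpr h
  have h2 : P = a • (m • P) + b • (p • P) := by
    rw [← natCast_zsmul P m, ← natCast_zsmul P p, smul_smul, smul_smul, ← add_smul, hab, one_smul]
  rw [h2, hp, smul_zero, add_zero]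
  exact B.zsmul_mem hm a

/-- `E[p]` is not contained in `E₀`, `q ≠ p` -/
theorem exists_tors_not_mem (hqp : ¬ q ∣ p) : ∃ P : (E⁄Qb).Point, p • P = 0 ∧ P ∉ C.B := by
  by_contra hcon
  push Not at hcon
  have h1 := C.card_le p hp.out.pos hqp
  have h2 : Nat.card {P : (E⁄Qb).Point // P ∈ C.B ∧ p • P = 0} = p ^ 2 := by
    rw [← card_torsionE E hp.out.pos]
    exact Nat.card_congr (Equiv.subtypeEquivRight fun P => ⟨fun h => h.2, fun h => ⟨hcon P h, h⟩⟩)
  rw [h2, sq] at h1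
  have h3 := hp.out.two_le
  nlinarith

include C in
/-- **Ramification of `E[p]`** at a multiplicative place: if `p ∤ v(Δ)`, inertia acts
non-trivially on `E[p]`. -/
theorem exists_inertia_ne (hp2 : p ≠ 2) (hqp : ¬ q ∣ p) (hpm : ¬ p ∣ m) :
    ∃ s ∈ A.inertiaSubgroupIn ℚ, ∃ P : (E⁄Qb).Point, p • P = 0 ∧ s • P ≠ P := by
  by_contra hcon
  push Not at hcon
  obtain ⟨P, hP, hPB⟩ := exists_tors_not_mem E p C hqp
  apply hPB
  have h1 := C.ram P p (hp.out.odd_of_ne_two hp2) hP (fun s hs => hcon s hs P hP)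
  exact mem_of_coprime C.B (Nat.Coprime.symm ((Nat.Prime.coprime_iff_not_dvd hp.out).mpr hpm)) h1 hP

include C in
/-- The Tate module is always ramified. -/
theorem exists_inertia_repE (hp2 : p ≠ 2) (hqp : ¬ q ∣ p) (hm : m ≠ 0) :
    ∃ s ∈ A.inertiaSubgroupIn ℚ, repE E p s ≠ 1 := by
  by_contra hcon
  push Not at hcon
  obtain ⟨P, hP, hPB⟩ := exists_tors_not_mem E p C hqp
  apply hPB
  -- `m = p ^ a * m'`
  obtain ⟨a, m', hm', hmm⟩ := Nat.exists_eq_pow_mul_and_not_dvd hm p hp.out.ne_one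
  obtain ⟨x, hx⟩ := (tb E p).pr_surjective 1 ⟨P, (mem_tor p).mpr (by rw [pow_one]; exact hP)⟩
  set R : (E⁄Qb).Point := ((tb E p).pr (1 + a) x : (E⁄Qb).Point) with hR
  have hRP : p ^ a • R = P := by
    have h1 : ∀ k : ℕ, p ^ k • ((tb E p).pr (1 + k) x : (E⁄Qb).Point) = P := by
      intro k
      induction k with
      | zero => rw [pow_zero, one_smul, add_zero, hx]
      | succ k ih => rw [pow_succ, mul_smul, ← add_assoc, TBasis.p_smul_pr, ih]
    exact h1 a
  have h1 := C.ram R (p ^ (1 + a)) (odd_pow p hp2 _) ((mem_tor p).mp ((tb E p).pr (1 + a) x).2)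
    (fun s hs => by rw [hR, ← pr_repE, hcon s hs, Module.End.one_apply])
  have h3 : m • R = m' • P := by
    have h4 : m • R = (m' * p ^ a) • R := by
      conv_lhs => rw [hmm]
      rw [mul_comm]
    rw [h4, mul_smul, hRP]
  rw [h3] at h1
  exact mem_of_coprime C.B (Nat.Coprime.symm ((Nat.Prime.coprime_iff_not_dvd hp.out).mpr hm')) h1 hP

/-- **Trace at a multiplicative place**, `q ≠ p`. -/
theorem trE_mult (hp2 : p ≠ 2) (hqp : ¬ q ∣ p) (hm : m ≠ 0) (hq : q.Prime)
    {W : WeierstrassCurve ℤ} (hWE : W.IsIntegralModelOf E) (hns : NonScalar E p)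
    {s : GQ} (hs : s ∈ A.decompositionSubgroup ℚ) :
    trE E p s = (C.z s : ℤ_[p]) * (1 + cycE p s) := by
  obtain ⟨τ, hτ, hne⟩ := exists_inertia_repE E p C hp2 hqp hm
  -- `(τ - 1) (s - z) = 0`
  have h1 : (repE E p τ - 1) * (repE E p s - (C.z s : ℤ_[p]) • 1) = 0 := by
    refine LinearMap.ext fun x => ?_
    rw [Module.End.mul_apply, LinearMap.sub_apply, LinearMap.sub_apply, LinearMap.smul_apply,
      Module.End.one_apply, Module.End.one_apply, LinearMap.zero_apply, sub_eq_zero]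
    exact line_fix E p C hqp hτ hq (sub_mem_line E p C hp2 hs x)
  have hz2 : (C.z s : ℤ_[p]) * (C.z s : ℤ_[p]) = 1 := by
    rcases C.z_pm s hs with h | h <;> rw [h] <;> norm_num
  have hrel := (relE E p hWE hns s).1
  set z : ℤ_[p] := (C.z s : ℤ_[p]) with hz
  set t := trE E p s with ht
  set c := cycE p s with hc
  -- multiply the relation on the left by `τ - 1`
  have h2 : (repE E p τ - 1) * repE E p s = z • (repE E p τ - 1) := by
    rw [mul_sub, mul_smul_comm, mul_one, sub_eq_zero] at h1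
    exact h1
  have h3 : (z * z - t * z + c) • (repE E p τ - 1) = 0 := by
    have h4 := congrArg (fun u => (repE E p τ - 1) * u) hrel
    simp only [mul_add, mul_sub, mul_smul_comm, mul_one, mul_zero] at h4
    rw [← mul_assoc, h2, smul_mul_assoc, h2] at h4
    rw [add_smul, sub_smul, ← smul_smul, ← smul_smul]
    exact h4
  have h5 : z * z - t * z + c = 0 := by
    by_contra h6
    apply hne
    rw [← sub_eq_zero]
    exact (smul_eq_zero.mp h3).resolve_left h6
  have h6 : t * z = 1 + c := by linear_combination (-1) * h5 + hz2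
  calc t = t * (z * z) := by rw [hz2, mul_one]
    _ = z * (1 + c) := by rw [← h6]; ring

end Ramified

end Fermat.Agent.RTE
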