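import Fermat.Agent.RTE.Line
import Fermat.Agent.ZEC.Main

/-!
# The line in the `p`-adic Tate module at `p`
-/

set_option autoImplicit false
set_option linter.unusedSectionVars false

namespace Fermat.Agent.RTE

open WeierstrassCurve WeierstrassCurve.Affine
open Fermat.Agent.ERep Fermat.Agent.Tate

local notation "Qb" => AlgebraicClosure ℚ
local notation "GQ" => AlgebraicClosure ℚ ≃ₐ[ℚ] AlgebraicClosure ℚ

theorem exists_exp {p : ℕ} (hp : p.Prime) (s : GQ) :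
    ∃ a : ℕ, ∀ μ : Qb, μ ^ p = 1 → s μ = μ ^ a := by
  have : NeZero p := ⟨hp.ne_zero⟩
  obtain ⟨ζ, hζ⟩ := HasEnoughRootsOfUnity.exists_primitiveRoot Qb p
  obtain ⟨a, -, ha⟩ := hζ.eq_pow_of_pow_eq_one
    (show (s ζ) ^ p = 1 by rw [← map_pow, hζ.pow_eq_one, _root_.map_one])
  refine ⟨a, fun μ hμ => ?_⟩
  obtain ⟨i, -, rfl⟩ := hζ.eq_pow_of_pow_eq_one hμ
  rw [map_pow, ← ha, ← pow_mul, ← pow_mul, mul_comm]

/-- elements with trivial cyclotomic character fix the `p`-th roots of unity -/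
theorem fix_of_cyc_sub_mem {p : ℕ} [hp : Fact p.Prime] {s : GQ}
    (h : cycE p s - 1 ∈ IsLocalRing.maximalIdeal ℤ_[p]) {ζ : Qb} (hζ : ζ ^ p = 1) : s ζ = ζ := by
  obtain ⟨a, ha⟩ := exists_exp hp.out s
  have h1 : cycE p s - ((a : ℕ) : ℤ_[p]) ∈ (IsLocalRing.maximalIdeal ℤ_[p]) ^ 1 := by
    refine Fermat.Agent.QuadRep.cyc_sub_mem (p_mem p) 1 a s ?_
    intro μ hμ
    exact ha μ (by simpa using hμ)
  rw [pow_one] at h1
  have h2 : ((a : ℕ) : ℤ_[p]) - 1 ∈ IsLocalRing.maximalIdeal ℤ_[p] := by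
    have := sub_mem h h1
    have e : cycE p s - 1 - (cycE p s - ((a : ℕ) : ℤ_[p])) = ((a : ℕ) : ℤ_[p]) - 1 := by ring
    rwa [e] at this
  have h3 : (p : ℤ) ∣ (a : ℤ) - 1 := by
    rw [PadicInt.maximalIdeal_eq_span_p, Ideal.mem_span_singleton] at h2
    have h4 : ((p : ℕ) : ℤ_[p]) ^ 1 ∣ (((a : ℤ) - 1 : ℤ) : ℤ_[p]) := by
      push_cast
      rw [pow_one]
      exact h2
    have h5 := (PadicInt.norm_int_le_pow_iff_dvd (p := p) (k := (a : ℤ) - 1) (n := 1)).mp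
      ((PadicInt.norm_le_pow_iff_mem_span_pow _ 1).mpr (Ideal.mem_span_singleton.mpr h4))
    simpa using h5
  have hgoal : s ζ = ζ ^ a := ha ζ hζ
  rw [hgoal]
  obtain ⟨k, hk⟩ := h3
  have hζ0 : ζ ≠ 0 := by
    rintro rfl
    rw [zero_pow hp.out.ne_zero] at hζ
    exact zero_ne_one hζ
  have e1 : ζ ^ (a : ℤ) = ζ := by
    have : (a : ℤ) = (p : ℤ) * k + 1 := by linarith
    rw [this, zpow_add₀ hζ0, zpow_mul, zpow_natCast, hζ, one_zpow, one_mul, zpow_one]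
  rwa [zpow_natCast] at e1

/-- Inertia at `p` moves `ζ_p`, `p` odd. -/
theorem exists_inertia_cyc {p : ℕ} [hp : Fact p.Prime] (hp2 : p ≠ 2) {A : ValuationSubring Qb}
    (hA : A.LiesOverPrime p) :
    ∃ s ∈ A.inertiaSubgroupIn ℚ, cycE p s - 1 ∉ IsLocalRing.maximalIdeal ℤ_[p] := by
  have hvq : A.valuation ((p : ℕ) : Qb) < 1 := A.mem_nonunits_iff.mp hA
  have : NeZero p := ⟨hp.out.ne_zero⟩
  obtain ⟨ζ, hζ⟩ := HasEnoughRootsOfUnity.exists_primitiveRoot Qb p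
  by_contra hcon
  push Not at hcon
  have hfix : ∀ s ∈ A.inertiaSubgroupIn ℚ, s ζ = ζ := fun s hs =>
    fix_of_cyc_sub_mem (hcon s hs) hζ.pow_eq_one
  have hne : ζ - 1 ≠ 0 := sub_ne_zero.mpr (hζ.ne_one hp.out.one_lt)
  obtain ⟨n, hn⟩ := SEL.exists_valuation_zpow_of_inertia A hp.out hA hne (by
    intro s hs
    rw [map_sub, _root_.map_one, hfix s hs])
  have hv := ELoc.val_zeta (v := A.valuation) hp.out hζ
  have h0 : A.valuation ((p : ℕ) : Qb) ≠ 0 := by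
    rw [Valuation.ne_zero_iff]
    exact_mod_cast hp.out.ne_zero
  rw [hn, ← zpow_natCast, ← zpow_mul] at hv
  nth_rewrite 2 [← zpow_one (A.valuation ((p : ℕ) : Qb))] at hv
  have h1 := ZEC.zpow_ne_self h0 hvq hv
  have h2 : ((p - 1 : ℕ) : ℤ) = p - 1 := by
    have := hp.out.one_lt
    omega
  rw [h2] at h1
  have h3 : ((p : ℤ) - 1) ∣ 1 := ⟨n, by linarith⟩
  have h4 := Int.le_of_dvd one_pos h3
  have h5 := hp.out.two_le
  omega

section Final

variable (E : WeierstrassCurve ℚ) [E.IsElliptic] (p : ℕ) [hp : Fact p.Prime]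
  {W : WeierstrassCurve ℤ} (hWE : W.IsIntegralModelOf E) {A : ValuationSubring Qb}
  (hA : A.LiesOverPrime p) (hΔ : (p : ℤ) ∣ W.Δ) (hc : ¬ (p : ℤ) ∣ W.c₄)

include hWE hA hΔ hc

/-- **Local structure at `p`** of the `p`-adic Tate module of a curve multiplicative at `p`. -/
theorem exists_line (hp2 : p ≠ 2) (hns : NonScalar E p) :
    ∃ (e : Fin 2 → ℤ_[p]) (φ : (Fin 2 → ℤ_[p]) →ₗ[ℤ_[p]] ℤ_[p]) (z : GQ → ℤ),
      (∃ i, IsUnit (e i)) ∧ Function.Surjective φ ∧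
      (∀ x, φ x = 0 ↔ ∃ a : ℤ_[p], x = a • e) ∧
      (∀ s ∈ A.decompositionSubgroup ℚ, z s = 1 ∨ z s = -1) ∧
      (∀ s ∈ A.inertiaSubgroupIn ℚ, z s = 1) ∧
      (∀ s ∈ A.decompositionSubgroup ℚ, ∀ t ∈ A.decompositionSubgroup ℚ,
        z (s * t) = z s * z t) ∧
      (∀ s ∈ A.decompositionSubgroup ℚ, ∀ x, φ (repE E p s x) = (z s : ℤ_[p]) * φ x) ∧
      (∀ s ∈ A.decompositionSubgroup ℚ, repE E p s e = ((z s : ℤ_[p]) * cycE p s) • e) := by
  obtain ⟨C⟩ := exists_locMult E hWE hp.out hA hΔ hc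
  have hbot : C.line E p ≠ ⊥ := by
    obtain ⟨s, hs, hcyc⟩ := exists_inertia_cyc hp2 hA
    intro hbot
    apply hcyc
    rw [← det_eq_cyc E p hWE hns]
    have h1 : repE E p s = 1 := by
      refine LinearMap.ext fun x => ?_
      have h2 := sub_mem_line E p C hp2 (mem_decomp_of_inertia hs) x
      rw [hbot, Submodule.mem_bot, C.z_inertia s hs, Int.cast_one, one_smul] at h2
      exact sub_eq_zero.mp h2
    rw [h1, _root_.map_one, sub_self]
    exact zero_mem _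
  have htop : C.line E p ≠ ⊤ := by
    intro htop
    obtain ⟨P, hP, hPB⟩ := C.out hp2
    obtain ⟨x, hx⟩ := (tb E p).pr_surjective 1 ⟨P, (mem_tor p).mpr (by rw [pow_one]; exact hP)⟩
    have h1 : x ∈ C.line E p := by rw [htop]; trivial
    have h2 := h1 1
    rw [hx] at h2
    exact hPB h2
  obtain ⟨e, he, hLe⟩ := exists_gen (fun x hx => line_sat E p C hx) hbot htop
  have hφ : ∀ s ∈ A.decompositionSubgroup ℚ, ∀ x,
      dform e (repE E p s x) = (C.z s : ℤ_[p]) * dform e x := by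
    intro s hs x
    have h1 := (hLe _).mp (sub_mem_line E p C hp2 hs x)
    rw [map_sub, map_smul, smul_eq_mul] at h1
    exact sub_eq_zero.mp h1
  refine ⟨e, dform e, C.z, he, dform_surjective he, dform_eq_zero_iff he, C.z_pm, C.z_inertia,
    C.z_mul, hφ, ?_⟩
  intro s hs
  have heL : e ∈ C.line E p := (hLe e).mpr (dform_self e)
  obtain ⟨a, ha⟩ := (dform_eq_zero_iff he _).mp ((hLe _).mp (line_stable E p C hs heL))
  obtain ⟨f, hf⟩ := dform_surjective he 1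
  have hdet := det_eq_cyc E p hWE hns s
  have h3 := hφ s hs f
  rw [hf, mul_one] at h3
  -- determinant of the matrix in the basis `e, f`
  have h4 : ∀ u : Module.End ℤ_[p] (Fin 2 → ℤ_[p]),
      LinearMap.det u * (e 0 * f 1 - e 1 * f 0) = (u e) 0 * (u f) 1 - (u e) 1 * (u f) 0 := by
    intro u
    rw [← LinearMap.det_toMatrix', Matrix.det_fin_two]
    have hu : ∀ x : Fin 2 → ℤ_[p], u x = (LinearMap.toMatrix' u).mulVec x := fun x =>
      (LinearMap.toMatrix'_mulVec u x).symm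
    rw [hu e, hu f]
    simp only [Matrix.mulVec, dotProduct, Fin.sum_univ_two]
    ring
  have h5 := h4 (repE E p s)
  rw [hdet, ← dform_apply, hf, mul_one, ha] at h5
  have h6 : cycE p s = a * (C.z s : ℤ_[p]) := by
    rw [dform_apply] at h3
    rw [h5]
    simp only [Pi.smul_apply, smul_eq_mul]
    linear_combination a * h3
  have h7 : (C.z s : ℤ_[p]) * (C.z s : ℤ_[p]) = 1 := by
    rcases C.z_pm s hs with h | h <;> rw [h] <;> norm_num
  rw [ha]
  congr 1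
  linear_combination (-(C.z s : ℤ_[p])) * h6 - a * h7

end Final

end Fermat.Agent.RTE
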