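import Fermat.Agent.RTE.RD
import Fermat.Agent.LocRing.Uni
import Fermat.Agent.RTan.OrdM

/-!
Matrix forms of the local structure of the Tate module of a semistable elliptic curve.
-/

set_option autoImplicit false

namespace Fermat.Agent.RTE

open WeierstrassCurve WeierstrassCurve.Affine
open Fermat.Agent.ERep Fermat.Agent.Tate Fermat.Agent.LocRing
open Fermat.Agent.DefRing (M2 mapRep mapRep_apply MatCont)
open Matrix

section Alg

theorem sq_eq' {R : Type*} [CommRing R] (M : Matrix (Fin 2) (Fin 2) R) :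
    M * M = M.trace • M - M.det • 1 := by
  ext i j
  fin_cases i <;> fin_cases j <;>
    simp [Matrix.mul_apply, Fin.sum_univ_two, Matrix.trace_fin_two, Matrix.det_fin_two] <;> ring

theorem trace_det_of_sq_zero {R : Type*} [CommRing R] [IsDomain R] {N : Matrix (Fin 2) (Fin 2) R}
    (h : N * N = 0) : N.trace = 0 ∧ N.det = 0 := by
  have hdet : N.det = 0 := by
    have h1 : (N * N).det = 0 := by rw [h]; simp
    rw [Matrix.det_mul] at h1
    exact mul_self_eq_zero.mp h1
  refine ⟨?_, hdet⟩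
  by_contra ht
  have h2 := sq_eq' N
  rw [hdet, zero_smul, sub_zero, h] at h2
  apply ht
  have h3 : N = 0 := by
    ext i j
    have h4 := congrFun (congrFun h2 i) j
    rw [Matrix.zero_apply, Matrix.smul_apply, smul_eq_mul] at h4
    exact (mul_eq_zero.mp h4.symm).resolve_left ht
  rw [h3]
  simp

theorem isUni_of {R : Type*} [CommRing R] [IsDomain R] {F N : Matrix (Fin 2) (Fin 2) R} {z l : R}
    (hz : z * z = 1) (hdet : F.det = l) (hNN : N * N = 0) (hNF : N * F = z • N) :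
    IsUni l F N := by
  obtain ⟨htr, hd⟩ := trace_det_of_sq_zero hNN
  refine ⟨hdet, ?_, hNN, htr, hd⟩
  have hadj : Matrix.adjugate N = -N := by
    rw [Matrix.adjugate_fin_two]
    rw [Matrix.trace_fin_two] at htr
    ext i j
    fin_cases i <;> fin_cases j
    · simp; linear_combination htr
    · simp
    · simp
    · simp; linear_combination htr
  have h1 : Matrix.adjugate F * N = z • N := by
    have h2 := congrArg Matrix.adjugate hNF
    rw [Matrix.adjugate_mul_distrib, Matrix.adjugate_smul, hadj, Fintype.card_fin] at h2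
    norm_num at h2
    exact h2
  have h3 : l • N = z • (F * N) := by
    calc l • N = F * Matrix.adjugate F * N := by
          rw [Matrix.mul_adjugate, hdet, smul_mul_assoc, one_mul]
      _ = F * (z • N) := by rw [mul_assoc, h1]
      _ = z • (F * N) := by rw [mul_smul_comm]
  calc F * N = (z * z) • (F * N) := by rw [hz, one_smul]
    _ = z • (l • N) := by rw [← smul_smul, h3]
    _ = l • (N * F) := by rw [hNF, smul_comm]

theorem isUni_map {R S : Type*} [CommRing R] [CommRing S] (f : R →+* S)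
    {F N : Matrix (Fin 2) (Fin 2) R} {q : R} (h : IsUni q F N) :
    IsUni (f q) (F.map f) (N.map f) := by
  refine ⟨?_, ?_, ?_, ?_, ?_⟩
  · rw [← h.detF, ← RingHom.mapMatrix_apply, ← RingHom.map_det]
  · rw [← Matrix.map_mul, h.FN, ← Matrix.map_mul]
    ext i j
    rw [Matrix.map_apply, Matrix.smul_apply, Matrix.smul_apply, Matrix.map_apply, smul_eq_mul,
      smul_eq_mul, map_mul]
  · rw [← Matrix.map_mul, h.NN]
    ext i j
    simp
  · have h1 := h.trN
    rw [Matrix.trace_fin_two] at h1 ⊢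
    rw [Matrix.map_apply, Matrix.map_apply, ← map_add, h1, map_zero]
  · rw [← RingHom.mapMatrix_apply, ← RingHom.map_det, h.detN, map_zero]

end Alg

section Away

variable (E : WeierstrassCurve ℚ) [E.IsElliptic] (p : ℕ) [hp : Fact p.Prime]
  {W : WeierstrassCurve ℤ} (hWE : W.IsIntegralModelOf E) (hns : NonScalar E p)
  {A : ValuationSubring Qb} {q : ℕ} (hq : q.Prime) (hA : A.LiesOverPrime q) (hqp : q ≠ p)

include hWE hns hq hA hqp

theorem isUni_good (hgood : W.IsGoodPrimeFor q) {φ τ : GQ} (hφ : A.IsFrobeniusAt φ q)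
    (hτ : τ ∈ A.inertiaSubgroupIn ℚ) :
    IsUni (q : ℤ_[p]) (matE E p φ) (matE E p τ - 1) := by
  have h1 := matE_of_repE E p (repE_inertia_good E p hWE hq hA hqp hgood hτ)
  rw [h1, sub_self]
  refine ⟨?_, by simp, by simp, by simp, by simp⟩
  rw [det_matE, det_eq_cyc E p hWE hns]
  exact QuadRep.cyc_frobenius (p_mem p) hq hqp hA hφ

theorem isUni_mult (hp2 : p ≠ 2) (hΔ : (q : ℤ) ∣ W.Δ) (hc : ¬ (q : ℤ) ∣ W.c₄) {φ τ : GQ}
    (hφ : A.IsFrobeniusAt φ q) (hτ : τ ∈ A.inertiaSubgroupIn ℚ) :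
    IsUni (q : ℤ_[p]) (matE E p φ) (matE E p τ - 1) := by
  obtain ⟨C⟩ := exists_locMult E hWE hq hA hΔ hc
  have hqp' : ¬ q ∣ p := fun h => hqp ((Nat.prime_dvd_prime_iff_eq hq hp.out).mp h)
  have hφD : φ ∈ A.decompositionSubgroup ℚ := hφ.mem_decompositionSubgroup
  have hz2 : (C.z φ : ℤ_[p]) * (C.z φ : ℤ_[p]) = 1 := by
    rcases C.z_pm φ hφD with h | h <;> rw [h] <;> norm_num
  refine isUni_of (z := (C.z φ : ℤ_[p])) hz2 ?_
    (matE_inertia_mult E p hWE hq hA hqp hΔ hc hτ hτ) ?_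
  · rw [det_matE, det_eq_cyc E p hWE hns]
    exact QuadRep.cyc_frobenius (p_mem p) hq hqp hA hφ
  · have h1 : (repE E p τ - 1) * (repE E p φ - (C.z φ : ℤ_[p]) • 1) = 0 := by
      refine LinearMap.ext fun x => ?_
      rw [Module.End.mul_apply, LinearMap.sub_apply, LinearMap.sub_apply, LinearMap.smul_apply,
        Module.End.one_apply, Module.End.one_apply, LinearMap.zero_apply, sub_eq_zero]
      exact line_fix E p C hqp' hτ hq (sub_mem_line E p C hp2 hφD x)
    have h2 := congrArg (LinearMap.toMatrix' (R := ℤ_[p]) (m := Fin 2) (n := Fin 2)) h1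
    rw [LinearMap.toMatrix'_mul, map_sub, map_sub, map_smul, LinearMap.toMatrix'_one,
      map_zero, ← matE_eq, ← matE_eq, mul_sub, mul_smul_comm, mul_one, sub_eq_zero] at h2
    exact h2

/-- **Local structure away from `p`**, for every prime `q ≠ p`. -/
theorem isUni_matE (hp2 : p ≠ 2) (hss : W.IsSemistableModel) {φ τ : GQ}
    (hφ : A.IsFrobeniusAt φ q) (hτ : τ ∈ A.inertiaSubgroupIn ℚ) :
    IsUni (q : ℤ_[p]) (matE E p φ) (matE E p τ - 1) := by
  by_cases hgood : W.IsGoodPrimeFor q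
  · exact isUni_good E p hWE hns hq hA hqp hgood hφ hτ
  · exact isUni_mult E p hWE hns hq hA hqp hp2 (not_not.mp hgood) (hss q hq (not_not.mp hgood))
      hφ hτ

omit hns in
/-- The `p`-adic representation is ramified at every multiplicative prime `q ≠ p`. -/
theorem exists_inertia_matE (hp2 : p ≠ 2) (hΔ : (q : ℤ) ∣ W.Δ) (hc : ¬ (q : ℤ) ∣ W.c₄) :
    ∃ s ∈ A.inertiaSubgroupIn ℚ, matE E p s ≠ 1 := by
  obtain ⟨C⟩ := exists_locMult E hWE hq hA hΔ hc
  have hqp' : ¬ q ∣ p := fun h => hqp ((Nat.prime_dvd_prime_iff_eq hq hp.out).mp h)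
  have hΔ0 : W.Δ ≠ 0 := Δ_ne_zero E hWE
  have hm0 : padicValInt q W.Δ ≠ 0 := by
    have : Fact q.Prime := ⟨hq⟩
    intro h5
    have h6 : (q : ℤ) ^ 1 ∣ W.Δ := by simpa using hΔ
    rcases (padicValInt_dvd_iff 1 W.Δ).mp h6 with h | h
    · exact hΔ0 h
    · omega
  obtain ⟨s, hs, hne⟩ := exists_inertia_repE E p C hp2 hqp' hm0
  refine ⟨s, hs, fun h => hne ?_⟩
  rw [matE_eq, ← LinearMap.toMatrix'_one] at h
  exact LinearMap.toMatrix'.injective h

end Away

section AtP

variable (E : WeierstrassCurve ℚ) [E.IsElliptic] (p : ℕ) [hp : Fact p.Prime]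
  {W : WeierstrassCurve ℤ} (hWE : W.IsIntegralModelOf E) (hns : NonScalar E p)
  {A : ValuationSubring Qb} (hA : A.LiesOverPrime p) (hΔ : (p : ℤ) ∣ W.Δ)
  (hc : ¬ (p : ℤ) ∣ W.c₄)

include hWE hns hA hΔ hc

/-- **Ordinary structure at `p`** of a curve multiplicative at `p`. -/
theorem ordM_matE (hp2 : p ≠ 2) {σ₀ : GQ} (hσ₀ : σ₀ ∈ A.inertiaSubgroupIn ℚ) :
    RTan.OrdM A σ₀ (cycE p σ₀) (matE E p) := by
  obtain ⟨e, φ, z, he, hφs, hφ, hzpm, hzI, hzmul, hφr, hre⟩ := exists_line E p hWE hA hΔ hc hp2 hns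
  have hσD := mem_decomp_of_inertia hσ₀
  -- the image of `r σ - 1` is in the line for `σ` in inertia
  have h1 : ∀ σ ∈ A.inertiaSubgroupIn ℚ, ∀ x : Fin 2 → ℤ_[p], ∃ a : ℤ_[p],
      (matE E p σ - 1) *ᵥ x = a • e := by
    intro σ hσ x
    rw [← hφ, Matrix.sub_mulVec, Matrix.one_mulVec, matE_mulVec, map_sub,
      hφr σ (mem_decomp_of_inertia hσ), hzI σ hσ]
    simp
  have h2 : (cycE p σ₀ • (1 : M2 ℤ_[p]) - matE E p σ₀) *ᵥ e = 0 := by
    rw [Matrix.sub_mulVec, Matrix.smul_mulVec, Matrix.one_mulVec, matE_mulVec, hre σ₀ hσD,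
      hzI σ₀ hσ₀]
    simp
  have hext : ∀ M : M2 ℤ_[p], (∀ x, M *ᵥ x = 0) → M = 0 := by
    intro M hM
    ext i j
    have := congrFun (hM (Pi.single j 1)) i
    rw [Matrix.mulVec_single_one] at this
    exact this
  constructor
  · intro σ hσ
    apply hext
    intro x
    obtain ⟨a, ha⟩ := h1 σ₀ hσ₀ x
    rw [Algebra.algebraMap_self, RingHom.id_apply, ← Matrix.mulVec_mulVec, ← Matrix.mulVec_mulVec,
      ha, Matrix.mulVec_smul, matE_mulVec, hre σ hσ, Matrix.mulVec_smul, Matrix.mulVec_smul, h2,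
      smul_zero, smul_zero]
  · intro σ hσ
    apply hext
    intro x
    obtain ⟨a, ha⟩ := h1 σ hσ x
    rw [Algebra.algebraMap_self, RingHom.id_apply, ← Matrix.mulVec_mulVec, ha, Matrix.mulVec_smul,
      h2, smul_zero]

end AtP

section Coeff

variable (E : WeierstrassCurve ℚ) [E.IsElliptic] (p : ℕ) [hp : Fact p.Prime]

/-- extension of scalars of the ordinary structure -/
theorem ordM_map {𝒪 T : Type} [CommRing 𝒪] [CommRing T] [Algebra 𝒪 T] (f : ℤ_[p] →+* T)
    {A : ValuationSubring Qb} {σ₀ : GQ} {c : ℤ_[p]} {e : 𝒪} (he : algebraMap 𝒪 T e = f c)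
    {r : GQ →* M2 ℤ_[p]} (h : RTan.OrdM A σ₀ c r) : RTan.OrdM A σ₀ e (mapRep f r) := by
  have hs : algebraMap 𝒪 T e • (1 : M2 T) = f.mapMatrix (c • (1 : M2 ℤ_[p])) := by
    rw [he]
    ext i j
    rw [RingHom.mapMatrix_apply, Matrix.map_apply, Matrix.smul_apply, Matrix.smul_apply,
      smul_eq_mul, smul_eq_mul, map_mul, Matrix.one_apply, Matrix.one_apply]
    split_ifs <;> simp
  have hr : ∀ σ, mapRep f r σ = f.mapMatrix (r σ) := fun σ => rfl
  constructor
  · intro σ hσ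
    rw [hs, hr, hr, ← map_sub, ← map_mul, ← map_one f.mapMatrix, ← map_sub, ← map_mul]
    have := h.stab σ hσ
    rw [Algebra.algebraMap_self, RingHom.id_apply] at this
    rw [this, map_zero]
  · intro σ hσ
    rw [hs, hr, hr, ← map_sub, ← map_one f.mapMatrix, ← map_sub, ← map_mul]
    have := h.quot σ hσ
    rw [Algebra.algebraMap_self, RingHom.id_apply] at this
    rw [this, map_zero]

end Coeff

end Fermat.Agent.RTE
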