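import Fermat.Agent.RTE.Dihedral

/-!
The case `p = 3`: dihedral images with a unique index-two subgroup.
-/

set_option autoImplicit false

namespace Fermat.Agent.RTE

open Matrix

section

theorem sq_zero_of_cube_zero {K : Type*} [Field K] {N : Matrix (Fin 2) (Fin 2) K}
    (h : N * N * N = 0) : N * N = 0 := by
  have hdet : N.det = 0 := by
    have h1 : (N * N * N).det = 0 := by rw [h]; simp
    rw [Matrix.det_mul, Matrix.det_mul] at h1
    rcases mul_eq_zero.mp h1 with h2 | h2
    · exact mul_self_eq_zero.mp h2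
    · exact h2
  have h2 := sq_eq N
  rw [hdet, zero_smul, sub_zero] at h2
  rw [h2, smul_mul_assoc, h2, smul_smul] at h
  rcases smul_eq_zero.mp h with h3 | h3
  · rw [h2, mul_self_eq_zero.mp h3, zero_smul]
  · rw [h3, mul_zero]

theorem three_case {G : Type*} [Group G] (r : G →* Matrix (Fin 2) (Fin 2) (ZMod 3))
    {H : Subgroup G} {c : G} (hcH : c ∉ H) (hc : r c * r c = 1)
    (hker : ∀ g, r g = 1 → g ∈ H)
    (huni : ∀ h, (r h - 1) * (r h - 1) = 0 → r h = 1)
    (huniq : ∀ K : Subgroup G, K.index = 2 → (∀ g, r g = 1 → g ∈ K) → K = H) :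
    ∀ g, r g = 1 ∨ r g = r c := by
  classical
  have : Fact (Nat.Prime 3) := ⟨Nat.prime_three⟩
  have : Fact (Nat.Prime 2) := ⟨Nat.prime_two⟩
  set u : G →* (Matrix (Fin 2) (Fin 2) (ZMod 3))ˣ := MonoidHom.toHomUnits r with hu
  have hur : ∀ g, ((u g : (Matrix (Fin 2) (Fin 2) (ZMod 3))ˣ) : Matrix (Fin 2) (Fin 2) (ZMod 3)) =
      r g := fun g => rfl
  have hu1 : ∀ g, u g = 1 ↔ r g = 1 := by
    intro g
    rw [← hur g, Units.val_eq_one]
  set Γ := u.range with hΓ
  have hcard : Nat.card Γ ∣ 48 := by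
    have h1 := Subgroup.card_subgroup_dvd_card Γ
    have h2 : Nat.card (Matrix (Fin 2) (Fin 2) (ZMod 3))ˣ = 48 := by
      have h3 := Matrix.card_GL_field (𝔽 := ZMod 3) 2
      rw [ZMod.card, Fin.prod_univ_two] at h3
      exact h3
    rwa [h2] at h1
  have h3 : ¬ 3 ∣ Nat.card Γ := by
    intro h
    obtain ⟨⟨_, g, rfl⟩, hg⟩ := exists_prime_orderOf_dvd_card' 3 h
    have hg3 : (u g) ^ 3 = 1 := by
      have h4 := pow_orderOf_eq_one (⟨u g, ⟨g, rfl⟩⟩ : Γ)
      rw [hg] at h4
      exact congrArg Subtype.val h4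
    have hM : r g * r g * r g = 1 := by
      have h4 := congrArg Units.val hg3
      rw [Units.val_pow_eq_pow_val, Units.val_one, hur, pow_succ, pow_two] at h4
      exact h4
    have hN : (r g - 1) * (r g - 1) * (r g - 1) = 0 := by
      have h5 : (r g - 1) * (r g - 1) * (r g - 1) =
          r g * r g * r g - (3 : ZMod 3) • (r g * r g) + (3 : ZMod 3) • r g - 1 := by
        have e3 : (3 : ZMod 3) = 1 + 1 + 1 := by norm_num
        rw [e3]
        simp only [add_smul, one_smul]
        noncomm_ring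
      have h6 : (3 : ZMod 3) = 0 := by exact_mod_cast ZMod.natCast_self 3
      rw [h5, hM, h6, zero_smul, zero_smul]
      simp
    have h7 := huni g (sq_zero_of_cube_zero hN)
    have h8 : (⟨u g, ⟨g, rfl⟩⟩ : Γ) = 1 := Subtype.ext ((hu1 g).mpr h7)
    rw [h8, orderOf_one] at hg
    exact absurd hg (by norm_num)
  obtain ⟨k, hk⟩ : ∃ k, Nat.card Γ = 2 ^ k := by
    have h4 : Nat.card Γ ∣ 2 ^ 4 := by
      have h5 : Nat.Coprime (Nat.card Γ) 3 :=
        ((Nat.Prime.coprime_iff_not_dvd Nat.prime_three).mpr h3).symm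
      exact h5.dvd_of_dvd_mul_right (show Nat.card Γ ∣ 2 ^ 4 * 3 from hcard)
    obtain ⟨k, -, hk⟩ := (Nat.dvd_prime_pow Nat.prime_two).mp h4
    exact ⟨k, hk⟩
  set r' : G →* Γ := u.rangeRestrict with hr'
  have hsurj : Function.Surjective r' := u.rangeRestrict_surjective
  have hr'1 : ∀ g, r' g = 1 ↔ r g = 1 := by
    intro g
    rw [← hu1 g]
    exact ⟨fun h => congrArg Subtype.val h, fun h => Subtype.ext h⟩
  set x := r' c with hx
  have hx1 : x ≠ 1 := fun h => hcH (hker c ((hr'1 c).mp h))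
  have hx2 : x ^ 2 = 1 := by
    rw [hx, sq, ← map_mul, hr'1, map_mul, hc]
  have hord : orderOf x = 2 := orderOf_eq_prime hx2 hx1
  have hz : Nat.card (Subgroup.zpowers x) = 2 ^ 1 := by rw [Nat.card_zpowers, hord, pow_one]
  have hk0 : k ≠ 0 := by
    rintro rfl
    rw [pow_zero] at hk
    have : Subsingleton Γ := (Nat.card_eq_one_iff_unique.mp hk).1
    exact hx1 (Subsingleton.elim _ _)
  have hk1 : k = 1 := by
    by_contra hk1
    obtain ⟨K, hK, hle⟩ := Sylow.exists_subgroup_card_pow_prime_le 2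
      (n := 1) (m := k - 1) (G := Γ) (by rw [hk]; exact pow_dvd_pow 2 (by omega))
      (Subgroup.zpowers x) hz (by omega)
    have hind : K.index = 2 := by
      have h5 := K.card_mul_index
      rw [hK, hk] at h5
      have h6 : 2 ^ k = 2 ^ (k - 1) * 2 := by
        rw [← pow_succ]; congr 1; omega
      rw [h6] at h5
      exact Nat.eq_of_mul_eq_mul_left (by positivity) h5
    have h7 : (K.comap r').index = 2 := by
      rw [Subgroup.index_comap_of_surjective K hsurj, hind]
    have h8 := huniq (K.comap r') h7 (fun g hg => by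
      rw [Subgroup.mem_comap, (hr'1 g).mpr hg]
      exact K.one_mem)
    apply hcH
    rw [← h8, Subgroup.mem_comap]
    exact hle (Subgroup.mem_zpowers x)
  have htop : Subgroup.zpowers x = ⊤ := by
    apply Subgroup.eq_top_of_card_eq
    rw [hz, hk, hk1]
  intro g
  have h9 : r' g ∈ Subgroup.zpowers x := by rw [htop]; trivial
  obtain ⟨n, hn⟩ := Subgroup.mem_zpowers_iff.mp h9
  rcases Int.even_or_odd' n with ⟨m, hm | hm⟩
  · left
    rw [← hr'1, ← hn, hm, _root_.zpow_mul]
    have : x ^ (2 : ℤ) = 1 := by exact_mod_cast hx2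
    rw [this, _root_.one_zpow]
  · right
    have h10 : r' g = r' c := by
      rw [← hn, hm, _root_.zpow_add, _root_.zpow_mul]
      have : x ^ (2 : ℤ) = 1 := by exact_mod_cast hx2
      rw [this, _root_.one_zpow, one_mul, zpow_one]
    have h11 := congrArg (fun y : Γ => ((y : (Matrix (Fin 2) (Fin 2) (ZMod 3))ˣ) :
      Matrix (Fin 2) (Fin 2) (ZMod 3))) h10
    exact h11

end

end Fermat.Agent.RTE
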