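import Fermat.Agent.RTE.QuadField
import Fermat.Agent.RTE.Three
import Fermat.Agent.DefRing.Mat

/-!
Matrix form of the Galois representations of an elliptic curve.
-/

set_option autoImplicit false

namespace Fermat.Agent.RTE

open WeierstrassCurve WeierstrassCurve.Affine
open Fermat.Agent.ERep Fermat.Agent.Tate
open Fermat.Agent.DefRing (M2 mapRep mapRep_apply MatCont)
open Matrix

section Def

variable (E : WeierstrassCurve ℚ) [E.IsElliptic] (p : ℕ) [hp : Fact p.Prime]

/-- the `p`-adic representation in matrix form -/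
noncomputable def matE : GQ →* M2 ℤ_[p] :=
  DefRing.matOf (adicE E p) (Pi.basisFun ℤ_[p] (Fin 2))

theorem matE_eq (s : GQ) : matE E p s = LinearMap.toMatrix' (repE E p s) := rfl

theorem matE_mulVec (s : GQ) (x : Fin 2 → ℤ_[p]) : matE E p s *ᵥ x = repE E p s x := by
  rw [matE_eq, LinearMap.toMatrix'_mulVec]

theorem matE_cont : MatCont ℤ_[p] (matE E p) := DefRing.matOf_cont _ _

theorem trace_matE (s : GQ) : (matE E p s).trace = trE E p s := by
  rw [trE, matE_eq, LinearMap.trace_eq_matrix_trace ℤ_[p] (Pi.basisFun ℤ_[p] (Fin 2))]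
  rfl

theorem det_matE (s : GQ) : (matE E p s).det = LinearMap.det (repE E p s) := by
  rw [matE_eq, LinearMap.det_toMatrix']

theorem matE_of_repE {s : GQ} (h : repE E p s = 1) : matE E p s = 1 := by
  rw [matE_eq, h]
  exact LinearMap.toMatrix'_one

/-- the residual representation in matrix form -/
noncomputable def modE : GQ →* M2 (ZMod p) := mapRep PadicInt.toZMod (matE E p)

theorem modE_apply (s : GQ) (i j : Fin 2) :
    modE E p s i j = PadicInt.toZMod (matE E p s i j) := rfl

/-- reduction of vectors -/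
noncomputable def redV (x : Fin 2 → ℤ_[p]) : Fin 2 → ZMod p := fun i => PadicInt.toZMod (x i)

theorem redV_surjective : Function.Surjective (redV p) := by
  intro e
  refine ⟨fun i => ((e i).val : ℤ_[p]), ?_⟩
  funext i
  rw [redV, map_natCast, ZMod.natCast_val, ZMod.cast_id', id]

theorem modE_mulVec (s : GQ) (x : Fin 2 → ℤ_[p]) :
    modE E p s *ᵥ redV p x = redV p (repE E p s x) := by
  rw [← matE_mulVec]
  funext i
  simp only [Matrix.mulVec, dotProduct, redV, modE_apply, map_sum, map_mul]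

theorem toZMod_eq_zero_iff (x : ℤ_[p]) : PadicInt.toZMod x = 0 ↔ (p : ℤ_[p]) ∣ x := by
  rw [← RingHom.mem_ker, PadicInt.ker_toZMod, PadicInt.maximalIdeal_eq_span_p,
    Ideal.mem_span_singleton]

theorem pr_one_eq_zero_iff (x : Fin 2 → ℤ_[p]) : (tb E p).pr 1 x = 0 ↔ redV p x = 0 := by
  rw [TBasis.pr_eq_zero_iff]
  constructor
  · rintro ⟨u, rfl⟩
    funext i
    rw [redV, Pi.smul_apply, smul_eq_mul, pow_one, map_mul, map_natCast, CharP.cast_eq_zero,
      zero_mul]
    rfl
  · intro h
    have h1 : ∀ i, ∃ u, x i = p * u := fun i => (toZMod_eq_zero_iff p (x i)).mp (congrFun h i)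
    choose u hu using h1
    refine ⟨u, ?_⟩
    funext i
    rw [hu i, Pi.smul_apply, smul_eq_mul, pow_one]

theorem redV_sub (x y : Fin 2 → ℤ_[p]) : redV p (x - y) = redV p x - redV p y := by
  funext i
  simp [redV]

theorem pr_one_eq_iff (x y : Fin 2 → ℤ_[p]) :
    (tb E p).pr 1 x = (tb E p).pr 1 y ↔ redV p x = redV p y := by
  rw [← sub_eq_zero, ← map_sub, pr_one_eq_zero_iff, redV_sub, sub_eq_zero]

/-- `modE s` is trivial iff `s` acts trivially on `E[p]`. -/
theorem modE_eq_one_iff (s : GQ) :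
    modE E p s = 1 ↔ ∀ P : (E⁄Qb).Point, p • P = 0 → s • P = P := by
  constructor
  · intro h P hP
    obtain ⟨x, hx⟩ := (tb E p).pr_surjective 1 ⟨P, (mem_tor p).mpr (by rw [pow_one]; exact hP)⟩
    have h1 : (tb E p).pr 1 (repE E p s x) = (tb E p).pr 1 x := by
      rw [pr_one_eq_iff, ← modE_mulVec, h, Matrix.one_mulVec]
    have h2 := congrArg Subtype.val h1
    rw [pr_repE, hx] at h2
    exact h2
  · intro h
    have h1 : ∀ e, modE E p s *ᵥ e = e := by
      intro e
      obtain ⟨x, rfl⟩ := redV_surjective p e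
      rw [modE_mulVec, ← pr_one_eq_iff E]
      apply Subtype.ext
      rw [pr_repE]
      refine h _ ?_
      have h2 := (mem_tor p).mp ((tb E p).pr 1 x).2
      rwa [pow_one] at h2
    ext i j
    have h2 := congrFun (h1 (Pi.single j 1)) i
    rw [Matrix.mulVec_single_one] at h2
    rw [Matrix.one_apply]
    rw [Matrix.col_apply] at h2
    rw [h2, Pi.single_apply]

end Def

section Irr

variable (E : WeierstrassCurve ℚ) [E.IsElliptic] (p : ℕ) [hp : Fact p.Prime]

/-- irreducibility in matrix form -/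
theorem modE_irr (hirr : Affine.Point.GaloisRepIsIrreducible (K := Qb) ℚ E p)
    {e : Fin 2 → ZMod p} (he : e ≠ 0) : ∃ s, ∀ t : ZMod p, modE E p s *ᵥ e ≠ t • e := by
  by_contra hcon
  push Not at hcon
  obtain ⟨v, rfl⟩ := redV_surjective p e
  have hmem : ∀ u : Fin 2 → ℤ_[p], ((tb E p).pr 1 u : (E⁄Qb).Point) ∈
      Submodule.torsionBy ℤ (E⁄Qb).Point (p : ℤ) := fun u =>
    (tor_one_iff E p).mpr ((tb E p).pr 1 u).2
  let x : Submodule.torsionBy ℤ (E⁄Qb).Point (p : ℤ) := ⟨(tb E p).pr 1 v, hmem v⟩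
  have hsmul : ∀ (m : ℕ) (u : Fin 2 → ℤ_[p]), redV p (m • u) = (m : ZMod p) • redV p u := by
    intro m u
    funext i
    simp [redV]
  have hstab : Affine.Point.IsGaloisStable (S := ℚ) (ZMod p ∙ x) := by
    intro σ y hy
    obtain ⟨a, rfl⟩ := Submodule.mem_span_singleton.mp hy
    obtain ⟨c, hc⟩ := hcon σ
    obtain ⟨c', rfl⟩ := ZMod.natCast_zmod_surjective c
    have h1 : σ • x = c' • x := by
      apply Subtype.ext
      change σ • ((tb E p).pr 1 v : (E⁄Qb).Point) = c' • ((tb E p).pr 1 v : (E⁄Qb).Point)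
      rw [← pr_repE, ← AddSubgroup.coe_nsmul, ← map_nsmul]
      congr 1
      rw [pr_one_eq_iff, ← modE_mulVec, hc, hsmul]
    have h2 : σ • (a • x) = a • (σ • x) := by
      obtain ⟨m, rfl⟩ := ZMod.natCast_zmod_surjective a
      rw [Nat.cast_smul_eq_nsmul, Nat.cast_smul_eq_nsmul]
      exact map_nsmul (DistribSMul.toAddMonoidHom _ σ) m x
    rw [h2, h1]
    refine Submodule.smul_mem _ _ ?_
    exact nsmul_mem (Submodule.mem_span_singleton_self x) _
  rcases hirr.2 _ hstab with h | h
  · rw [Submodule.span_singleton_eq_bot] at h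
    have h1 : (tb E p).pr 1 v = 0 := by
      apply Subtype.ext
      have h0 : (x : (E⁄Qb).Point) = 0 := by rw [h]; rfl
      exact h0
    exact he ((pr_one_eq_zero_iff E p v).mp h1)
  · -- every reduced vector is a multiple of `redV v`
    have hall : ∀ f : Fin 2 → ZMod p, ∃ a : ZMod p, f = a • redV p v := by
      intro f
      obtain ⟨w, rfl⟩ := redV_surjective p f
      have hw : (⟨(tb E p).pr 1 w, hmem w⟩ : Submodule.torsionBy ℤ (E⁄Qb).Point (p : ℤ)) ∈
        (ZMod p ∙ x) := by rw [h]; trivial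
      obtain ⟨a, ha⟩ := Submodule.mem_span_singleton.mp hw
      obtain ⟨m, rfl⟩ := ZMod.natCast_zmod_surjective a
      rw [Nat.cast_smul_eq_nsmul] at ha
      refine ⟨m, ?_⟩
      rw [← hsmul, ← pr_one_eq_iff E, map_nsmul]
      exact Subtype.ext (congrArg Subtype.val ha).symm
    obtain ⟨a, ha⟩ := hall (Pi.single 0 1)
    obtain ⟨b, hb⟩ := hall (Pi.single 1 1)
    have h00 := congrFun ha 0
    have h01 := congrFun ha 1
    have h11 := congrFun hb 1
    simp only [Pi.smul_apply, smul_eq_mul, Pi.single_eq_same] at h00 h11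
    rw [Pi.single_eq_of_ne (by decide), Pi.smul_apply, smul_eq_mul] at h01
    have h1 : redV p v 1 ≠ 0 := by
      intro h0
      rw [h0, mul_zero] at h11
      exact one_ne_zero h11
    have ha0 : a = 0 := (mul_eq_zero.mp h01.symm).resolve_right h1
    rw [ha0, zero_mul] at h00
    exact one_ne_zero h00

end Irr

end Fermat.Agent.RTE
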