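import Fermat.Agent.RTE.Red0
import Fermat.Agent.ZEC.Two

/-!
# Local structure at a place of multiplicative reduction
-/

set_option autoImplicit false

namespace Fermat.Agent.RTE

open WeierstrassCurve WeierstrassCurve.Affine
open Fermat.Agent.FrobE Fermat.Agent.ERep
open Fermat.Agent.EC (IsInt InE1 xX xZ xX_some xZ_some xX_zero xZ_zero NS TrivMod)

section Basic

variable {K : Type*} [Field K] {A : ValuationSubring K} {k : Type*} [Field k] {π : A →+* k}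
  {W : Affine K} {Wk : Affine k} (hπ : ∀ a : A, π a = 0 ↔ A.valuation (a : K) < 1)
  (h : IsRed A π W Wk)

section E0

variable [DecidableEq K] [DecidableEq k]

/-- The subgroup of points with nonsingular reduction. -/
def E0 : AddSubgroup W.Point where
  carrier := {P | InE0 π Wk P}
  add_mem' := fun {P Q} hP hQ => (red0_add hπ h P Q hP hQ).1
  zero_mem' := (inE0_zero : InE0 π Wk (0 : W.Point))
  neg_mem' := fun {P} (hP : InE0 π Wk P) => (inE0_neg h hP : InE0 π Wk (-P))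

lemma mem_E0 {P : W.Point} : P ∈ E0 hπ h ↔ InE0 π Wk P := Iff.rfl

/-- The reduction homomorphism. -/
noncomputable def red0Hom : E0 hπ h →+ Wk.Point where
  toFun P := red0 h P.1
  map_zero' := rfl
  map_add' P Q := (red0_add hπ h P.1 Q.1 P.2 Q.2).2

lemma red0Hom_eq_zero_iff (P : E0 hπ h) :
    red0Hom hπ h P = 0 ↔ InE1 A.valuation (xX (W := W)) xZ P.1 :=
  red0_eq_zero_iff h P.2

end E0

variable {x₀ y₀ α β : K} (hc : Crit A.valuation W x₀ y₀ α β)

include hc in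
lemma crit_mem : x₀ ∈ A ∧ y₀ ∈ A ∧ α ∈ A ∧ β ∈ A :=
  ⟨(A.valuation_le_one_iff _).mp hc.x₀_le, (A.valuation_le_one_iff _).mp hc.y₀_le,
    (A.valuation_le_one_iff _).mp hc.α_le, (A.valuation_le_one_iff _).mp hc.β_le⟩

include hπ h in
/-- The node of the reduced curve. -/
lemma node_of_crit : Node Wk (π ⟨x₀, (crit_mem hc).1⟩) (π ⟨y₀, (crit_mem hc).2.1⟩)
    (π ⟨α, (crit_mem hc).2.2.1⟩) (π ⟨β, (crit_mem hc).2.2.2⟩) := by
  have mx := (crit_mem hc).1
  have my := (crit_mem hc).2.1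
  have ma := (crit_mem hc).2.2.1
  have mb := (crit_mem hc).2.2.2
  have k1 : (⟨α, ma⟩ : A) + ⟨β, mb⟩ = -⟨W.a₁, h.m₁⟩ := Subtype.ext hc.sum
  have k2 : (⟨α, ma⟩ : A) * ⟨β, mb⟩ = -(⟨W.a₂, h.m₂⟩ + 3 * ⟨x₀, mx⟩) := Subtype.ext hc.prod
  have k3 : (2 : A) * ⟨y₀, my⟩ + ⟨W.a₁, h.m₁⟩ * ⟨x₀, mx⟩ + ⟨W.a₃, h.m₃⟩ = 0 := Subtype.ext hc.dy
  have k4 : (⟨W.a₁, h.m₁⟩ : A) * ⟨y₀, my⟩ = 3 * ⟨x₀, mx⟩ ^ 2 + 2 * ⟨W.a₂, h.m₂⟩ * ⟨x₀, mx⟩ +
      ⟨W.a₄, h.m₄⟩ := Subtype.ext hc.dx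
  have l1 := congrArg π k1
  have l2 := congrArg π k2
  have l3 := congrArg π k3
  have l4 := congrArg π k4
  simp only [map_mul, map_add, map_neg, map_pow, map_ofNat, _root_.map_zero, h.e₁, h.e₂, h.e₃,
    h.e₄] at l1 l2 l3 l4
  refine ⟨l1, l2, ?_, l3, l4, ?_⟩
  · intro he
    have h1 : π (⟨β, mb⟩ - ⟨α, ma⟩) = 0 := by rw [map_sub, he, sub_self]
    have h2 := (hπ _).mp h1
    exact absurd hc.unit h2.ne
  · have h1 : A.valuation (((⟨y₀, my⟩ : A) ^ 2 + ⟨W.a₁, h.m₁⟩ * ⟨x₀, mx⟩ * ⟨y₀, my⟩ +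
        ⟨W.a₃, h.m₃⟩ * ⟨y₀, my⟩ -
        (⟨x₀, mx⟩ ^ 3 + ⟨W.a₂, h.m₂⟩ * ⟨x₀, mx⟩ ^ 2 + ⟨W.a₄, h.m₄⟩ * ⟨x₀, mx⟩ +
          ⟨W.a₆, h.m₆⟩) : A) : K) < 1 := hc.lt
    have h2 := (hπ _).mpr h1
    simp only [map_mul, map_add, map_sub, map_pow, h.e₁, h.e₂, h.e₃, h.e₄, h.e₆] at h2
    exact h2

include hπ h in
/-- reducing to the node = having singular reduction -/
lemma nd_iff (hc : Crit A.valuation W x₀ y₀ α β) (P : W.Point) : Nd A.valuation x₀ y₀ P ↔ ¬ InE0 π Wk P := by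
  have hN := node_of_crit hπ h hc
  have mx := (crit_mem hc).1
  have my := (crit_mem hc).2.1
  match P with
  | 0 => exact ⟨fun h => absurd h id, fun h => absurd trivial h⟩
  | .some x y n =>
    constructor
    · rintro ⟨h1, h2⟩ h3
      have hx : x ∈ A := by
        have : x = (x - x₀) + x₀ := by ring
        rw [this]
        exact add_mem ((A.valuation_le_one_iff _).mp h1.le) mx
      have hy : y ∈ A := by
        have : y = (y - y₀) + y₀ := by ring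
        rw [this]
        exact add_mem ((A.valuation_le_one_iff _).mp h2.le) my
      refine hN.ne_of_ns (h3 hx hy) ⟨?_, ?_⟩
      · rw [← sub_eq_zero, ← map_sub]
        exact (hπ _).mpr h1
      · rw [← sub_eq_zero, ← map_sub]
        exact (hπ _).mpr h2
    · intro h3
      by_contra hnd
      apply h3
      intro hx hy
      have hns := hc.ns n.1 ((A.valuation_le_one_iff _).mpr hx) hnd
      -- a singular point has `NS` false
      by_contra hsing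
      have he : Wk.Equation (π ⟨x, hx⟩) (π ⟨y, hy⟩) := h.equation n.1
      set Fy : A := 2 * ⟨y, hy⟩ + ⟨W.a₁, h.m₁⟩ * ⟨x, hx⟩ + ⟨W.a₃, h.m₃⟩ with hFy
      set Fx : A := ⟨W.a₁, h.m₁⟩ * ⟨y, hy⟩ - (3 * ⟨x, hx⟩ ^ 2 + 2 * ⟨W.a₂, h.m₂⟩ * ⟨x, hx⟩ +
        ⟨W.a₄, h.m₄⟩) with hFx
      have hFyk : π Fy = 2 * π ⟨y, hy⟩ + Wk.a₁ * π ⟨x, hx⟩ + Wk.a₃ := by
        rw [hFy, map_add, map_add, map_mul, map_mul, h.e₁, h.e₃, map_ofNat]
      have hFxk : π Fx = Wk.a₁ * π ⟨y, hy⟩ -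
          (3 * π ⟨x, hx⟩ ^ 2 + 2 * Wk.a₂ * π ⟨x, hx⟩ + Wk.a₄) := by
        rw [hFx, map_sub, map_add, map_add, map_mul, map_mul, map_mul, map_mul, map_pow, h.e₁, h.e₂,
          h.e₄, map_ofNat, map_ofNat]
      rw [Affine.nonsingular_iff', not_and, not_or, not_not, not_not] at hsing
      obtain ⟨s1, s2⟩ := hsing he
      have z1 : π Fx = 0 := by rw [hFxk]; exact s1
      have z2 : π Fy = 0 := by rw [hFyk]; exact s2
      have v1 := (hπ _).mp z1
      have v2 := (hπ _).mp z2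
      have e := (W.equation_iff x y).mp n.1
      rcases hns with hns | hns
      · have e1 : 4 * x ^ 3 + W.b₂ * x ^ 2 + 2 * W.b₄ * x + W.b₆ = ((Fy : A) : K) ^ 2 := by
          have : ((Fy : A) : K) = 2 * y + W.a₁ * x + W.a₃ := rfl
          rw [this, WeierstrassCurve.b₂, WeierstrassCurve.b₄, WeierstrassCurve.b₆]
          linear_combination (-4) * e
        rw [e1, map_pow] at hns
        have := pow_lt_one₀ zero_le v2 two_ne_zero
        exact absurd hns this.ne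
      · have e2 : x ^ 4 - W.b₄ * x ^ 2 - 2 * W.b₆ * x - W.b₈ =
            ((Fx : A) : K) * (((Fx : A) : K) - W.a₁ * ((Fy : A) : K)) -
              ((Fy : A) : K) * ((W.a₂ + 2 * x) * ((Fy : A) : K)) := by
          have h8 : ((Fy : A) : K) = 2 * y + W.a₁ * x + W.a₃ := rfl
          have h9 : ((Fx : A) : K) = W.a₁ * y - (3 * x ^ 2 + 2 * W.a₂ * x + W.a₄) := rfl
          rw [h8, h9, WeierstrassCurve.b₄, WeierstrassCurve.b₆, WeierstrassCurve.b₈]
          linear_combination (W.a₁ ^ 2 + 4 * W.a₂ + 8 * x) * e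
        rw [e2] at hns
        have hlt : A.valuation (((Fx : A) : K) * (((Fx : A) : K) - W.a₁ * ((Fy : A) : K)) -
              ((Fy : A) : K) * ((W.a₂ + 2 * x) * ((Fy : A) : K))) < 1 := by
          have i1 : ((Fx : A) : K) - W.a₁ * ((Fy : A) : K) ∈ A :=
            sub_mem Fx.2 (mul_mem h.m₁ Fy.2)
          have i2 : (W.a₂ + 2 * x) * ((Fy : A) : K) ∈ A :=
            mul_mem (add_mem h.m₂ (mul_mem (ofNat_mem A 2) hx)) Fy.2
          exact ERep.sub_lt (mul_lt v1 ((A.valuation_le_one_iff _).mpr i1))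
            (mul_lt v2 ((A.valuation_le_one_iff _).mpr i2))
        exact absurd hns hlt.ne

variable [DecidableEq K] [DecidableEq k]

include hc in
/-- torsion of `E₀` prime to the residue characteristic -/
lemma card_E0_le {n : ℕ} (hn : 0 < n) (hnv : A.valuation (n : K) = 1) :
    Nat.card {P : W.Point // P ∈ E0 hπ h ∧ n • P = 0} ≤ n := by
  have hN := node_of_crit hπ h hc
  let f : {P : W.Point // P ∈ E0 hπ h ∧ n • P = 0} → {P : Wk.Point | n • P = 0} := fun P =>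
    ⟨red0Hom hπ h ⟨P.1, P.2.1⟩, by
      change n • red0Hom hπ h ⟨P.1, P.2.1⟩ = 0
      rw [← map_nsmul]
      have : n • (⟨P.1, P.2.1⟩ : E0 hπ h) = 0 := Subtype.ext P.2.2
      rw [this, _root_.map_zero]⟩
  have hf : Function.Injective f := by
    intro P Q hPQ
    have h1 : red0Hom hπ h ⟨P.1, P.2.1⟩ = red0Hom hπ h ⟨Q.1, Q.2.1⟩ := congrArg Subtype.val hPQ
    rw [← sub_eq_zero, ← map_sub, red0Hom_eq_zero_iff] at h1
    have h2 := h.isInt.eq_zero_of_inE1 h1 hnv (by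
      change n • (P.1 - Q.1) = 0
      rw [nsmul_sub, P.2.2, Q.2.2, sub_zero])
    exact Subtype.ext (sub_eq_zero.mp h2)
  obtain ⟨hfin, hle⟩ := hN.card_le hn {P : Wk.Point | n • P = 0} (fun P hP => hP)
  have := hfin.to_subtype
  exact (Nat.card_le_card_of_injective f hf).trans hle

include hc in
/-- `p`-power torsion of `E₀` in residue characteristic `p` -/
lemma inE1_of_E0 {p : ℕ} [hp : Fact p.Prime] [CharP k p] {n : ℕ} {P : W.Point}
    (hP : P ∈ E0 hπ h) (hn : p ^ n • P = 0) : InE1 A.valuation (xX (W := W)) xZ P := by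
  have hN := node_of_crit hπ h hc
  refine (red0Hom_eq_zero_iff hπ h ⟨P, hP⟩).mp ?_
  refine hN.eq_zero_of_charP (n := n) ?_
  rw [← map_nsmul]
  have : p ^ n • (⟨P, hP⟩ : E0 hπ h) = 0 := Subtype.ext hn
  rw [this, _root_.map_zero]

end Basic

end Fermat.Agent.RTE
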