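import Fermat.Agent.RTE.Mult
import Fermat.Agent.MazX.NodeEx

/-!
# The decomposition group at a place of multiplicative reduction
-/

set_option autoImplicit false

namespace Fermat.Agent.RTE

open WeierstrassCurve WeierstrassCurve.Affine
open Fermat.Agent.FrobE Fermat.Agent.ERep
open Fermat.Agent.EC (IsInt InE1 xX xZ xX_some xZ_some xX_zero xZ_zero NS TrivMod)

section Crit

variable {R S K Γ₀ : Type*} [CommRing R] [CommRing S] [Field K]
  [LinearOrderedCommGroupWithZero Γ₀] [Algebra R S] [Algebra R K] [Algebra S K]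
  [IsScalarTower R S K] {v : Valuation K Γ₀} {W' : Affine R} {x₀ y₀ α β : K}

/-- The critical data under the decomposition group. -/
theorem crit_decomp' [CharZero K] (h : Crit v (W'⁄K) x₀ y₀ α β)
    {σ : K ≃ₐ[S] K} (hσv : ∀ x, v (σ x) = v x) :
    σ x₀ = x₀ ∧ σ y₀ = y₀ ∧ ((σ α = α ∧ σ β = β) ∨ (σ α = β ∧ σ β = α)) := by
  have c1 : σ (W'⁄K).a₁ = (W'⁄K).a₁ := ERep.smul_algebraMap σ W'.a₁
  have c2 : σ (W'⁄K).a₂ = (W'⁄K).a₂ := ERep.smul_algebraMap σ W'.a₂
  have c3 : σ (W'⁄K).a₃ = (W'⁄K).a₃ := ERep.smul_algebraMap σ W'.a₃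
  have c4 : σ (W'⁄K).a₄ = (W'⁄K).a₄ := ERep.smul_algebraMap σ W'.a₄
  have c6 : σ (W'⁄K).a₆ = (W'⁄K).a₆ := ERep.smul_algebraMap σ W'.a₆
  have cb2 : σ (W'⁄K).b₂ = (W'⁄K).b₂ := by
    simp only [b₂, map_add, map_mul, map_pow, c1, c2, map_ofNat]
  have cb4 : σ (W'⁄K).b₄ = (W'⁄K).b₄ := by
    simp only [b₄, map_add, map_mul, c1, c3, c4, map_ofNat]
  have cb6 : σ (W'⁄K).b₆ = (W'⁄K).b₆ := by
    simp only [b₆, map_add, map_mul, map_pow, c3, c6, map_ofNat]
  have cc6 : σ (W'⁄K).c₆ = (W'⁄K).c₆ := by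
    simp only [c₆, map_add, map_sub, map_neg, map_mul, map_pow, cb2, cb4, cb6, map_ofNat]
  have hx : σ x₀ = x₀ := by
    have e1 := h.h_eq
    have e2 := congrArg σ e1
    simp only [map_add, map_mul, map_pow, map_ofNat, _root_.map_zero, cb2, cb4] at e2
    have e3 : (σ x₀ - x₀) * (((W'⁄K).b₂ + 12 * x₀) + 6 * (σ x₀ - x₀)) = 0 := by
      linear_combination e2 - e1
    rcases mul_eq_zero.mp e3 with e4 | e4
    · exact sub_eq_zero.mp e4
    · exfalso
      have h1 : v ((W'⁄K).b₂ + 12 * x₀) = 1 := by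
        rw [← h.s_eq, map_pow, h.unit, one_pow]
      have f1 := F₀_c₆ h.dy e1
      have f2 := congrArg σ f1
      simp only [map_add, map_mul, map_pow, map_ofNat, cb2, cc6] at f2
      have f3 : ((432 : ℕ) : K) * (F₀ (W'⁄K) x₀ y₀ - σ (F₀ (W'⁄K) x₀ y₀)) =
          ((W'⁄K).b₂ + 12 * x₀) ^ 3 := by
        have h2 : (2 : K) ≠ 0 := two_ne_zero
        apply mul_left_cancel₀ h2
        have e5 : (W'⁄K).b₂ + 12 * σ x₀ = -((W'⁄K).b₂ + 12 * x₀) := by linear_combination 2 * e4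
        rw [e5] at f2
        push_cast
        linear_combination f1 - f2
      have h3 : v (((432 : ℕ) : K) * (F₀ (W'⁄K) x₀ y₀ - σ (F₀ (W'⁄K) x₀ y₀))) < 1 := by
        refine mul_lt' (EC.val_natCast_le_one v 432) (ERep.sub_lt h.F₀_lt ?_)
        rw [hσv]
        exact h.F₀_lt
      rw [f3, map_pow, h1, one_pow] at h3
      exact lt_irrefl _ h3
  have hy : σ y₀ = y₀ := by
    have e1 := h.dy
    have e2 := congrArg σ e1
    simp only [map_add, map_mul, map_ofNat, _root_.map_zero, c1, c3, hx] at e2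
    have h2 : (2 : K) ≠ 0 := two_ne_zero
    apply mul_left_cancel₀ h2
    linear_combination e2 - e1
  refine ⟨hx, hy, ?_⟩
  have hroot : ∀ γ γ' : K, γ + γ' = -(W'⁄K).a₁ → γ * γ' = -((W'⁄K).a₂ + 3 * x₀) →
      σ γ = γ ∨ σ γ = γ' := by
    intro γ γ' h1 h2
    have e1 : γ ^ 2 + (W'⁄K).a₁ * γ - ((W'⁄K).a₂ + 3 * x₀) = 0 := by
      linear_combination γ * h1 - h2
    have e2 := congrArg σ e1
    simp only [map_add, map_sub, map_mul, map_pow, map_ofNat, _root_.map_zero, c1, c2, hx] at e2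
    have e3 : (σ γ - γ) * ((σ γ - γ) - (γ' - γ)) = 0 := by
      linear_combination e2 - e1 - (σ γ - γ) * h1
    rcases mul_eq_zero.mp e3 with e4 | e4
    · exact Or.inl (sub_eq_zero.mp e4)
    · right
      linear_combination e4
  have hsum := congrArg σ h.sum
  simp only [map_add, map_neg, c1] at hsum
  have hs := h.sum
  rcases hroot α β h.sum h.prod with e | e
  · left
    refine ⟨e, ?_⟩
    linear_combination hsum - hs - e
  · right
    refine ⟨e, ?_⟩
    linear_combination hsum - hs - e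

end Crit

section Galois

variable {R S K : Type*} [CommRing R] [CommRing S] [Field K] [DecidableEq K]
  [Algebra R S] [Algebra R K] [Algebra S K]
  [IsScalarTower R S K] {A : ValuationSubring K} {k : Type*} [Field k] [DecidableEq k]
  {π : A →+* k} {W' : Affine R} {Wk : Affine k}
  (hπ : ∀ a : A, π a = 0 ↔ A.valuation (a : K) < 1) (h : IsRed A π (W'⁄K) Wk)
  {x₀ y₀ α β : K} (hc : Crit A.valuation (W'⁄K) x₀ y₀ α β)
  {σ : K ≃ₐ[S] K} (hσv : ∀ x, A.valuation (σ x) = A.valuation x)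
  (hx₀ : σ x₀ = x₀) (hy₀ : σ y₀ = y₀)

lemma nd_smul_iff (hσv : ∀ x, A.valuation (σ x) = A.valuation x)
    (hx₀ : σ x₀ = x₀) (hy₀ : σ y₀ = y₀) (P : (W'⁄K).Point) :
    Nd A.valuation x₀ y₀ (σ • P) ↔ Nd A.valuation x₀ y₀ P := by
  rcases P with _ | ⟨x, y, n⟩
  · have : σ • (Point.zero : (W'⁄K).Point) = 0 := by
      change σ • (0 : (W'⁄K).Point) = 0
      rw [smul_zero]
    rw [this]
    exact Iff.rfl
  · have e1 : A.valuation (σ x - x₀) = A.valuation (x - x₀) := by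
      rw [← hσv (x - x₀), map_sub σ, hx₀]
    have e2 : A.valuation (σ y - y₀) = A.valuation (y - y₀) := by
      rw [← hσv (y - y₀), map_sub σ, hy₀]
    change (A.valuation (σ x - x₀) < 1 ∧ A.valuation (σ y - y₀) < 1) ↔ _
    rw [e1, e2]
    exact Iff.rfl

include hc hσv hx₀ hy₀

theorem smul_mem_E0 {P : (W'⁄K).Point} (hP : P ∈ E0 hπ h) : σ • P ∈ E0 hπ h := by
  have h1 := nd_iff hπ h hc (σ • P)
  rw [nd_smul_iff hσv hx₀ hy₀, nd_iff hπ h hc P, not_iff_not] at h1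
  exact h1.mp hP

theorem smul_sub_mem_E0 (hα : σ α = α) (hβ : σ β = β) {P : (W'⁄K).Point} {m : ℕ} (hm : Odd m)
    (hP : m • P = 0) : σ • P - P ∈ E0 hπ h := by
  by_cases hE : P ∈ E0 hπ h
  · exact sub_mem (smul_mem_E0 hπ h hc hσv hx₀ hy₀ hE) hE
  · have hnd := (nd_iff hπ h hc P).mpr hE
    rcases P with _ | ⟨x, y, n⟩
    · exact absurd hnd id
    · have h1 := ZEC.not_nd_fix hc hσv hx₀ hy₀ hα hβ n hnd (hc.ne_of_torsion n hm hP hnd)
      rw [nd_iff hπ h hc, not_not] at h1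
      exact h1

theorem smul_add_mem_E0 (hα : σ α = β) (hβ : σ β = α) {P : (W'⁄K).Point} {m : ℕ} (hm : Odd m)
    (hP : m • P = 0) : σ • P + P ∈ E0 hπ h := by
  by_cases hE : P ∈ E0 hπ h
  · exact add_mem (smul_mem_E0 hπ h hc hσv hx₀ hy₀ hE) hE
  · have hnd := (nd_iff hπ h hc P).mpr hE
    rcases P with _ | ⟨x, y, n⟩
    · exact absurd hnd id
    · have h1 := ZEC.not_nd_swap hc hσv hx₀ hy₀ hα hβ n hnd (hc.ne_of_torsion n hm hP hnd)
      rw [nd_iff hπ h hc, not_not] at h1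
      exact h1

end Galois

end Fermat.Agent.RTE
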