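import Fermat.Agent.FrobE.Add
import Fermat.Agent.ERep.Node

/-!
# The nonsingular points of a nodal cubic are the multiplicative group
-/

set_option autoImplicit false

namespace Fermat.Agent.RTE

open WeierstrassCurve WeierstrassCurve.Affine WeierstrassCurve.Affine.Point
open Fermat.Agent.FrobE (IsSlope map_add_of exists_add some_congr)
open Fermat.Agent.ERep (F₀)

variable {κ : Type*} [Field κ]

/-- `(x₀, y₀)` is a node with branches of slopes `α`, `β`. -/
structure Node (W : Affine κ) (x₀ y₀ α β : κ) : Prop where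
  sum : α + β = -W.a₁
  prod : α * β = -(W.a₂ + 3 * x₀)
  ne : α ≠ β
  dy : 2 * y₀ + W.a₁ * x₀ + W.a₃ = 0
  dx : W.a₁ * y₀ = 3 * x₀ ^ 2 + 2 * W.a₂ * x₀ + W.a₄
  eq : F₀ W x₀ y₀ = 0

variable {W : Affine κ} {x₀ y₀ α β : κ}

namespace Node

lemma eqn (h : Node W x₀ y₀ α β) {x y : κ} (e : W.Equation x y) :
    ((y - y₀) - α * (x - x₀)) * ((y - y₀) - β * (x - x₀)) = (x - x₀) ^ 3 := by
  have e' := (W.equation_iff x y).mp e
  have h1 := h.sum
  have h2 := h.prod
  have h3 := h.dy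
  have h4 := h.dx
  have h5 := h.eq
  unfold F₀ at h5
  linear_combination e' - (x - x₀) * (y - y₀) * h1 + (x - x₀) ^ 2 * h2 - (y - y₀) * h3 -
    (x - x₀) * h4 - h5

/-- a nonsingular point is not the node -/
lemma ne_of_ns (h : Node W x₀ y₀ α β) {x y : κ} (n : W.Nonsingular x y) :
    ¬ (x = x₀ ∧ y = y₀) := by
  rintro ⟨rfl, rfl⟩
  have h3 := h.dy
  have h4 := h.dx
  rw [nonsingular_iff'] at n
  rcases n.2 with h5 | h5
  · apply h5
    linear_combination h4
  · apply h5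
    linear_combination h3

lemma u_ne (h : Node W x₀ y₀ α β) {x y : κ} (n : W.Nonsingular x y) :
    (y - y₀) - α * (x - x₀) ≠ 0 := by
  intro h0
  have e := h.eqn n.1
  rw [h0, zero_mul] at e
  have hx : x - x₀ = 0 := by
    have := e.symm
    exact pow_eq_zero_iff (three_ne_zero) |>.mp this
  rw [hx, mul_zero, sub_zero] at h0
  exact h.ne_of_ns n ⟨sub_eq_zero.mp hx, sub_eq_zero.mp h0⟩

lemma symm (h : Node W x₀ y₀ α β) : Node W x₀ y₀ β α :=
  { h with
    sum := by rw [add_comm, h.sum]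
    prod := by rw [mul_comm, h.prod]
    ne := h.ne.symm }

lemma w_ne (h : Node W x₀ y₀ α β) {x y : κ} (n : W.Nonsingular x y) :
    (y - y₀) - β * (x - x₀) ≠ 0 := h.symm.u_ne n

/-- The parameter of a point. -/
noncomputable def tf (h : Node W x₀ y₀ α β) : W.Point → Additive κˣ
  | .zero => 0
  | .some x y n => Additive.ofMul (Units.mk0 ((y - y₀) - α * (x - x₀)) (h.u_ne n) /
      Units.mk0 ((y - y₀) - β * (x - x₀)) (h.w_ne n))

lemma tf_zero (h : Node W x₀ y₀ α β) : h.tf (0 : W.Point) = 0 := rfl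

lemma tf_some (h : Node W x₀ y₀ α β) {x y : κ} (n : W.Nonsingular x y) :
    ((Additive.toMul (h.tf (.some x y n : W.Point)) : κˣ) : κ) =
      ((y - y₀) - α * (x - x₀)) / ((y - y₀) - β * (x - x₀)) := by
  change ((Units.mk0 _ _ / Units.mk0 _ _ : κˣ) : κ) = _
  rw [Units.val_div_eq_div_val, Units.val_mk0, Units.val_mk0]

lemma tf_neg (h : Node W x₀ y₀ α β) (P : W.Point) : h.tf (-P) = -h.tf P := by
  match P with
  | 0 => 
    change (0 : Additive κˣ) = -0
    simp
  | .some x y n =>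
    apply Additive.toMul.injective
    apply Units.ext
    rw [toMul_neg, Units.val_inv_eq_inv_val, h.tf_some n, Point.neg_some, h.tf_some]
    have e1 : (W.negY x y - y₀) - α * (x - x₀) = -((y - y₀) - β * (x - x₀)) := by
      rw [negY]
      linear_combination (-1) * h.dy - (x - x₀) * h.sum
    have e2 : (W.negY x y - y₀) - β * (x - x₀) = -((y - y₀) - α * (x - x₀)) := by
      rw [negY]
      linear_combination (-1) * h.dy - (x - x₀) * h.sum
    rw [e1, e2, neg_div_neg_eq, inv_div]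

/-- The three points of a line. -/
lemma triple (h : Node W x₀ y₀ α β) {x₁ y₁ x₂ y₂ l : κ} (h₁ : W.Equation x₁ y₁)
    (hs : IsSlope W x₁ y₁ x₂ y₂ l) {x₃ : κ} (hx : x₃ = l ^ 2 + W.a₁ * l - W.a₂ - x₁ - x₂) :
    ((y₁ - y₀) - α * (x₁ - x₀)) * ((y₂ - y₀) - α * (x₂ - x₀)) *
      ((l * (x₃ - x₁) + y₁ - y₀) - α * (x₃ - x₀)) = ((y₁ - y₀) - l * (x₁ - x₀)) ^ 3 := by
  have h0 := h.sum
  have h2 := h.prod
  have e := h.eqn h₁
  have r1 := hs.r1
  have r2 := hs.r2
  -- variables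
  set X₁ := x₁ - x₀ with hX₁
  set X₂ := x₂ - x₀ with hX₂
  set X₃ := x₃ - x₀ with hX₃
  set ν := (y₁ - y₀) - l * X₁ with hν
  set a := l - α with ha
  set b := l - β with hb
  have hu₁ : (y₁ - y₀) - α * X₁ = a * X₁ + ν := by rw [hν, ha]; ring
  have hw₁ : (y₁ - y₀) - β * X₁ = b * X₁ + ν := by rw [hν, hb]; ring
  have hu₂ : (y₂ - y₀) - α * X₂ = a * X₂ + ν := by
    rw [hν, ha, hX₁, hX₂]; linear_combination r1
  have hu₃ : (l * (x₃ - x₁) + y₁ - y₀) - α * X₃ = a * X₃ + ν := by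
    rw [hν, ha, hX₁, hX₃]; ring
  have e1 : X₃ = a * b - X₁ - X₂ := by
    rw [hX₃, hX₁, hX₂, ha, hb, hx]
    linear_combination l * h0 - h2
  have hdd : X₁ ^ 2 + X₁ * X₂ + X₂ ^ 2 - a * b * (X₁ + X₂) - ν * (a + b) = 0 := by
    rw [hν, hX₁, hX₂, ha, hb]
    have h3 := h.dy
    have h4 := h.dx
    linear_combination (-1) * r2 + l * r1 + l * h3 - (x₁ + x₂ - 2 * x₀) * h2 +
      (y₁ - y₀ + l * (x₂ - x₀)) * h0 + h4
  rw [hu₁, hw₁] at e
  have e3 : X₁ * (X₂ * X₃) = ν ^ 2 := by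
    rw [e1]
    linear_combination (-1) * e - X₁ * hdd
  have e2 : X₁ * X₂ + X₁ * X₃ + X₂ * X₃ = -(ν * (a + b)) := by
    rw [e1]
    linear_combination (-1) * hdd
  rw [hu₁, hu₂, hu₃]
  linear_combination a ^ 3 * e3 + a ^ 2 * ν * e2 + a * ν ^ 2 * e1

variable [DecidableEq κ]

lemma tf_add_some (h : Node W x₀ y₀ α β) {x₁ y₁ x₂ y₂ : κ} (h₁ : W.Nonsingular x₁ y₁)
    (h₂ : W.Nonsingular x₂ y₂) (hxy : ¬(x₁ = x₂ ∧ y₁ = W.negY x₂ y₂)) :
    h.tf (Point.some x₁ y₁ h₁ + Point.some x₂ y₂ h₂) =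
      h.tf (Point.some x₁ y₁ h₁) + h.tf (Point.some x₂ y₂ h₂) := by
  obtain ⟨l, x₃, y₃, h₃, hs, hx, hy, e⟩ := exists_add h₁ h₂ hxy
  rw [e]
  apply Additive.toMul.injective
  apply Units.ext
  rw [toMul_add, Units.val_mul, h.tf_some, h.tf_some, h.tf_some]
  have t1 := h.triple h₁.1 hs hx
  have t2 := h.symm.triple h₁.1 hs hx
  have e1 : (y₃ - y₀) - α * (x₃ - x₀) = -((l * (x₃ - x₁) + y₁ - y₀) - β * (x₃ - x₀)) := by
    rw [hy]
    linear_combination (-1) * h.dy - (x₃ - x₀) * h.sum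
  have e2 : (y₃ - y₀) - β * (x₃ - x₀) = -((l * (x₃ - x₁) + y₁ - y₀) - α * (x₃ - x₀)) := by
    rw [hy]
    linear_combination (-1) * h.dy - (x₃ - x₀) * h.sum
  have n3 := h.w_ne h₃
  rw [e2] at n3
  have n3' := neg_ne_zero.mp n3
  rw [e1, e2, neg_div_neg_eq, div_mul_div_comm, div_eq_div_iff n3'
    (mul_ne_zero (h.w_ne h₁) (h.w_ne h₂))]
  linear_combination t2 - t1

/-- The isomorphism onto the multiplicative group. -/
noncomputable def hom (h : Node W x₀ y₀ α β) : W.Point →+ Additive κˣ where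
  toFun := h.tf
  map_zero' := h.tf_zero
  map_add' := map_add_of h.tf h.tf_zero h.tf_neg fun _ _ _ _ h₁ h₂ hxy => h.tf_add_some h₁ h₂ hxy

lemma hom_apply (h : Node W x₀ y₀ α β) (P : W.Point) : h.hom P = h.tf P := rfl

lemma hom_injective (h : Node W x₀ y₀ α β) : Function.Injective h.hom := by
  rw [injective_iff_map_eq_zero]
  intro P hP
  rw [hom_apply] at hP
  match P with
  | 0 => rfl
  | .some x y n =>
    exfalso
    have h1 : ((Additive.toMul (h.tf (.some x y n : W.Point)) : κˣ) : κ) = 1 := by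
      have e : h.tf (.some x y n : W.Point) = 0 := hP
      rw [e]
      rfl
    rw [h.tf_some n, div_eq_one_iff_eq (h.w_ne n)] at h1
    have h2 : (β - α) * (x - x₀) = 0 := by linear_combination h1
    rcases mul_eq_zero.mp h2 with h3 | h3
    · exact h.ne (sub_eq_zero.mp h3).symm
    · have e := h.eqn n.1
      rw [h3, zero_pow three_ne_zero] at e
      rcases mul_eq_zero.mp e with h4 | h4
      · exact h.u_ne n (by rw [h3]; exact h4)
      · exact h.w_ne n (by rw [h3]; exact h4)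

/-- At most `n` points of order dividing `n`. -/
lemma card_le (h : Node W x₀ y₀ α β) {n : ℕ} (hn : 0 < n) (S : Set W.Point)
    (hS : ∀ P ∈ S, n • P = 0) : S.Finite ∧ Nat.card S ≤ n := by
  have : NeZero n := ⟨hn.ne'⟩
  let f : S → rootsOfUnity n κ := fun P => ⟨Additive.toMul (h.hom P.1), by
    rw [mem_rootsOfUnity]
    have h1 := congrArg h.hom (hS P.1 P.2)
    rw [map_nsmul, _root_.map_zero] at h1
    exact h1⟩
  have hf : Function.Injective f := by
    intro P Q hPQ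
    have h1 := congrArg Subtype.val hPQ
    exact Subtype.ext (h.hom_injective (Additive.toMul.injective h1))
  have hfin : Finite S := Finite.of_injective f hf
  refine ⟨hfin, ?_⟩
  calc Nat.card S ≤ Nat.card (rootsOfUnity n κ) := Nat.card_le_card_of_injective f hf
    _ ≤ n := card_rootsOfUnity κ n

/-- In characteristic `p` there is no `p`-torsion. -/
lemma eq_zero_of_charP (h : Node W x₀ y₀ α β) {p : ℕ} [hp : Fact p.Prime] [CharP κ p] {n : ℕ}
    {P : W.Point} (hP : p ^ n • P = 0) : P = 0 := by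
  apply h.hom_injective
  rw [_root_.map_zero]
  have h1 := congrArg h.hom hP
  rw [map_nsmul, _root_.map_zero] at h1
  have h2 : (((Additive.toMul (h.hom P)) : κˣ) : κ) ^ p ^ n = 1 := by
    have := congrArg (fun z : Additive κˣ => ((Additive.toMul z : κˣ) : κ)) h1
    simpa using this
  have h3 : (((Additive.toMul (h.hom P)) : κˣ) : κ) = 1 := by
    have h4 : ((((Additive.toMul (h.hom P)) : κˣ) : κ) - 1) ^ p ^ n = 0 := by
      rw [sub_pow_char_pow, h2, one_pow, sub_self]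
    exact sub_eq_zero.mp (pow_eq_zero_iff (pow_ne_zero _ hp.out.ne_zero) |>.mp h4)
  apply Additive.toMul.injective
  exact Units.ext h3

end Node

end Fermat.Agent.RTE
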