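import Fermat.Agent.RTE.Tame
import Fermat.Agent.RTan.GX
import Fermat.Agent.RTan.OrdJ5
import Fermat.Agent.RT8.Sys

/-!
The point of the deformation rings defined by a semistable elliptic curve.
-/

set_option autoImplicit false
set_option linter.unusedSectionVars false

namespace Fermat.Agent.RTE

open WeierstrassCurve WeierstrassCurve.Affine IsLocalRing
open Fermat.Agent.ERep Fermat.Agent.Tate Fermat.Agent.LocRing
open Fermat.Agent.DefRing (M2 mapRep mapRep_apply MatCont Red Norm SliceData conjRep)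
open Fermat.Agent.TWP (Pl Pl_lies)
open Matrix

section Conj

variable {R : Type} [CommRing R] (u : (M2 R)ˣ) (r : GQ →* M2 R)

theorem conj_one_iff (s : GQ) : conjRep u r s = 1 ↔ r s = 1 := by
  rw [DefRing.conjRep_apply]
  constructor
  · intro h
    have h1 := congrArg (fun M => (↑u⁻¹ : M2 R) * M * (u : M2 R)) h
    simp only [mul_assoc] at h1
    rw [Units.inv_mul, Units.inv_mul_cancel_left, mul_one, one_mul, Units.inv_mul] at h1
    exact h1
  · intro h
    rw [h, mul_one, Units.mul_inv]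

theorem conj_sub_one (s : GQ) : conjRep u r s - 1 = u * (r s - 1) * (↑u⁻¹ : M2 R) := by
  rw [DefRing.conjRep_apply, mul_sub, sub_mul, mul_one, Units.mul_inv]

theorem isUni_conj' {q : R} {φ τ : GQ} (h : IsUni q (r φ) (r τ - 1)) :
    IsUni q (conjRep u r φ) (conjRep u r τ - 1) := by
  rw [conj_sub_one, DefRing.conjRep_apply]
  exact RT8.isUni_conj (G := (↑u⁻¹ : M2 R)) (H := (u : M2 R)) (Units.inv_mul u) h

theorem det_conj (s : GQ) : (conjRep u r s).det = (r s).det := by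
  rw [DefRing.conjRep_apply, Matrix.det_mul, Matrix.det_mul, mul_comm (det (u : M2 R)), mul_assoc,
    ← Matrix.det_mul, Units.mul_inv, Matrix.det_one, mul_one]

theorem trace_conj (s : GQ) : (conjRep u r s).trace = (r s).trace := by
  rw [DefRing.conjRep_apply, Matrix.trace_mul_comm, ← mul_assoc, Units.inv_mul, one_mul]

theorem ordM_conj {𝒪 : Type} [CommRing 𝒪] [Algebra 𝒪 R] {A : ValuationSubring Qb} {σ₀ : GQ}
    {e : 𝒪} (h : RTan.OrdM A σ₀ e r) : RTan.OrdM A σ₀ e (conjRep u r) := by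
  have h0 : ∀ s, algebraMap 𝒪 R e • (1 : M2 R) - conjRep u r s =
      u * (algebraMap 𝒪 R e • (1 : M2 R) - r s) * (↑u⁻¹ : M2 R) := by
    intro s
    rw [DefRing.conjRep_apply, mul_sub, sub_mul, mul_smul_comm, mul_one, smul_mul_assoc,
      Units.mul_inv]
  have hmid : ∀ X Y : M2 R, (u * X * (↑u⁻¹ : M2 R)) * (u * Y * (↑u⁻¹ : M2 R)) =
      u * (X * Y) * (↑u⁻¹ : M2 R) := by
    intro X Y
    simp only [mul_assoc]
    rw [Units.inv_mul_cancel_left]
  constructor
  · intro σ hσ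
    rw [h0, conj_sub_one, DefRing.conjRep_apply, hmid, hmid, h.stab σ hσ, mul_zero, zero_mul]
  · intro σ hσ
    rw [h0, conj_sub_one, hmid, h.quot σ hσ, mul_zero, zero_mul]

end Conj

section Coeff

variable (E : WeierstrassCurve ℚ) [E.IsElliptic] (p : ℕ) [hp : Fact p.Prime]
  {W : WeierstrassCurve ℤ} (hWE : W.IsIntegralModelOf E)
  {O : Type} [CommRing O] [IsLocalRing O] (hpO : (p : O) ∈ maximalIdeal O) (f : ℤ_[p] →+* O)

/-- The `p`-adic representation with coefficients in `O`. -/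
noncomputable def rE : GQ →* M2 O := mapRep f (matE E p)

/-- The residual representation with coefficients in the residue field of `O`. -/
noncomputable def rbE : GQ →* M2 (ResidueField O) := mapRep ((residue O).comp f) (matE E p)

theorem rE_eq (s : GQ) : rE E p f s = f.mapMatrix (matE E p s) := rfl

theorem rbE_eq (s : GQ) : rbE E p f s = (residue O).mapMatrix (rE E p f s) := rfl

theorem red_rE : Red (rbE E p f) (rE E p f) := by
  intro σ i j o ho
  rw [← residue_eq_zero_iff, map_sub, Algebra.algebraMap_self, RingHom.id_apply, ho]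
  exact sub_self _

include hpO in
theorem isLocalHom_f : IsLocalHom f := by
  constructor
  intro x hx
  by_contra h
  have h1 : x ∈ maximalIdeal ℤ_[p] := h
  rw [PadicInt.maximalIdeal_eq_span_p, Ideal.mem_span_singleton] at h1
  obtain ⟨y, rfl⟩ := h1
  rw [map_mul, map_natCast] at hx
  exact (mem_maximalIdeal _).mp (Ideal.mul_mem_right (f y) _ hpO) hx

include hpO in
theorem rE_cont : MatCont O (rE E p f) :=
  DefRing.mapRep_cont f (isLocalHom_f p hpO f) (matE E p) (matE_cont E p)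

/-- the cyclotomic character with values in `O` -/
noncomputable def chiO (s : GQ) : O := f (cycE p s)

theorem cycChar_chiO : RTan.CycChar p (chiO p f) := by
  constructor
  intro n σ a h
  have h1 := QuadRep.cyc_sub_mem (p_mem p) n a σ h
  rw [PadicInt.maximalIdeal_eq_span_p, Ideal.span_singleton_pow, Ideal.mem_span_singleton] at h1
  obtain ⟨y, hy⟩ := h1
  rw [chiO, Ideal.mem_span_singleton]
  refine ⟨f y, ?_⟩
  have h2 := congrArg f hy
  rw [map_sub, map_natCast, map_mul, map_pow, map_natCast] at h2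
  exact h2

include hpO in
/-- the cyclotomic character is unique -/
theorem cycChar_unique [IsNoetherianRing O] {χ χ' : GQ → O} (h : RTan.CycChar p χ)
    (h' : RTan.CycChar p χ') : χ = χ' := by
  funext σ
  have hm : ∀ n : ℕ, χ σ - χ' σ ∈ maximalIdeal O ^ n := by
    intro n
    obtain ⟨ζ, hζ⟩ := HasEnoughRootsOfUnity.exists_primitiveRoot (AlgebraicClosure ℚ) (p ^ n)
    have h1 : (σ ζ) ^ (p ^ n) = 1 := by rw [← map_pow, hζ.pow_eq_one, map_one]
    obtain ⟨a, -, ha⟩ := hζ.eq_pow_of_pow_eq_one h1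
    have h2 : ∀ μ : Qb, μ ^ p ^ n = 1 → σ μ = μ ^ a := by
      intro μ hμ
      obtain ⟨b, -, rfl⟩ := hζ.eq_pow_of_pow_eq_one hμ
      rw [map_pow, ← ha, ← pow_mul, ← pow_mul, mul_comm]
    have hle : Ideal.span {((p : O) ^ n)} ≤ maximalIdeal O ^ n := by
      rw [Ideal.span_singleton_le_iff_mem]
      exact Ideal.pow_mem_pow hpO n
    have h3 := hle (h.spec n σ a h2)
    have h4 := hle (h'.spec n σ a h2)
    have h5 : χ σ - χ' σ = (χ σ - a) - (χ' σ - a) := by ring
    rw [h5]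
    exact Ideal.sub_mem _ h3 h4
  have h3 : χ σ - χ' σ ∈ (⨅ n : ℕ, maximalIdeal O ^ n) := by
    rw [Ideal.mem_iInf]; exact hm
  rw [Ideal.iInf_pow_eq_bot_of_isLocalRing _ (maximalIdeal.isMaximal O).ne_top] at h3
  exact sub_eq_zero.1 h3

include hWE in
theorem det_rE (hns : NonScalar E p) (s : GQ) : (rE E p f s).det = chiO p f s := by
  rw [rE_eq, ← RingHom.map_det, det_matE, det_eq_cyc E p hWE hns]
  rfl

include hWE in
theorem isUni_rE (hns : NonScalar E p) (hp2 : p ≠ 2) (hss : W.IsSemistableModel)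
    {A : ValuationSubring Qb} {q : ℕ} (hq : q.Prime) (hA : A.LiesOverPrime q) (hqp : q ≠ p)
    {φ τ : GQ} (hφ : A.IsFrobeniusAt φ q) (hτ : τ ∈ A.inertiaSubgroupIn ℚ) :
    IsUni (q : O) (rE E p f φ) (rE E p f τ - 1) := by
  have h := isUni_map f (isUni_matE E p hWE hns hq hA hqp hp2 hss hφ hτ)
  rw [map_natCast] at h
  have h1 : rE E p f τ - 1 = (matE E p τ - 1).map f := by
    have h2 : rE E p f τ - 1 = f.mapMatrix (matE E p τ - 1) := by
      rw [map_sub, map_one, ← rE_eq]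
    exact h2
  rw [h1]
  exact h

include hWE in
theorem rE_inertia_good {A : ValuationSubring Qb} {q : ℕ} (hq : q.Prime)
    (hA : A.LiesOverPrime q) (hqp : q ≠ p) (hW : W.IsGoodPrimeFor q) {s : GQ}
    (hs : s ∈ A.inertiaSubgroupIn ℚ) : rE E p f s = 1 := by
  rw [rE_eq, matE_of_repE E p (repE_inertia_good E p hWE hq hA hqp hW hs), map_one]

include hWE in
theorem rE_inertia_sq (hss : W.IsSemistableModel) {A : ValuationSubring Qb} {q : ℕ} (hq : q.Prime)
    (hA : A.LiesOverPrime q) (hqp : q ≠ p) {s : GQ}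
    (hs : s ∈ A.inertiaSubgroupIn ℚ) : (rE E p f s - 1) * (rE E p f s - 1) = 0 := by
  by_cases hgood : W.IsGoodPrimeFor q
  · rw [rE_inertia_good E p hWE f hq hA hqp hgood hs, sub_self, mul_zero]
  · have h1 := matE_inertia_mult E p hWE hq hA hqp (not_not.mp hgood)
      (hss q hq (not_not.mp hgood)) hs hs
    rw [rE_eq, ← map_one f.mapMatrix, ← map_sub, ← map_mul, h1, map_zero]

include hWE in
theorem trace_rE_frob (hns : NonScalar E p) {A : ValuationSubring Qb} {q : ℕ} (hq : q.Prime)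
    (hA : A.LiesOverPrime q) (hqp : q ≠ p) (hW : W.IsGoodPrimeFor q) {σ : GQ}
    (hσ : A.IsFrobeniusAt σ q) : (rE E p f σ).trace = ((W.apOfModel q : ℤ) : O) := by
  have h1 : (rE E p f σ).trace = f (matE E p σ).trace := by
    rw [rE_eq, Matrix.trace_fin_two, Matrix.trace_fin_two, map_add]
    rfl
  rw [h1, trace_matE, trE_frob E p hWE hns hq hA hqp hW hσ, map_intCast]

include hWE in
theorem rE_tame (hf : Function.Injective f) {l : Nat.Primes} (hlp : (l : ℕ) ≠ p)
    (hΔ : ((l : ℕ) : ℤ) ∣ W.Δ) (hc : ¬ ((l : ℕ) : ℤ) ∣ W.c₄)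
    {c : Qb} (hcl : c ^ p = ((l : ℕ) : Qb)) {τ : GQ} (hτ : τ ∈ (Pl l).inertiaSubgroupIn ℚ)
    (hτc : τ c ≠ c) (hp2 : p ≠ 2) : rE E p f τ ≠ 1 := by
  intro h
  apply matE_tame E p hWE hlp hΔ hc hcl hτ hτc hp2
  rw [rE_eq, ← map_one f.mapMatrix] at h
  ext i j
  exact hf (congrFun (congrFun h i) j)

/-! ### Residual facts -/

include hpO in
theorem charP_res : CharP (ResidueField O) p := by
  refine (CharP.charP_iff_prime_eq_zero hp.out).mpr ?_
  rw [← map_natCast (residue O), residue_eq_zero_iff]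
  exact hpO

include hpO in
theorem rbE_eq_modE (s : GQ) : ∃ g : ZMod p →+* ResidueField O,
    rbE E p f s = g.mapMatrix (modE E p s) := by
  have := charP_res p hpO
  exact ⟨ZMod.castHom (dvd_refl p) (ResidueField O), mapRep_matE E p ((residue O).comp f) s⟩

include hWE hpO in
theorem rbE_tame {l : Nat.Primes} (hlp : (l : ℕ) ≠ p)
    (hΔ : ((l : ℕ) : ℤ) ∣ W.Δ) (hc : ¬ ((l : ℕ) : ℤ) ∣ W.c₄)
    {c : Qb} (hcl : c ^ p = ((l : ℕ) : Qb)) {τ : GQ} (hτ : τ ∈ (Pl l).inertiaSubgroupIn ℚ)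
    (hτc : τ c ≠ c) (hp2 : p ≠ 2) (hm : ¬ p ∣ padicValInt l W.Δ) : rbE E p f τ ≠ 1 := by
  intro h
  apply modE_tame E p hWE hlp hΔ hc hcl hτ hτc hp2 hm
  obtain ⟨g, hg⟩ := rbE_eq_modE E p hpO f τ
  rw [hg, ← map_one g.mapMatrix] at h
  ext i j
  exact g.injective (congrFun (congrFun h i) j)

include hWE hpO in
theorem rbE_unip (hss : W.IsSemistableModel) {A : ValuationSubring Qb} {q : ℕ} (hq : q.Prime)
    (hA : A.LiesOverPrime q) (hqp : q ≠ p) {s : GQ}
    (hs : s ∈ A.inertiaSubgroupIn ℚ) : ∃ a, rbE E p f s ^ p ^ a = 1 := by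
  refine ⟨1, ?_⟩
  have h1 : (rbE E p f s - 1) * (rbE E p f s - 1) = 0 := by
    rw [rbE_eq, ← map_one (residue O).mapMatrix, ← map_sub, ← map_mul,
      rE_inertia_sq E p hWE f hss hq hA hqp hs, map_zero]
  have := charP_res p hpO
  rw [pow_one, unip_pow h1, CharP.cast_eq_zero, zero_smul, add_zero]

/-- tame pairs -/
theorem tameAt_rbE (hWE : W.IsIntegralModelOf E) (hpO : (p : O) ∈ maximalIdeal O)
    (hss : W.IsSemistableModel) {l : Nat.Primes} (hlp : (l : ℕ) ≠ p)
    {c : Qb} (hcl : c ^ p = ((l : ℕ) : Qb)) {φ τ : GQ} (hτ : τ ∈ (Pl l).inertiaSubgroupIn ℚ)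
    (hτc : τ c ≠ c) (hφ : (Pl l).IsFrobeniusAt φ l) : RTan.TameAt p (rbE E p f) l φ τ :=
  ⟨hlp, ⟨c, hcl, hτc⟩, hτ, hφ, fun _ hσ => rbE_unip E p hWE hpO f hss l.2 (Pl_lies l) hlp hσ⟩

/-- the residual representation is unramified outside `p Δ` -/
theorem unrOut_rbE (hWE : W.IsIntegralModelOf E) (hpO : (p : O) ∈ maximalIdeal O)
    (S : Finset Nat.Primes)
    (hS : ∀ q : Nat.Primes, q ∉ S → (q : ℕ) ≠ p ∧ W.IsGoodPrimeFor q) :
    TWP.UnrOut S (rbE E p f) := by
  have hch := charP_res p hpO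
  constructor
  · obtain ⟨L, hL, h⟩ := modE_cont E p
    refine ⟨L, hL, fun σ hσ => ?_⟩
    obtain ⟨g, hg⟩ := rbE_eq_modE E p hpO f σ
    rw [hg, h σ hσ, map_one]
  · intro q hq A hA σ hσ
    obtain ⟨h1, h2⟩ := hS q hq
    rw [rbE_eq, rE_inertia_good E p hWE f q.2 hA h1 h2 hσ, map_one]

/-- the hypotheses of the Taylor–Wiles method -/
theorem rd_rbE (hWE : W.IsIntegralModelOf E) (hpO : (p : O) ∈ maximalIdeal O)
    (hss : W.IsSemistableModel) (h2 : (2 : ℤ) ∣ W.Δ) (hp2 : p ≠ 2)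
    (hcase : Case W p) (hirr : Affine.Point.GaloisRepIsIrreducible (K := Qb) ℚ E p)
    (i : GaloisField p 2 →+* ResidueField O) : TWP.RD p (rbE E p f) :=
  rd_of E p hWE hss h2 hp2 hcase hirr (by
    rw [← map_natCast (residue O), residue_eq_zero_iff]
    exact hpO) i ((residue O).comp f)

end Coeff

end Fermat.Agent.RTE
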