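import Fermat.Agent.RTE.LineP
import Mathlib.FieldTheory.Galois.Infinite

/-!
Index-two subgroups of `Gal(ℚ̄/ℚ)` and quadratic fields.
-/

set_option autoImplicit false

namespace Fermat.Agent.RTE

open Fermat.Agent.ERep

abbrev Qb := AlgebraicClosure ℚ
abbrev GQ := AlgebraicClosure ℚ ≃ₐ[ℚ] AlgebraicClosure ℚ

theorem exists_fixed_not_rat (H : Subgroup GQ) (hH : H.index = 2) (L : IntermediateField ℚ Qb)
    [FiniteDimensional ℚ L] (hL : L.fixingSubgroup ≤ H) :
    ∃ x : Qb, (∀ h ∈ H, h x = x) ∧ ∃ g : GQ, g x ≠ x := by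
  have hopen : IsOpen (H : Set GQ) :=
    Subgroup.isOpen_mono hL (IntermediateField.fixingSubgroup_isOpen L)
  have hclosed : IsClosed (H : Set GQ) := Subgroup.isClosed_of_isOpen H hopen
  have h1 := InfiniteGalois.fixingSubgroup_fixedField (k := ℚ) (K := Qb) ⟨H, hclosed⟩
  by_contra hcon
  push Not at hcon
  have h2 : H = ⊤ := by
    rw [eq_top_iff]
    intro g _
    have h3 : g ∈ (IntermediateField.fixedField H).fixingSubgroup := by
      rw [IntermediateField.mem_fixingSubgroup_iff]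
      intro x hx
      exact hcon x (fun h hh => (IntermediateField.mem_fixedField_iff H x).mp hx h hh) g
    have h4 : (IntermediateField.fixedField H).fixingSubgroup = H := h1
    rwa [h4] at h3
  rw [h2, Subgroup.index_top] at hH
  exact absurd hH (by norm_num)

theorem mul_mem_of_index_two {G : Type*} [Group G] {H : Subgroup G} (hH : H.index = 2) {a b : G}
    (ha : a ∉ H) (hb : b ∉ H) : a * b ∈ H := by
  rw [Subgroup.mul_mem_iff_of_index_two hH]
  tauto

theorem exists_sqrt₀ (H : Subgroup GQ) (hH : H.index = 2) (L : IntermediateField ℚ Qb)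
    [FiniteDimensional ℚ L] (hL : L.fixingSubgroup ≤ H) :
    ∃ (r : ℚ) (δ : Qb), δ ≠ 0 ∧ δ ^ 2 = (r : Qb) ∧ ∀ σ : GQ, σ ∈ H ↔ σ δ = δ := by
  obtain ⟨x, hx, g, hg⟩ := exists_fixed_not_rat H hH L hL
  have hgH : g ∉ H := fun h => hg (hx g h)
  have hN : H.Normal := Subgroup.normal_of_index_eq_two hH
  have hgx : ∀ h ∈ H, h (g x) = g x := by
    intro h hh
    have h1 : g⁻¹ * h * g ∈ H := by
      have := hN.conj_mem h hh g⁻¹
      simpa using this
    have h2 := hx _ h1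
    have h3 : g ((g⁻¹ * h * g) x) = g x := by rw [h2]
    rw [← AlgEquiv.mul_apply] at h3
    have h4 : g * (g⁻¹ * h * g) = h * g := by group
    rw [h4, AlgEquiv.mul_apply] at h3
    exact h3
  set δ := x - g x with hδ
  have hδ0 : δ ≠ 0 := sub_ne_zero.mpr (Ne.symm hg)
  have h1 : ∀ h ∈ H, h δ = δ := fun h hh => by rw [hδ, map_sub, hx h hh, hgx h hh]
  have h2 : ∀ s : GQ, s ∉ H → s δ = - δ := by
    intro s hs
    have h3 : g δ = -δ := by
      have h4 : g (g x) = x := by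
        rw [← AlgEquiv.mul_apply]
        exact hx _ (mul_mem_of_index_two hH hgH hgH)
      rw [hδ, map_sub, h4]
      ring
    have h5 : s * g⁻¹ ∈ H := mul_mem_of_index_two hH hs (by rwa [Subgroup.inv_mem_iff])
    have h6 : s = (s * g⁻¹) * g := by group
    rw [h6, AlgEquiv.mul_apply, h3, map_neg, h1 _ h5]
  have h3 : ∀ s : GQ, s (δ ^ 2) = δ ^ 2 := by
    intro s
    by_cases hs : s ∈ H
    · rw [map_pow, h1 s hs]
    · rw [map_pow, h2 s hs]; ring
  obtain ⟨r, hr⟩ : δ ^ 2 ∈ Set.range (algebraMap ℚ Qb) := by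
    have h4 : δ ^ 2 ∈ (⊥ : IntermediateField ℚ Qb) := by
      rw [InfiniteGalois.mem_bot_iff_fixed]
      exact h3
    exact IntermediateField.mem_bot.mp h4
  refine ⟨r, δ, hδ0, by rw [← hr]; exact eq_ratCast _ r, fun σ => ⟨h1 σ, fun h => ?_⟩⟩
  by_contra hσ
  have h4 := h2 σ hσ
  rw [h] at h4
  apply hδ0
  have h5 : (2 : Qb) * δ = 0 := by linear_combination h4
  exact (mul_eq_zero.mp h5).resolve_left (by norm_num)

theorem exists_sqrt (H : Subgroup GQ) (hH : H.index = 2) (L : IntermediateField ℚ Qb)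
    [FiniteDimensional ℚ L] (hL : L.fixingSubgroup ≤ H) :
    ∃ (d : ℤ) (δ : Qb), Squarefree d ∧ δ ^ 2 = (d : Qb) ∧ ∀ σ : GQ, σ ∈ H ↔ σ δ = δ := by
  obtain ⟨r, δ, hδ0, hδ, hH'⟩ := exists_sqrt₀ H hH L hL
  -- `r * den ^ 2 = num * den`
  set n : ℤ := r.num * r.den with hn
  have hr0 : r ≠ 0 := by
    rintro rfl
    apply hδ0
    rw [Rat.cast_zero] at hδ
    exact pow_eq_zero_iff (two_ne_zero) |>.mp hδ
  have hn0 : n ≠ 0 := mul_ne_zero (Rat.num_ne_zero.mpr hr0) (by exact_mod_cast r.den_ne_zero)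
  obtain ⟨a, b, hab, ha⟩ := Nat.sq_mul_squarefree n.natAbs
  have hb0 : b ≠ 0 := by
    rintro rfl
    apply hn0
    rw [← Int.natAbs_eq_zero, ← hab]
    simp
  set d : ℤ := n.sign * a with hd
  have hnd : n = (b : ℤ) ^ 2 * d := by
    rw [hd]
    have h1 : n = n.sign * n.natAbs := (Int.sign_mul_natAbs n).symm
    conv_lhs => rw [h1, ← hab]
    push_cast
    ring
  have hsf : Squarefree d := by
    rw [← Int.squarefree_natAbs, hd, Int.natAbs_mul, Int.natAbs_sign_of_ne_zero hn0, one_mul,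
      Int.natAbs_natCast]
    exact ha
  have hbQ : ((b : ℕ) : Qb) ≠ 0 := by exact_mod_cast hb0
  have hdenQ : ((r.den : ℕ) : Qb) ≠ 0 := by exact_mod_cast r.den_ne_zero
  refine ⟨d, δ * ((r.den : ℕ) : Qb) / ((b : ℕ) : Qb), hsf, ?_, fun σ => ?_⟩
  · have h1 : (r : Qb) * ((r.den : ℕ) : Qb) ^ 2 = ((n : ℤ) : Qb) := by
      rw [hn, sq, ← mul_assoc]
      push_cast
      congr 1
      have h2 : (r * r.den : ℚ) = r.num := Rat.mul_den_eq_num r
      exact_mod_cast congrArg (fun t : ℚ => (t : Qb)) h2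
    rw [div_pow, mul_pow, hδ, h1, hnd]
    push_cast
    field_simp
  · rw [hH' σ, map_div₀, map_mul, map_natCast, map_natCast]
    constructor
    · intro h; rw [h]
    · intro h
      rw [div_left_inj' hbQ, mul_left_inj' hdenQ] at h
      exact h

/-- an inertia element at `l ∣ d` moves `√d`. -/
theorem inertia_sqrt {d : ℤ} (hd : Squarefree d) {δ : Qb} (hδ : δ ^ 2 = (d : Qb)) {l : ℕ}
    (hl : l.Prime) (hld : (l : ℤ) ∣ d) {A : ValuationSubring Qb} (hA : A.LiesOverPrime l) :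
    ∃ s ∈ A.inertiaSubgroupIn ℚ, s δ ≠ δ := by
  by_contra hcon
  push Not at hcon
  have hd0 : d ≠ 0 := hd.ne_zero
  have hδ0 : δ ≠ 0 := by
    rintro rfl
    apply hd0
    have : (d : Qb) = 0 := by rw [← hδ]; ring
    exact_mod_cast this
  obtain ⟨n, hn⟩ := SEL.exists_valuation_zpow_of_inertia A hl hA hδ0 hcon
  have hvq : A.valuation (l : Qb) < 1 := A.mem_nonunits_iff.mp hA
  have hl0 : A.valuation (l : Qb) ≠ 0 := by
    rw [Valuation.ne_zero_iff]
    exact_mod_cast hl.ne_zero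
  have h1 := ZEC.val_int hl hA hd0
  have : Fact l.Prime := ⟨hl⟩
  have h2 : padicValInt l d = 1 := by
    have h3 : ¬ (2 ≤ padicValInt l d) := by
      intro h4
      have h5 : (l : ℤ) ^ 2 ∣ d := (padicValInt_dvd_iff 2 d).mpr (Or.inr h4)
      rw [sq] at h5
      have := hd _ h5
      exact (Nat.prime_iff_prime_int.mp hl).not_isUnit this
    have h4 : padicValInt l d ≠ 0 := by
      intro h5
      have h6 : (l : ℤ) ^ 1 ∣ d := by simpa using hld
      rcases (padicValInt_dvd_iff 1 d).mp h6 with h | h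
      · exact hd0 h
      · omega
    omega
  rw [h2, ← hδ, map_pow, hn, pow_one] at h1
  have h3 : A.valuation (l : Qb) ^ (2 * n) = A.valuation (l : Qb) ^ (1 : ℤ) := by
    rw [zpow_one]
    conv_rhs => rw [← h1]
    rw [mul_comm, zpow_mul, zpow_ofNat]
  have h4 := ZEC.zpow_ne_self hl0 hvq h3
  omega

/-- an inertia element at `2` moves `√d` for `d ≡ 3 mod 4`. -/
theorem inertia_sqrt_two {d : ℤ} (hd : d % 4 = 3) {δ : Qb} (hδ : δ ^ 2 = (d : Qb))
    {A : ValuationSubring Qb} (hA : A.LiesOverPrime 2) :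
    ∃ s ∈ A.inertiaSubgroupIn ℚ, s δ ≠ δ := by
  by_contra hcon
  push Not at hcon
  have hvq : A.valuation ((2 : ℕ) : Qb) < 1 := A.mem_nonunits_iff.mp hA
  have hl0 : A.valuation ((2 : ℕ) : Qb) ≠ 0 := by
    rw [Valuation.ne_zero_iff]
    norm_num
  have h1d : (1 - d) ≠ 0 := by omega
  have hprod : (1 + δ) * (1 - δ) = ((1 - d : ℤ) : Qb) := by
    push_cast
    rw [← hδ]; ring
  have hprod0 : (1 + δ) * (1 - δ) ≠ 0 := by
    rw [hprod]; exact_mod_cast h1d
  have hp0 : 1 + δ ≠ 0 := left_ne_zero_of_mul hprod0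
  have hm0 : 1 - δ ≠ 0 := right_ne_zero_of_mul hprod0
  obtain ⟨n, hn⟩ := SEL.exists_valuation_zpow_of_inertia A Nat.prime_two hA hp0
    (fun s hs => by rw [map_add, map_one, hcon s hs])
  obtain ⟨m, hm⟩ := SEL.exists_valuation_zpow_of_inertia A Nat.prime_two hA hm0
    (fun s hs => by rw [map_sub, map_one, hcon s hs])
  have : Fact (Nat.Prime 2) := ⟨Nat.prime_two⟩
  have h2 := ZEC.val_int Nat.prime_two hA h1d
  have hv1 : padicValInt 2 (1 - d) = 1 := by
    have h3 : ¬ (2 ≤ padicValInt 2 (1 - d)) := by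
      intro h4
      have h5 : ((2 : ℕ) : ℤ) ^ 2 ∣ (1 - d) := (padicValInt_dvd_iff 2 (1 - d)).mpr (Or.inr h4)
      norm_num at h5
      omega
    have h4 : padicValInt 2 (1 - d) ≠ 0 := by
      intro h5
      have h6 : ((2 : ℕ) : ℤ) ^ 1 ∣ (1 - d) := by norm_num; omega
      rcases (padicValInt_dvd_iff 1 (1 - d)).mp h6 with h | h
      · exact h1d h
      · omega
    omega
  rw [hv1, pow_one, ← hprod, map_mul, hn, hm, ← zpow_add₀ hl0] at h2
  have h3 : n + m = 1 := ZEC.zpow_ne_self hl0 hvq (by rw [h2, zpow_one])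
  have hdodd : ¬ ((2 : ℕ) : ℤ) ∣ d := by norm_num; omega
  have hδ1 : A.valuation δ = 1 := by
    have h4 : A.valuation ((d : ℤ) : Qb) = 1 := val_int_eq_one Nat.prime_two hvq hdodd
    rw [← hδ, map_pow] at h4
    exact (pow_eq_one_iff_of_nonneg zero_le (two_ne_zero)).mp h4
  -- both factors are integral
  have hnn : 0 ≤ n := by
    by_contra h
    push Not at h
    have h5 : A.valuation (1 + δ) ≤ 1 :=
      (A.valuation.map_add _ _).trans (max_le (by rw [map_one]) hδ1.le)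
    rw [hn] at h5
    have h6 : (1 : _) < A.valuation ((2 : ℕ) : Qb) ^ n :=
      one_lt_zpow_of_neg₀ (zero_lt_iff.mpr hl0) hvq h
    exact absurd h5 (not_le.mpr h6)
  have hmm : 0 ≤ m := by
    by_contra h
    push Not at h
    have h5 : A.valuation (1 - δ) ≤ 1 :=
      (A.valuation.map_sub _ _).trans (max_le (by rw [map_one]) hδ1.le)
    rw [hm] at h5
    have h6 : (1 : _) < A.valuation ((2 : ℕ) : Qb) ^ m :=
      one_lt_zpow_of_neg₀ (zero_lt_iff.mpr hl0) hvq h
    exact absurd h5 (not_le.mpr h6)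
  have h2δ : A.valuation ((1 + δ) - (1 - δ)) < 1 := by
    have : (1 + δ) - (1 - δ) = ((2 : ℕ) : Qb) * δ := by push_cast; ring
    rw [this, map_mul, hδ1, mul_one]
    exact hvq
  rcases (by omega : n = 0 ∧ m = 1 ∨ n = 1 ∧ m = 0) with ⟨rfl, rfl⟩ | ⟨rfl, rfl⟩
  · rw [zpow_zero] at hn
    rw [zpow_one] at hm
    have h7 : A.valuation (1 + δ) < 1 := by
      have h8 : 1 + δ = ((1 + δ) - (1 - δ)) + (1 - δ) := by ring
      rw [h8]
      exact add_lt h2δ (by rw [hm]; exact hvq)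
    rw [hn] at h7
    exact absurd h7 (lt_irrefl _)
  · rw [zpow_zero] at hm
    rw [zpow_one] at hn
    have h7 : A.valuation (1 - δ) < 1 := by
      have h8 : 1 - δ = (1 + δ) - ((1 + δ) - (1 - δ)) := by ring
      rw [h8]
      exact sub_lt (by rw [hn]; exact hvq) h2δ
    rw [hm] at h7
    exact absurd h7 (lt_irrefl _)

theorem exists_pstar {p : ℕ} (hp : p.Prime) (hp2 : p ≠ 2) {H : Subgroup GQ} (hH : H.index = 2)
    (L : IntermediateField ℚ Qb) [FiniteDimensional ℚ L] (hL : L.fixingSubgroup ≤ H)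
    (hin : ∀ l : ℕ, l.Prime → l ≠ p → ∀ A : ValuationSubring Qb, A.LiesOverPrime l →
      A.inertiaSubgroupIn ℚ ≤ H) :
    ∃ (d : ℤ) (δ : Qb), d % 4 = 1 ∧ (d = p ∨ d = -p) ∧ δ ^ 2 = (d : Qb) ∧
      ∀ σ : GQ, σ ∈ H ↔ σ δ = δ := by
  obtain ⟨d, δ, hd, hδ, hiff⟩ := exists_sqrt H hH L hL
  have hdiv : ∀ l : ℕ, l.Prime → (l : ℤ) ∣ d → l = p := by
    intro l hl hld
    by_contra hne
    obtain ⟨A, hA⟩ : ∃ A : ValuationSubring Qb, A.LiesOverPrime l :=
      Frob.exists_liesOverPrime Qb hl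
    obtain ⟨s, hs, hs'⟩ := inertia_sqrt hd hδ hl hld hA
    exact hs' ((hiff s).mp (hin l hl hne A hA hs))
  obtain ⟨A, hA⟩ : ∃ A : ValuationSubring Qb, A.LiesOverPrime 2 :=
    Frob.exists_liesOverPrime Qb Nat.prime_two
  have h3 : d % 4 ≠ 3 := by
    intro h
    obtain ⟨s, hs, hs'⟩ := inertia_sqrt_two h hδ hA
    exact hs' ((hiff s).mp (hin 2 Nat.prime_two hp2.symm A hA hs))
  have h2 : ¬ (2 : ℤ) ∣ d := by
    intro h
    exact hp2 (hdiv 2 Nat.prime_two (by exact_mod_cast h)).symm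
  have h4 : d % 4 = 1 := by omega
  refine ⟨d, δ, h4, ?_, hδ, hiff⟩
  have hne1 : d.natAbs ≠ 1 := by
    intro h
    have hd1 : d = 1 := by omega
    rw [hd1, Int.cast_one] at hδ
    have h5 : δ = 1 ∨ δ = -1 := by
      have h6 : (δ - 1) * (δ + 1) = 0 := by linear_combination hδ
      rcases mul_eq_zero.mp h6 with h7 | h7
      · left; linear_combination h7
      · right; linear_combination h7
    have h6 : H = ⊤ := by
      rw [eq_top_iff]
      intro σ _
      rw [hiff]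
      rcases h5 with h | h <;> rw [h] <;> simp
    rw [h6, Subgroup.index_top] at hH
    exact absurd hH (by norm_num)
  obtain ⟨l, hl, hld⟩ := Nat.exists_prime_and_dvd hne1
  have hlp := hdiv l hl (Int.natCast_dvd.mpr hld)
  subst hlp
  obtain ⟨m, hm⟩ := hld
  have hm1 : m = 1 := by
    by_contra hm1
    obtain ⟨r, hr, hrm⟩ := Nat.exists_prime_and_dvd hm1
    have hrp := hdiv r hr (Int.natCast_dvd.mpr (hm ▸ Dvd.dvd.mul_left hrm l))
    subst hrp
    have h5 : Squarefree d.natAbs := Int.squarefree_natAbs.mpr hd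
    obtain ⟨k, hk⟩ := hrm
    have h6 : r * r ∣ d.natAbs := ⟨k, by rw [hm, hk]; ring⟩
    exact hr.one_lt.ne' (Nat.isUnit_iff.mp (h5 _ h6))
  rw [hm1, mul_one] at hm
  omega

theorem eq_of_pstar {p : ℕ} (hp : p.Prime) (hp2 : p ≠ 2) {H K : Subgroup GQ} (hH : H.index = 2)
    (hK : K.index = 2)
    (L : IntermediateField ℚ Qb) [FiniteDimensional ℚ L] (hL : L.fixingSubgroup ≤ H)
    (hLK : L.fixingSubgroup ≤ K)
    (hin : ∀ l : ℕ, l.Prime → l ≠ p → ∀ A : ValuationSubring Qb, A.LiesOverPrime l →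
      A.inertiaSubgroupIn ℚ ≤ H)
    (hinK : ∀ l : ℕ, l.Prime → l ≠ p → ∀ A : ValuationSubring Qb, A.LiesOverPrime l →
      A.inertiaSubgroupIn ℚ ≤ K) : H = K := by
  obtain ⟨d, δ, h4, h5, hδ, hiff⟩ := exists_pstar hp hp2 hH L hL hin
  obtain ⟨d', δ', h4', h5', hδ', hiff'⟩ := exists_pstar hp hp2 hK L hLK hinK
  have hdd : d' = d := by omega
  rw [hdd, ← hδ] at hδ'
  ext σ
  rw [hiff, hiff']
  rcases sq_eq_sq_iff_eq_or_eq_neg.mp hδ' with h | h
  · rw [h]
  · rw [h, map_neg, neg_inj]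

/-- a Frobenius at `2` moves `√5`. -/
theorem frob_two_sqrt_five {δ : Qb} (hδ : δ ^ 2 = 5) {A : ValuationSubring Qb}
    (hA : A.LiesOverPrime 2) {σ : GQ} (hσ : A.IsFrobeniusAt σ 2) : σ δ ≠ δ := by
  intro hfix
  set ω : Qb := (δ - 1) / 2 with hω
  have hω2 : ω ^ 2 + ω = 1 := by
    rw [hω]
    linear_combination (1 / 4 : Qb) * hδ
  have hσω : σ ω = ω := by
    rw [hω, map_div₀, map_sub, hfix, map_one, map_ofNat]
  have hωA : ω ∈ A := by
    rw [← A.valuation_le_one_iff]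
    by_contra h
    push Not at h
    have h1 : A.valuation (ω * (ω + 1)) = 1 := by
      have : ω * (ω + 1) = 1 := by linear_combination hω2
      rw [this, map_one]
    have h2 : A.valuation (ω + 1) = A.valuation ω :=
      Valuation.map_add_eq_of_lt_left _ (by rw [map_one]; exact h)
    rw [map_mul, h2] at h1
    have h3 : 1 < A.valuation ω * A.valuation ω := one_lt_mul'' h h
    exact absurd h1 h3.ne'
  have h1 := FrobE.residue_frob hσ hωA (by rw [hσω]; exact hωA)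
  have h2 : (⟨σ ω, by rw [hσω]; exact hωA⟩ : A) = ⟨ω, hωA⟩ := Subtype.ext hσω
  rw [h2] at h1
  set x := IsLocalRing.residue A ⟨ω, hωA⟩ with hx
  have h3 : x ^ 2 + x = 1 := by
    rw [hx, ← map_pow, ← map_add, ← map_one (IsLocalRing.residue A)]
    congr 1
    exact Subtype.ext hω2
  have hchar : CharP (IsLocalRing.ResidueField A) 2 := FrobE.charP_residue Nat.prime_two hA
  have h4 : (2 : IsLocalRing.ResidueField A) = 0 := by
    exact_mod_cast CharP.cast_eq_zero (IsLocalRing.ResidueField A) 2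
  have h5 : (1 : IsLocalRing.ResidueField A) = 0 := by
    rw [← h3, ← h1, ← two_mul, h4, zero_mul]
  exact one_ne_zero h5

end Fermat.Agent.RTE
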