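import Fermat.Agent.RTE.Irr2
import Fermat.Agent.TWP.Primes
import Fermat.Agent.DefRing.Slice
import Mathlib.FieldTheory.Finite.GaloisField

/-!
The residual representation of a semistable elliptic curve satisfies the hypotheses `TWP.RD`.
-/

set_option autoImplicit false

namespace Fermat.Agent.RTE

open WeierstrassCurve WeierstrassCurve.Affine
open Fermat.Agent.ERep Fermat.Agent.Tate
open Fermat.Agent.DefRing (M2 mapRep mapRep_apply MatCont)
open Matrix Polynomial

section Split

variable (p : ℕ) [hp : Fact p.Prime]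

theorem exists_root_galoisField (q : (ZMod p)[X]) (hm : q.Monic) (hd : q.natDegree = 2) :
    ∃ γ : GaloisField p 2, (q.map (algebraMap (ZMod p) (GaloisField p 2))).IsRoot γ := by
  by_cases hirr : Irreducible q
  · have : Fact (Irreducible q) := ⟨hirr⟩
    have hne : q ≠ 0 := hirr.ne_zero
    have hfin : Module.Finite (ZMod p) (AdjoinRoot q) := (AdjoinRoot.powerBasis hne).finite
    have hfin' : Finite (AdjoinRoot q) := Module.finite_of_finite (ZMod p)
    have hrank : Module.finrank (ZMod p) (AdjoinRoot q) = 2 := by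
      rw [(AdjoinRoot.powerBasis hne).finrank, AdjoinRoot.powerBasis_dim, hd]
    have hcard : Nat.card (AdjoinRoot q) = p ^ 2 := by
      rw [Module.natCard_eq_pow_finrank (K := ZMod p), hrank, Nat.card_zmod]
    let e := GaloisField.algEquivGaloisField p 2 hcard
    refine ⟨e (AdjoinRoot.root q), ?_⟩
    rw [Polynomial.IsRoot, Polynomial.eval_map_algebraMap, Polynomial.aeval_algEquiv]
    simp
  · have h2 : q.roots ≠ 0 := by
      intro h
      apply hirr
      rw [Polynomial.irreducible_iff_roots_eq_zero_of_degree_le_three (by omega) (by omega)]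
      exact h
    obtain ⟨a, ha⟩ := Multiset.exists_mem_of_ne_zero h2
    rw [Polynomial.mem_roots hm.ne_zero] at ha
    exact ⟨algebraMap _ _ a, ha.map⟩

theorem exists_split {k : Type*} [Field k] (i : GaloisField p 2 →+* k) (j : ZMod p →+* k)
    (q : (ZMod p)[X]) (hm : q.Monic) (hd : q.natDegree = 2) :
    ∃ α β : k, q.map j = (X - C α) * (X - C β) := by
  obtain ⟨γ, hγ⟩ := exists_root_galoisField p q hm hd
  have hj : j = i.comp (algebraMap (ZMod p) (GaloisField p 2)) := Subsingleton.elim _ _
  have hroot : (q.map j).IsRoot (i γ) := by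
    rw [hj, ← Polynomial.map_map]
    exact hγ.map
  obtain ⟨g, hg⟩ := Polynomial.dvd_iff_isRoot.mpr hroot
  have hqm : (q.map j).Monic := hm.map j
  have hgm : g.Monic := by
    rw [hg] at hqm
    exact (monic_X_sub_C _).of_mul_monic_left hqm
  have hgd : g.natDegree = 1 := by
    have h1 : (q.map j).natDegree = 2 := by rw [hm.natDegree_map, hd]
    rw [hg, (monic_X_sub_C _).natDegree_mul hgm, natDegree_X_sub_C] at h1
    omega
  refine ⟨i γ, -(g.coeff 0), ?_⟩
  rw [hg]
  congr 1
  have h2 := hgm.eq_X_add_C hgd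
  conv_lhs => rw [h2]
  rw [C_neg, sub_neg_eq_add]

end Split

section Factor

variable (p : ℕ) [hp : Fact p.Prime]

theorem factor_zmod {k : Type*} [Field k] [CharP k p] (f : ℤ_[p] →+* k) (x : ℤ_[p]) :
    f x = ZMod.castHom (dvd_refl p) k (PadicInt.toZMod x) := by
  have h1 : x - ((PadicInt.toZMod x).val : ℤ_[p]) ∈ RingHom.ker (PadicInt.toZMod (p := p)) := by
    rw [RingHom.mem_ker, map_sub, map_natCast, ZMod.natCast_val, ZMod.cast_id', id, sub_self]
  rw [PadicInt.ker_toZMod, PadicInt.maximalIdeal_eq_span_p, Ideal.mem_span_singleton] at h1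
  obtain ⟨u, hu⟩ := h1
  have h2 : x = ((PadicInt.toZMod x).val : ℤ_[p]) + p * u := by rw [← hu]; ring
  conv_lhs => rw [h2]
  rw [map_add, map_mul, map_natCast, map_natCast, CharP.cast_eq_zero k p, zero_mul, add_zero]
  conv_rhs => rw [← ZMod.natCast_zmod_val (PadicInt.toZMod x)]
  rw [map_natCast]

end Factor

section RD

variable (E : WeierstrassCurve ℚ) [E.IsElliptic] (p : ℕ) [hp : Fact p.Prime]
  {W : WeierstrassCurve ℤ} (hWE : W.IsIntegralModelOf E)

theorem mapRep_matE {k : Type} [Field k] [CharP k p] (f : ℤ_[p] →+* k) (s : GQ) :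
    mapRep f (matE E p) s = (ZMod.castHom (dvd_refl p) k).mapMatrix (modE E p s) := by
  ext i j
  rw [mapRep_apply, factor_zmod p f]
  rfl

include hWE in
/-- **The residual representation** of a semistable curve with multiplicative reduction at `2`
satisfies the hypotheses of the Taylor–Wiles method. -/
theorem rd_of (hss : W.IsSemistableModel) (h2 : (2 : ℤ) ∣ W.Δ) (hp2 : p ≠ 2)
    (hcase : Case W p) (hirr : Affine.Point.GaloisRepIsIrreducible (K := Qb) ℚ E p)
    {k : Type} [Field k] (hchar : (p : k) = 0) (i : GaloisField p 2 →+* k) (f : ℤ_[p] →+* k) :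
    TWP.RD p (mapRep f (matE E p)) := by
  have hns := nonScalar_of_irreducible E p hirr
  have hcharP : CharP k p := (CharP.charP_iff_prime_eq_zero hp.out).mpr hchar
  refine ⟨hchar, ?_, ?_, ?_, ?_⟩
  · obtain ⟨L, hL, h⟩ := modE_cont E p
    refine ⟨L, hL, fun σ hσ => ?_⟩
    rw [mapRep_matE, h σ hσ, map_one]
  · intro σ a ha
    rw [mapRep_matE, ← RingHom.map_det, det_modE E p hWE hns σ a ha, map_natCast]
  · intro σ
    have h1 : (mapRep f (matE E p) σ).charpoly =
        (modE E p σ).charpoly.map (ZMod.castHom (dvd_refl p) k) := by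
      rw [mapRep_matE, RingHom.mapMatrix_apply, Matrix.charpoly_map]
    rw [h1]
    exact exists_split p i _ _ (Matrix.charpoly_monic _)
      (by rw [Matrix.charpoly_natDegree_eq_dim, Fintype.card_fin])
  · intro H hH v hv
    by_contra hcon
    push Not at hcon
    let _ : Algebra (ZMod p) (AlgebraicClosure k) :=
      ((algebraMap k (AlgebraicClosure k)).comp (ZMod.castHom (dvd_refl p) k)).toAlgebra
    have h1 : ∀ s, (modE E p s).map (algebraMap (ZMod p) (AlgebraicClosure k)) =
        (mapRep f (matE E p) s).map (algebraMap k (AlgebraicClosure k)) := by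
      intro s
      rw [mapRep_matE]
      rfl
    have h3 : ∀ s ∈ H, ∃ t : AlgebraicClosure k,
        (modE E p s).map (algebraMap (ZMod p) (AlgebraicClosure k)) *ᵥ v = t • v := by
      intro s hs
      obtain ⟨c, hc⟩ := hcon s hs
      exact ⟨c, by rw [h1, hc]⟩
    rcases hH with hH | hH
    · exact modE_irr_two E p hWE hss h2 hp2 hcase hirr hH hv h3
    · exact modE_absirr E p hWE hp2 hirr hv (fun s => h3 s (by rw [hH]; trivial))

end RD

end Fermat.Agent.RTE
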