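import Fermat.Agent.RTE.MultGal

/-!
# Points fixed by inertia at a place of multiplicative reduction
-/

set_option autoImplicit false
set_option linter.unusedSectionVars false

namespace Fermat.Agent.RTE

open WeierstrassCurve WeierstrassCurve.Affine
open Fermat.Agent.FrobE Fermat.Agent.ERep
open Fermat.Agent.EC (IsInt InE1 xX xZ xX_some xZ_some xX_zero xZ_zero NS TrivMod Sim)
open Fermat.Agent.ECP (NodeData cmp)

section Basic

variable {K : Type*} [Field K] [CharZero K] {A : ValuationSubring K} {k : Type*} [Field k]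
  {π : A →+* k}
  {W : Affine K} {Wk : Affine k} (hπ : ∀ a : A, π a = 0 ↔ A.valuation (a : K) < 1)
  (h : IsRed A π W Wk) {x₀ y₀ α β : K} (hc : Crit A.valuation W x₀ y₀ α β)
  {e t b : K} (hn : NodeData A.valuation W e t b)

include hn in
/-- discriminant -/
lemma node_Δ : W.Δ = b ^ 2 * ((W.b₂ + 12 * e) ^ 2 - 64 * b) := by
  have h4 := hn.h4
  have h6 := hn.h6
  have h8 := hn.h8
  have h := EC.bezout_Δ W e
  -- translate to `e = 0`
  have k4 : W.b₄ = 2 * b - W.b₂ * e - 6 * e ^ 2 := by linear_combination h4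
  have k6 : W.b₆ = -2 * W.b₄ * e - W.b₂ * e ^ 2 - 4 * e ^ 3 := by linear_combination h6
  have k8 : W.b₈ = -b ^ 2 - 3 * W.b₆ * e - 3 * W.b₄ * e ^ 2 - W.b₂ * e ^ 3 - 3 * e ^ 4 := by
    linear_combination h8
  rw [← h, k8, k6, k4]
  ring

include hn in
lemma val_b_sq : A.valuation b ^ 2 = A.valuation W.Δ := by
  rw [node_Δ hn, map_mul, map_pow]
  have h1 : A.valuation ((W.b₂ + 12 * e) ^ 2 - 64 * b) = 1 := by
    have h2 : A.valuation (64 * b) < 1 := mul_lt' (by
      have := EC.val_natCast_le_one A.valuation 64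
      exact_mod_cast this) hn.beta_lt
    rw [Valuation.map_sub_eq_of_lt_left, map_pow, hn.unit, one_pow]
    rw [map_pow, hn.unit, one_pow]
    exact h2
  rw [h1, mul_one]

include hπ h hc hn in
/-- the `2`-torsion point `(e, t)` and the critical point are close -/
lemma val_sub_lt [DecidableEq K] [DecidableEq k] (hΔ : W.Δ ≠ 0) :
    A.valuation (e - x₀) ≤ A.valuation b := by
  have heq : W.Equation e t := by
    rw [equation_iff]; exact hn.eqn
  have hns : W.Nonsingular e t := (equation_iff_nonsingular_of_Δ_ne_zero hΔ).mp heq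
  have hnd : Nd A.valuation x₀ y₀ (.some e t hns : W.Point) := by
    rw [nd_iff hπ h hc]
    intro hE
    have he : e ∈ A := (A.valuation_le_one_iff _).mp hn.e_le
    have ht : t ∈ A := h.y_mem heq he
    have hN := ns_of_red hπ h hns he ht (hE he ht)
    rcases hN with h1 | h1
    · have h2 : 4 * e ^ 3 + W.b₂ * e ^ 2 + 2 * W.b₄ * e + W.b₆ = 0 := by
        linear_combination hn.h6
      rw [h2, _root_.map_zero] at h1
      exact zero_ne_one h1
    · have h2 : e ^ 4 - W.b₄ * e ^ 2 - 2 * W.b₆ * e - W.b₈ = b * b := by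
        linear_combination (-1) * hn.h8 + e * hn.h6
      rw [h2] at h1
      have h3 := mul_lt hn.beta_lt hn.beta_lt.le
      exact absurd h1 h3.ne
  have h1 : A.valuation (e - x₀) < 1 := hnd.1
  have e1 : (e - x₀) * ((W.b₂ + 12 * e) - 6 * (e - x₀)) = 2 * b := by
    linear_combination hn.h4 - hc.h_eq
  have h2 : A.valuation ((W.b₂ + 12 * e) - 6 * (e - x₀)) = 1 := by
    have h3 : A.valuation (6 * (e - x₀)) < 1 := mul_lt' (by
      have := EC.val_natCast_le_one A.valuation 6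
      exact_mod_cast this) h1
    rw [Valuation.map_sub_eq_of_lt_left, hn.unit]
    rw [hn.unit]; exact h3
  have h3 := congrArg A.valuation e1
  rw [map_mul, h2, mul_one, map_mul] at h3
  rw [h3]
  have := EC.val_natCast_le_one A.valuation 2
  exact mul_le_of_le_one_left' (by exact_mod_cast this)

/-- the subgroup `E₀` of `NodeData` is contained in our `E₀` -/
lemma mem_E0_of_node [DecidableEq K] [DecidableEq k] {P : W.Point} (hP : P ∈ hn.E0) :
    P ∈ E0 hπ h := by
  match P with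
  | 0 => exact zero_mem _
  | .some x y n =>
    intro hx hy
    have hns := hn.ns hP (by
      change A.valuation x ≤ A.valuation 1
      rw [_root_.map_one]
      exact (A.valuation_le_one_iff _).mpr hx)
    change NS A.valuation W x at hns
    by_contra hsing
    have he : Wk.Equation (π ⟨x, hx⟩) (π ⟨y, hy⟩) := h.equation n.1
    set Fy : A := 2 * ⟨y, hy⟩ + ⟨W.a₁, h.m₁⟩ * ⟨x, hx⟩ + ⟨W.a₃, h.m₃⟩ with hFy
    set Fx : A := ⟨W.a₁, h.m₁⟩ * ⟨y, hy⟩ - (3 * ⟨x, hx⟩ ^ 2 + 2 * ⟨W.a₂, h.m₂⟩ * ⟨x, hx⟩ +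
      ⟨W.a₄, h.m₄⟩) with hFx
    have hFyk : π Fy = 2 * π ⟨y, hy⟩ + Wk.a₁ * π ⟨x, hx⟩ + Wk.a₃ := by
      rw [hFy, map_add, map_add, map_mul, map_mul, h.e₁, h.e₃, map_ofNat]
    have hFxk : π Fx = Wk.a₁ * π ⟨y, hy⟩ -
        (3 * π ⟨x, hx⟩ ^ 2 + 2 * Wk.a₂ * π ⟨x, hx⟩ + Wk.a₄) := by
      rw [hFx, map_sub, map_add, map_add, map_mul, map_mul, map_mul, map_mul, map_pow, h.e₁, h.e₂,
        h.e₄, map_ofNat, map_ofNat]
    rw [Affine.nonsingular_iff', not_and, not_or, not_not, not_not] at hsing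
    obtain ⟨s1, s2⟩ := hsing he
    have z1 : π Fx = 0 := by rw [hFxk]; exact s1
    have z2 : π Fy = 0 := by rw [hFyk]; exact s2
    have v1 := (hπ _).mp z1
    have v2 := (hπ _).mp z2
    have e := (W.equation_iff x y).mp n.1
    rcases hns with hns | hns
    · have e1 : 4 * x ^ 3 + W.b₂ * x ^ 2 + 2 * W.b₄ * x + W.b₆ = ((Fy : A) : K) ^ 2 := by
        have : ((Fy : A) : K) = 2 * y + W.a₁ * x + W.a₃ := rfl
        rw [this, WeierstrassCurve.b₂, WeierstrassCurve.b₄, WeierstrassCurve.b₆]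
        linear_combination (-4) * e
      rw [e1, map_pow] at hns
      have := pow_lt_one₀ zero_le v2 two_ne_zero
      exact absurd hns this.ne
    · have e2 : x ^ 4 - W.b₄ * x ^ 2 - 2 * W.b₆ * x - W.b₈ =
          ((Fx : A) : K) * (((Fx : A) : K) - W.a₁ * ((Fy : A) : K)) -
            ((Fy : A) : K) * ((W.a₂ + 2 * x) * ((Fy : A) : K)) := by
        have h8 : ((Fy : A) : K) = 2 * y + W.a₁ * x + W.a₃ := rfl
        have h9 : ((Fx : A) : K) = W.a₁ * y - (3 * x ^ 2 + 2 * W.a₂ * x + W.a₄) := rfl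
        rw [h8, h9, WeierstrassCurve.b₄, WeierstrassCurve.b₆, WeierstrassCurve.b₈]
        linear_combination (W.a₁ ^ 2 + 4 * W.a₂ + 8 * x) * e
      rw [e2] at hns
      have hlt : A.valuation (((Fx : A) : K) * (((Fx : A) : K) - W.a₁ * ((Fy : A) : K)) -
            ((Fy : A) : K) * ((W.a₂ + 2 * x) * ((Fy : A) : K))) < 1 := by
        have i1 : ((Fx : A) : K) - W.a₁ * ((Fy : A) : K) ∈ A :=
          sub_mem Fx.2 (mul_mem h.m₁ Fy.2)
        have i2 : (W.a₂ + 2 * x) * ((Fy : A) : K) ∈ A :=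
          mul_mem (add_mem h.m₂ (mul_mem (ofNat_mem A 2) hx)) Fy.2
        exact ERep.sub_lt (mul_lt v1 ((A.valuation_le_one_iff _).mpr i1))
          (mul_lt v2 ((A.valuation_le_one_iff _).mpr i2))
      exact absurd hns hlt.ne

include hπ h hc hn in
/-- **Key step**: if `v (x - x₀)` is an integral power of `g`, where `v Δ = g ^ m`, then
`m P ∈ E₀` (for `P` of odd order). -/
theorem nsmul_mem_E0 [DecidableEq K] [DecidableEq k] (hΔ : W.Δ ≠ 0) {g : A.ValueGroup} {m : ℕ}
    (hg : A.valuation W.Δ = g ^ m) {N : ℕ} (hN : Odd N) {P : W.Point} (hP : N • P = 0)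
    (hfix : ∀ x y n, P = .some x y n → x ≠ x₀ → ∃ i : ℤ, A.valuation (x - x₀) = g ^ i) :
    m • P ∈ E0 hπ h := by
  by_cases hE : P ∈ E0 hπ h
  · exact (E0 hπ h).nsmul_mem hE m
  apply mem_E0_of_node hπ h hn
  have hnd := (nd_iff hπ h hc P).mpr hE
  have hPn : P ∉ hn.E0 := fun h1 => hE (mem_E0_of_node hπ h hn h1)
  have hlt := hn.lt_cmp_of_torsion hN hP
  have hle : A.valuation (e - x₀) ≤ A.valuation b := val_sub_lt hπ h hc hn hΔ
  rcases P with _ | ⟨x, y, n⟩
  · exact absurd hnd id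
  have hx1 : A.valuation (x - e) < 1 := by
    rw [hn.mem_E0_iff_xc (Point.some_ne_zero _), not_le] at hPn
    exact hPn
  have hcmp : cmp A.valuation W e b (.some x y n) = A.valuation (x - e) := by
    rw [hn.cmp_some_of_lt n hx1] at hlt ⊢
    rcases le_total (A.valuation (x - e)) (A.valuation b) with h1 | h1
    · rw [max_eq_right h1] at hlt
      exact absurd hlt (lt_irrefl _)
    · exact max_eq_left h1
  have hxx : A.valuation (x - x₀) = A.valuation (x - e) := by
    have e1 : x - x₀ = (x - e) + (e - x₀) := by ring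
    rw [hcmp] at hlt
    rw [e1, Valuation.map_add_eq_of_lt_left _ (lt_of_le_of_lt hle hlt)]
  have hne : x ≠ x₀ := by
    rintro rfl
    rw [sub_self, _root_.map_zero] at hxx
    have h0 := hn.cmp_pos (.some x y n)
    rw [hcmp, ← hxx] at h0
    exact lt_irrefl _ h0
  obtain ⟨i, hi⟩ := hfix x y n rfl hne
  have hsim := (EC.comp_nsmul (v := A.valuation) hn.isKummer hn.beta_pos hn.beta_lt hn.unit
    (.some x y n) m).1
  change Sim (A.valuation b) (cmp A.valuation W e b (m • (.some x y n : W.Point)))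
    (cmp A.valuation W e b (.some x y n) ^ m) at hsim
  have hg0 : g ^ m ≠ 0 := by
    rw [← hg, Valuation.ne_zero_iff]; exact hΔ
  have hpow : cmp A.valuation W e b (.some x y n) ^ m = A.valuation b ^ (2 * i) := by
    rw [hcmp, ← hxx, hi, zpow_mul, zpow_ofNat, val_b_sq hn, hg, ← zpow_natCast, ← zpow_natCast,
      ← zpow_mul, ← zpow_mul, mul_comm]
  rw [hpow] at hsim
  have h1 : Sim (A.valuation b) (A.valuation b ^ (2 * i)) 1 := by
    refine ⟨-i, Or.inl ?_⟩
    rw [← zpow_add₀ hn.beta_pos.ne', mul_neg, add_neg_cancel, zpow_zero]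
  exact hn.mem_E0_iff'.mpr (hn.eq_one_of_sim (hsim.trans hn.beta_pos.ne' h1))

end Basic

end Fermat.Agent.RTE
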