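import Fermat.Agent.FrobE.Reduction
import Fermat.Agent.RTE.NodeHom

/-!
# The reduction homomorphism on the points of nonsingular reduction
-/

set_option autoImplicit false

namespace Fermat.Agent.RTE

open WeierstrassCurve WeierstrassCurve.Affine
open Fermat.Agent.FrobE
open Fermat.Agent.EC (IsInt InE1 xX xZ xX_some xZ_some xX_zero xZ_zero NS)

variable {K : Type*} [Field K] {A : ValuationSubring K} {k : Type*} [Field k] {π : A →+* k}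
  {W : Affine K} {Wk : Affine k}

variable (π Wk) in
/-- nonsingular reduction -/
def InE0 : W.Point → Prop
  | .zero => True
  | .some x y _ => ∀ (hx : x ∈ A) (hy : y ∈ A), Wk.Nonsingular (π ⟨x, hx⟩) (π ⟨y, hy⟩)

open Classical in
/-- the reduction of a point with nonsingular reduction -/
noncomputable def red0 (h : IsRed A π W Wk) : W.Point → Wk.Point
  | .zero => 0
  | .some x y hxy =>
    if hx : ∃ hx : x ∈ A, Wk.Nonsingular (π ⟨x, hx⟩) (π ⟨y, h.y_mem hxy.1 hx⟩) then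
      .some _ _ hx.2
    else 0

variable (hπ : ∀ a : A, π a = 0 ↔ A.valuation (a : K) < 1) (h : IsRed A π W Wk)

lemma red0_zero : red0 h 0 = 0 := rfl

lemma inE0_zero : InE0 π Wk (0 : W.Point) := trivial

lemma red0_some {x y : K} (hxy : W.Nonsingular x y) (hx : x ∈ A) (hy : y ∈ A)
    (hn : Wk.Nonsingular (π ⟨x, hx⟩) (π ⟨y, hy⟩)) :
    red0 h (.some x y hxy) = .some (π ⟨x, hx⟩) (π ⟨y, hy⟩) hn := by
  simp only [red0, dif_pos (show ∃ hx : x ∈ A, Wk.Nonsingular (π ⟨x, hx⟩)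
    (π ⟨y, h.y_mem hxy.1 hx⟩) from ⟨hx, hn⟩)]

lemma red0_some_not {x y : K} (hxy : W.Nonsingular x y) (hx : x ∉ A) :
    red0 h (.some x y hxy) = 0 := by
  have hne : ¬ ∃ hx : x ∈ A, Wk.Nonsingular (π ⟨x, hx⟩)
    (π ⟨y, h.y_mem hxy.1 hx⟩) := fun ⟨hx', _⟩ => hx hx'
  simp only [red0, dif_neg hne]

lemma inE0_of_inE1 {P : W.Point} (hP : InE1 A.valuation (xX (W := W)) xZ P) :
    InE0 π Wk P := by
  match P with
  | 0 => trivial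
  | .some x y hxy =>
    rw [inE1_some_iff] at hP
    exact fun hx _ => absurd hx hP

lemma red0_eq_zero_iff {P : W.Point} (hP : InE0 π Wk P) :
    red0 h P = 0 ↔ InE1 A.valuation (xX (W := W)) xZ P := by
  match P with
  | 0 => exact ⟨fun _ => inE1_zero', fun _ => rfl⟩
  | .some x y hxy =>
    rw [inE1_some_iff]
    by_cases hx : x ∈ A
    · rw [red0_some h hxy hx (h.y_mem hxy.1 hx) (hP hx _)]
      exact ⟨fun e => absurd e (Point.some_ne_zero _), fun e => absurd hx e⟩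
    · exact ⟨fun _ => hx, fun _ => red0_some_not h hxy hx⟩

include h in
lemma inE0_neg {P : W.Point} (hP : InE0 π Wk P) : InE0 π Wk (-P) := by
  match P with
  | 0 => trivial
  | .some x y hxy =>
    rw [Point.neg_some]
    intro hx hy
    have hy' := h.y_mem hxy.1 hx
    have e : (⟨W.negY x y, hy⟩ : A) = -⟨y, hy'⟩ - ⟨W.a₁, h.m₁⟩ * ⟨x, hx⟩ - ⟨W.a₃, h.m₃⟩ :=
      Subtype.ext rfl
    have e2 : π (⟨W.negY x y, hy⟩ : A) = Wk.negY (π ⟨x, hx⟩) (π ⟨y, hy'⟩) := by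
      rw [e, map_sub, map_sub, map_mul, map_neg, h.e₁, h.e₃]
      rfl
    rw [e2]
    exact (Wk.nonsingular_neg _ _).mpr (hP hx hy')

lemma red0_neg {P : W.Point} (hP : InE0 π Wk P) : red0 h (-P) = -red0 h P := by
  match P with
  | 0 => rfl
  | .some x y hxy =>
    have hP' := inE0_neg h hP
    by_cases hx : x ∈ A
    · have hy := h.y_mem hxy.1 hx
      have hy' := h.y_mem ((W.nonsingular_neg x y).mpr hxy).1 hx
      rw [red0_some h hxy hx hy (hP hx hy), Point.neg_some, Point.neg_some,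
        red0_some h _ hx hy' (by
          have := hP'
          rw [Point.neg_some] at this
          exact this hx hy')]
      apply some_congr' rfl
      have e : (⟨W.negY x y, hy'⟩ : A) = -⟨y, hy⟩ - ⟨W.a₁, h.m₁⟩ * ⟨x, hx⟩ - ⟨W.a₃, h.m₃⟩ :=
        Subtype.ext rfl
      rw [e, map_sub, map_sub, map_mul, map_neg, h.e₁, h.e₃]
      rfl
    · rw [red0_some_not h hxy hx, Point.neg_some, red0_some_not h _ hx]
      rfl

include hπ in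
/-- nonsingular reduction in terms of `NS` -/
lemma ns_of_red (h : IsRed A π W Wk) {x y : K} (hxy : W.Nonsingular x y) (hx : x ∈ A) (hy : y ∈ A)
    (hn : Wk.Nonsingular (π ⟨x, hx⟩) (π ⟨y, hy⟩)) : NS A.valuation W x := by
  -- the partial derivatives
  set Fy : A := 2 * ⟨y, hy⟩ + ⟨W.a₁, h.m₁⟩ * ⟨x, hx⟩ + ⟨W.a₃, h.m₃⟩ with hFy
  set Fx : A := ⟨W.a₁, h.m₁⟩ * ⟨y, hy⟩ - (3 * ⟨x, hx⟩ ^ 2 + 2 * ⟨W.a₂, h.m₂⟩ * ⟨x, hx⟩ +
    ⟨W.a₄, h.m₄⟩) with hFx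
  have e1 : 4 * x ^ 3 + W.b₂ * x ^ 2 + 2 * W.b₄ * x + W.b₆ = ((Fy ^ 2 : A) : K) := by
    have e := (W.equation_iff x y).mp hxy.1
    have : ((Fy ^ 2 : A) : K) = (2 * y + W.a₁ * x + W.a₃) ^ 2 := rfl
    rw [this, WeierstrassCurve.b₂, WeierstrassCurve.b₄, WeierstrassCurve.b₆]
    linear_combination (-4) * e
  have e2 : x ^ 4 - W.b₄ * x ^ 2 - 2 * W.b₆ * x - W.b₈ =
      ((Fx ^ 2 - ⟨W.a₁, h.m₁⟩ * Fx * Fy - (⟨W.a₂, h.m₂⟩ + 2 * ⟨x, hx⟩) * Fy ^ 2 : A) : K) := by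
    have e := (W.equation_iff x y).mp hxy.1
    have : ((Fx ^ 2 - ⟨W.a₁, h.m₁⟩ * Fx * Fy - (⟨W.a₂, h.m₂⟩ + 2 * ⟨x, hx⟩) * Fy ^ 2 : A) : K) =
      (W.a₁ * y - (3 * x ^ 2 + 2 * W.a₂ * x + W.a₄)) ^ 2 -
        W.a₁ * (W.a₁ * y - (3 * x ^ 2 + 2 * W.a₂ * x + W.a₄)) * (2 * y + W.a₁ * x + W.a₃) -
        (W.a₂ + 2 * x) * (2 * y + W.a₁ * x + W.a₃) ^ 2 := rfl
    rw [this, WeierstrassCurve.b₄, WeierstrassCurve.b₆, WeierstrassCurve.b₈]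
    linear_combination (W.a₁ ^ 2 + 4 * W.a₂ + 8 * x) * e
  have unit_of : ∀ a : A, π a ≠ 0 → A.valuation (a : K) = 1 := fun a ha => pi_ne_zero_val hπ ha
  have hFyk : π Fy = 2 * π ⟨y, hy⟩ + Wk.a₁ * π ⟨x, hx⟩ + Wk.a₃ := by
    rw [hFy, map_add, map_add, map_mul, map_mul, h.e₁, h.e₃, map_ofNat]
  have hFxk : π Fx = Wk.a₁ * π ⟨y, hy⟩ - (3 * π ⟨x, hx⟩ ^ 2 + 2 * Wk.a₂ * π ⟨x, hx⟩ + Wk.a₄) := by
    rw [hFx, map_sub, map_add, map_add, map_mul, map_mul, map_mul, map_mul, map_pow, h.e₁, h.e₂,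
      h.e₄, map_ofNat, map_ofNat]
  by_cases hy0 : π Fy = 0
  · right
    rw [e2]
    apply unit_of
    rw [map_sub, map_sub, map_mul, map_mul, map_mul, map_pow, map_pow, hy0, mul_zero, sub_zero,
      zero_pow two_ne_zero, mul_zero, sub_zero]
    intro h0
    have hx0 : π Fx = 0 := pow_eq_zero_iff two_ne_zero |>.mp h0
    rw [Affine.nonsingular_iff'] at hn
    rcases hn.2 with h5 | h5
    · apply h5
      rw [← hFxk, hx0]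
    · apply h5
      rw [← hFyk, hy0]
  · left
    rw [e1]
    apply unit_of
    rw [map_pow]
    exact pow_ne_zero 2 hy0

variable [DecidableEq K] [DecidableEq k]

include hπ in
lemma red0_add_int {x₁ y₁ x₂ y₂ : K} (h₁ : W.Nonsingular x₁ y₁) (h₂ : W.Nonsingular x₂ y₂)
    (hx₁ : x₁ ∈ A) (hx₂ : x₂ ∈ A) (hP : InE0 π Wk (.some x₁ y₁ h₁ : W.Point))
    (hQ : InE0 π Wk (.some x₂ y₂ h₂ : W.Point)) :
    InE0 π Wk (.some x₁ y₁ h₁ + .some x₂ y₂ h₂ : W.Point) ∧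
    red0 h (.some x₁ y₁ h₁ + .some x₂ y₂ h₂) =
      red0 h (.some x₁ y₁ h₁) + red0 h (.some x₂ y₂ h₂) := by
  have hy₁ := h.y_mem h₁.1 hx₁
  have hy₂ := h.y_mem h₂.1 hx₂
  rw [red0_some h h₁ hx₁ hy₁ (hP hx₁ hy₁), red0_some h h₂ hx₂ hy₂ (hQ hx₂ hy₂)]
  by_cases hk : π ⟨x₁, hx₁⟩ = π ⟨x₂, hx₂⟩ ∧ π ⟨y₁, hy₁⟩ = Wk.negY (π ⟨x₂, hx₂⟩) (π ⟨y₂, hy₂⟩)
  · have hE1 : InE1 A.valuation (xX (W := W)) xZ (.some x₁ y₁ h₁ + .some x₂ y₂ h₂ : W.Point) := by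
      have h₂' : W.Nonsingular x₂ (W.negY x₂ y₂) := (W.nonsingular_neg x₂ y₂).mpr h₂
      have e : (.some x₁ y₁ h₁ + .some x₂ y₂ h₂ : W.Point) =
        .some x₁ y₁ h₁ - .some x₂ (W.negY x₂ y₂) h₂' := by
        rw [sub_eq_add_neg, Point.neg_some]
        congr 1
        exact some_congr rfl (by rw [Affine.negY, Affine.negY]; ring)
      rw [e]
      have hvx₁ : A.valuation x₁ ≤ 1 := (A.valuation_le_one_iff _).mpr hx₁
      apply h.isInt.sub_inE1 h₁ h₂' hvx₁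
      · have : π (⟨x₁, hx₁⟩ - ⟨x₂, hx₂⟩) = 0 := by rw [map_sub, hk.1, sub_self]
        exact (hπ _).mp this
      · have e2 : π (⟨y₁, hy₁⟩ - (-⟨y₂, hy₂⟩ - ⟨W.a₁, h.m₁⟩ * ⟨x₂, hx₂⟩ - ⟨W.a₃, h.m₃⟩)) = 0 := by
          rw [map_sub, map_sub, map_sub, map_mul, map_neg, h.e₁, h.e₃, hk.2]
          rw [Affine.negY]; ring
        exact (hπ _).mp e2
      · exact ns_of_red hπ h h₁ hx₁ hy₁ (hP hx₁ hy₁)
    refine ⟨inE0_of_inE1 hE1, ?_⟩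
    rw [Point.add_of_Y_eq hk.1 hk.2, red0_eq_zero_iff h (inE0_of_inE1 hE1)]
    exact hE1
  · have hK : ¬(x₁ = x₂ ∧ y₁ = W.negY x₂ y₂) := by
      rintro ⟨ex, ey⟩
      apply hk
      subst ex
      refine ⟨rfl, ?_⟩
      have e2 : (⟨y₁, hy₁⟩ : A) = -⟨y₂, hy₂⟩ - ⟨W.a₁, h.m₁⟩ * ⟨x₁, hx₁⟩ - ⟨W.a₃, h.m₃⟩ :=
        Subtype.ext ey
      rw [e2, map_sub, map_sub, map_mul, map_neg, h.e₁, h.e₃]
      rfl
    obtain ⟨l, x₃, y₃, h₃, hs, ex, ey, e⟩ := exists_add h₁ h₂ hK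
    have hl : l ∈ A := by
      by_cases hx : π ⟨x₁, hx₁⟩ = π ⟨x₂, hx₂⟩
      · have hd : π (⟨y₁, hy₁⟩ + ⟨y₂, hy₂⟩ + ⟨W.a₁, h.m₁⟩ * ⟨x₂, hx₂⟩ + ⟨W.a₃, h.m₃⟩) ≠ 0 := by
          rw [map_add, map_add, map_add, map_mul, h.e₁, h.e₃]
          intro h0
          apply hk
          refine ⟨hx, ?_⟩
          rw [Affine.negY]
          linear_combination h0
        exact mem_of_mul (b := ⟨x₁, hx₁⟩ ^ 2 + ⟨x₁, hx₁⟩ * ⟨x₂, hx₂⟩ + ⟨x₂, hx₂⟩ ^ 2 +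
          ⟨W.a₂, h.m₂⟩ * (⟨x₁, hx₁⟩ + ⟨x₂, hx₂⟩) + ⟨W.a₄, h.m₄⟩ - ⟨W.a₁, h.m₁⟩ * ⟨y₁, hy₁⟩) hπ hd hs.r2
      · have hd : π (⟨x₁, hx₁⟩ - ⟨x₂, hx₂⟩) ≠ 0 := by
          rw [map_sub]; exact sub_ne_zero.mpr hx
        exact mem_of_mul (b := ⟨y₁, hy₁⟩ - ⟨y₂, hy₂⟩) hπ hd hs.r1
    have hx₃ : x₃ ∈ A := by
      rw [ex]
      exact sub_mem (sub_mem (sub_mem (add_mem (pow_mem hl 2) (mul_mem h.m₁ hl)) h.m₂) hx₁) hx₂
    have hy₃ := h.y_mem h₃.1 hx₃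
    have s1 : (⟨l, hl⟩ : A) * (⟨x₁, hx₁⟩ - ⟨x₂, hx₂⟩) = ⟨y₁, hy₁⟩ - ⟨y₂, hy₂⟩ := Subtype.ext hs.r1
    have s2 : (⟨l, hl⟩ : A) * (⟨y₁, hy₁⟩ + ⟨y₂, hy₂⟩ + ⟨W.a₁, h.m₁⟩ * ⟨x₂, hx₂⟩ + ⟨W.a₃, h.m₃⟩) =
      ⟨x₁, hx₁⟩ ^ 2 + ⟨x₁, hx₁⟩ * ⟨x₂, hx₂⟩ + ⟨x₂, hx₂⟩ ^ 2 +
          ⟨W.a₂, h.m₂⟩ * (⟨x₁, hx₁⟩ + ⟨x₂, hx₂⟩) + ⟨W.a₄, h.m₄⟩ - ⟨W.a₁, h.m₁⟩ * ⟨y₁, hy₁⟩ :=
      Subtype.ext hs.r2
    have s3 : (⟨x₃, hx₃⟩ : A) = ⟨l, hl⟩ ^ 2 + ⟨W.a₁, h.m₁⟩ * ⟨l, hl⟩ - ⟨W.a₂, h.m₂⟩ - ⟨x₁, hx₁⟩ -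
      ⟨x₂, hx₂⟩ := Subtype.ext ex
    have s4 : (⟨y₃, hy₃⟩ : A) = -(⟨l, hl⟩ * (⟨x₃, hx₃⟩ - ⟨x₁, hx₁⟩) + ⟨y₁, hy₁⟩) -
      ⟨W.a₁, h.m₁⟩ * ⟨x₃, hx₃⟩ - ⟨W.a₃, h.m₃⟩ := Subtype.ext ey
    have t1 := congrArg π s1
    have t2 := congrArg π s2
    have t3 := congrArg π s3
    have t4 := congrArg π s4
    simp only [map_mul, map_add, map_sub, map_neg, map_pow, h.e₁, h.e₂, h.e₃, h.e₄] at t1 t2 t3 t4
    have hn3 : Wk.Nonsingular (π ⟨x₃, hx₃⟩) (π ⟨y₃, hy₃⟩) := by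
      have h6 := Affine.nonsingular_add (hP hx₁ hy₁) (hQ hx₂ hy₂) hk
      have h7 : Wk.slope (π ⟨x₁, hx₁⟩) (π ⟨x₂, hx₂⟩) (π ⟨y₁, hy₁⟩) (π ⟨y₂, hy₂⟩) = π ⟨l, hl⟩ :=
        IsSlope.eq ⟨t1, t2⟩ hk
      have eX : Wk.addX (π ⟨x₁, hx₁⟩) (π ⟨x₂, hx₂⟩) (π ⟨l, hl⟩) = π ⟨x₃, hx₃⟩ := by
        rw [addX, t3]
      have eY : Wk.addY (π ⟨x₁, hx₁⟩) (π ⟨x₂, hx₂⟩) (π ⟨y₁, hy₁⟩) (π ⟨l, hl⟩) = π ⟨y₃, hy₃⟩ := by
        rw [addY, negAddY, eX, t4, negY]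
      rw [h7, eX, eY] at h6
      exact h6
    rw [e]
    refine ⟨fun _ _ => hn3, ?_⟩
    rw [red0_some h h₃ hx₃ hy₃ hn3]
    symm
    exact IsSlope.add ⟨t1, t2⟩ _ _ _ hk t3 t4

include hπ in
/-- a point congruent to a point with nonsingular reduction has nonsingular reduction -/
lemma ns_of_sub_inE1 (h : IsRed A π W Wk) {x y x' y' : K} (hxy : W.Nonsingular x y) (hxy' : W.Nonsingular x' y')
    (hx : x ∈ A) (hx' : x' ∈ A) (hy : y ∈ A) (hy' : y' ∈ A)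
    (hn : Wk.Nonsingular (π ⟨x, hx⟩) (π ⟨y, hy⟩))
    (hP : InE1 A.valuation (xX (W := W)) xZ (.some x' y' hxy' - .some x y hxy : W.Point)) :
    Wk.Nonsingular (π ⟨x', hx'⟩) (π ⟨y', hy'⟩) := by
  by_cases hxx : π ⟨x', hx'⟩ = π ⟨x, hx⟩
  · have e1 : Wk.Equation (π ⟨x, hx⟩) (π ⟨y', hy'⟩) := by
      rw [← hxx]; exact h.equation hxy'.1
    have e2 : Wk.Equation (π ⟨x, hx⟩) (π ⟨y, hy⟩) := h.equation hxy.1
    rw [hxx]
    rcases Y_eq_of_X_eq e1 e2 rfl with h3 | h3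
    · rw [h3]; exact hn
    · rw [h3]; exact (Wk.nonsingular_neg _ _).mpr hn
  · exfalso
    have hne : x' ≠ x := by
      rintro rfl; exact hxx rfl
    have hn' : W.Nonsingular x (W.negY x y) := (W.nonsingular_neg x y).mpr hxy
    obtain ⟨l, x₃, y₃, h₃, hs, ex, ey, e⟩ := exists_add hxy' hn' (fun hc => hne hc.1)
    have hny : W.negY x y ∈ A := h.y_mem hn'.1 hx
    have hl : l ∈ A := by
      have hd : π (⟨x', hx'⟩ - ⟨x, hx⟩) ≠ 0 := by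
        rw [map_sub]; exact sub_ne_zero.mpr hxx
      exact mem_of_mul (b := ⟨y', hy'⟩ - ⟨W.negY x y, hny⟩) hπ hd hs.r1
    have hx₃ : x₃ ∈ A := by
      rw [ex]
      exact sub_mem (sub_mem (sub_mem (add_mem (pow_mem hl 2) (mul_mem h.m₁ hl)) h.m₂) hx') hx
    rw [sub_eq_add_neg, Point.neg_some, e, inE1_some_iff] at hP
    exact hP hx₃

include hπ in
lemma red0_add (P Q : W.Point) (hP : InE0 π Wk P) (hQ : InE0 π Wk Q) :
    InE0 π Wk (P + Q) ∧ red0 h (P + Q) = red0 h P + red0 h Q := by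
  have hI := h.isInt
  have hadd : ∀ P Q : W.Point, InE1 A.valuation (xX (W := W)) xZ P →
      InE1 A.valuation (xX (W := W)) xZ Q → InE1 A.valuation (xX (W := W)) xZ (P + Q) ∧
      InE1 A.valuation (xX (W := W)) xZ (P - Q) := fun P Q hP hQ =>
    (EC.isKummer W).inE1_add_sub A.valuation hI.b₂ hI.b₄ hI.b₆ hI.b₈ hP hQ
  -- both integral
  have key : ∀ P Q : W.Point, InE0 π Wk P → InE0 π Wk Q →
      ¬ InE1 A.valuation (xX (W := W)) xZ P →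
      ¬ InE1 A.valuation (xX (W := W)) xZ Q →
      InE0 π Wk (P + Q) ∧ red0 h (P + Q) = red0 h P + red0 h Q := by
    intro P Q hP0 hQ0 hP hQ
    match P, Q with
    | 0, _ => exact absurd inE1_zero' hP
    | _, 0 => exact absurd inE1_zero' hQ
    | .some x₁ y₁ h₁, .some x₂ y₂ h₂ =>
      rw [inE1_some_iff, not_not] at hP hQ
      exact red0_add_int hπ h h₁ h₂ hP hQ hP0 hQ0
  have key2 : ∀ P Q : W.Point, InE0 π Wk P → InE0 π Wk Q →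
      InE1 A.valuation (xX (W := W)) xZ P →
      InE0 π Wk (P + Q) ∧ red0 h (P + Q) = red0 h P + red0 h Q := by
    intro P Q hPE hQE hP
    have hP0 := (red0_eq_zero_iff h hPE).mpr hP
    by_cases hQ : InE1 A.valuation (xX (W := W)) xZ Q
    · have hR := (hadd P Q hP hQ).1
      refine ⟨inE0_of_inE1 hR, ?_⟩
      rw [hP0, (red0_eq_zero_iff h hQE).mpr hQ, (red0_eq_zero_iff h (inE0_of_inE1 hR)).mpr hR,
        add_zero]
    · have hPQ : ¬ InE1 A.valuation (xX (W := W)) xZ (P + Q) := by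
        intro hR
        have := (hadd _ _ hR hP).2
        rw [add_sub_cancel_left] at this
        exact hQ this
      -- `P + Q` is congruent to `Q`
      have hRE : InE0 π Wk (P + Q) := by
        have hsub : InE1 A.valuation (xX (W := W)) xZ ((P + Q) - Q) := by
          rw [add_sub_cancel_right]; exact hP
        generalize P + Q = R at hPQ hsub ⊢
        match Q, R, hQ, hQE, hPQ, hsub with
        | 0, _, hQ, _, _, _ => exact absurd inE1_zero' hQ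
        | _, 0, _, _, hPQ, _ => exact absurd inE1_zero' hPQ
        | .some x y hxy, .some x' y' hxy', hQ, hQE, hPQ, hsub =>
          rw [inE1_some_iff, not_not] at hQ hPQ
          intro hx' hy'
          exact ns_of_sub_inE1 hπ h hxy hxy' hQ hx' (h.y_mem hxy.1 hQ) hy' (hQE hQ _) hsub
      have hQ' : ¬ InE1 A.valuation (xX (W := W)) xZ (-Q) := by
        intro h0
        apply hQ
        have := (red0_eq_zero_iff h (inE0_neg h hQE)).mpr h0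
        rw [red0_neg h hQE, neg_eq_zero] at this
        exact (red0_eq_zero_iff h hQE).mp this
      have e := (key (P + Q) (-Q) hRE (inE0_neg h hQE) hPQ hQ').2
      rw [add_neg_cancel_right, red0_neg h hQE, hP0] at e
      refine ⟨hRE, ?_⟩
      rw [hP0, zero_add]
      exact (add_neg_eq_zero.mp e.symm)
  by_cases hP1 : InE1 A.valuation (xX (W := W)) xZ P
  · exact key2 P Q hP hQ hP1
  · by_cases hQ1 : InE1 A.valuation (xX (W := W)) xZ Q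
    · rw [add_comm, add_comm (red0 h P)]
      exact key2 Q P hQ hP hQ1
    · exact key P Q hP hQ hP1 hQ1

end Fermat.Agent.RTE
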