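import Fermat.Agent.RTE.Loc
import Fermat.Agent.TWP.Tame2

/-!
The tame generator acts non-trivially at the ramified primes.
-/

set_option autoImplicit false

namespace Fermat.Agent.RTE

open WeierstrassCurve WeierstrassCurve.Affine
open Fermat.Agent.ERep Fermat.Agent.Tate Fermat.Agent.LocRing
open Fermat.Agent.DefRing (M2 mapRep mapRep_apply MatCont)
open Fermat.Agent.TWP (Pl Pl_lies)
open Matrix

theorem unip_pow {R : Type*} [CommRing R] {M : Matrix (Fin 2) (Fin 2) R}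
    (h : (M - 1) * (M - 1) = 0) (j : ℕ) : M ^ j = 1 + (j : R) • (M - 1) := by
  induction j with
  | zero => simp
  | succ j ih =>
    have h1 : M = 1 + (M - 1) := by abel
    rw [pow_succ, ih]
    calc (1 + (j : R) • (M - 1)) * M = (1 + (j : R) • (M - 1)) * (1 + (M - 1)) := by rw [← h1]
      _ = 1 + (M - 1) + ((j : R) • (M - 1) + (j : R) • ((M - 1) * (M - 1))) := by
          rw [add_mul, one_mul, mul_add, mul_one, smul_mul_assoc]
      _ = 1 + (((j + 1 : ℕ) : R)) • (M - 1) := by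
          rw [h, smul_zero, add_zero]
          push_cast
          rw [add_smul, one_smul]
          abel

theorem tame_trivial {R : Type} [CommRing R] {p : ℕ} [hp : Fact p.Prime] {l : Nat.Primes}
    (hlp : (l : ℕ) ≠ p) {N : ℕ} (hN : ((p ^ N : ℕ) : R) = 0) (r : GQ →* M2 R)
    (L : IntermediateField ℚ Qb) [FiniteDimensional ℚ L]
    (hL : ∀ σ : GQ, (∀ x ∈ L, σ x = x) → r σ = 1)
    (hsq : ∀ s ∈ (Pl l).inertiaSubgroupIn ℚ, (r s - 1) * (r s - 1) = 0) {c : Qb}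
    (hc : c ^ p = ((l : ℕ) : Qb)) {τ : GQ} (hτ : τ ∈ (Pl l).inertiaSubgroupIn ℚ)
    (hτc : τ c ≠ c) (h1 : r τ = 1) : ∀ s ∈ (Pl l).inertiaSubgroupIn ℚ, r s = 1 := by
  intro s hs
  set f : ↥((Pl l).inertiaSubgroupIn ℚ) →* (M2 R)ˣ :=
    (MonoidHom.toHomUnits r).comp (Subgroup.subtype _) with hf
  have hfv : ∀ σ, ((f σ : (M2 R)ˣ) : M2 R) = r σ.1 := fun σ => rfl
  obtain ⟨j, hj⟩ := TWP.tame_gen hlp hc hτ hτc f L
    (fun σ hσ => Units.ext (by rw [hfv, hL σ.1 hσ, Units.val_one])) (fun σ => ⟨N, Units.ext (by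
      rw [Units.val_pow_eq_pow_val, hfv, unip_pow (hsq σ.1 σ.2), hN, zero_smul, add_zero,
        Units.val_one])⟩) ⟨s, hs⟩
  have h2 : f ⟨τ, hτ⟩ = 1 := Units.ext (by rw [hfv, h1, Units.val_one])
  rw [h2, _root_.one_zpow] at hj
  have h3 := congrArg Units.val hj
  rw [hfv, Units.val_one] at h3
  exact h3

section Curve

variable (E : WeierstrassCurve ℚ) [E.IsElliptic] (p : ℕ) [hp : Fact p.Prime]
  {W : WeierstrassCurve ℤ} (hWE : W.IsIntegralModelOf E) {l : Nat.Primes} (hlp : (l : ℕ) ≠ p)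
  (hΔ : ((l : ℕ) : ℤ) ∣ W.Δ) (hc : ¬ ((l : ℕ) : ℤ) ∣ W.c₄)
  {c : Qb} (hcl : c ^ p = ((l : ℕ) : Qb)) {τ : GQ} (hτ : τ ∈ (Pl l).inertiaSubgroupIn ℚ)
  (hτc : τ c ≠ c)

include hWE hlp hΔ hc hcl hτ hτc

/-- residual version -/
theorem modE_tame (hp2 : p ≠ 2) (hm : ¬ p ∣ padicValInt l W.Δ) : modE E p τ ≠ 1 := by
  intro h1
  obtain ⟨C⟩ := exists_locMult E hWE l.2 (Pl_lies l) hΔ hc
  have hqp' : ¬ (l : ℕ) ∣ p := fun h => hlp ((Nat.prime_dvd_prime_iff_eq l.2 hp.out).mp h)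
  obtain ⟨s, hs, P, hP, hne⟩ := exists_inertia_ne E p C hp2 hqp' hm
  obtain ⟨L, hL, hLr⟩ := modE_cont E p
  have h2 := tame_trivial (N := 1) hlp (by rw [pow_one]; exact CharP.cast_eq_zero _ p)
    (modE E p) L hLr (fun s hs => modE_inertia_mult E p hWE l.2 (Pl_lies l) hlp hΔ hc hs)
    hcl hτ hτc h1 s hs
  exact hne ((modE_eq_one_iff E p s).mp h2 P hP)

/-- `p`-adic version -/
theorem matE_tame (hp2 : p ≠ 2) : matE E p τ ≠ 1 := by
  intro h1
  obtain ⟨s, hs, hne⟩ := exists_inertia_matE E p hWE l.2 (Pl_lies l) hlp hp2 hΔ hc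
  apply hne
  have key : ∀ n : ℕ, ∀ i j, PadicInt.toZModPow n ((matE E p s - 1) i j) = 0 := by
    intro n i j
    obtain ⟨L, hL, hLr⟩ := matE_cont E p n
    have hmap : ∀ σ, mapRep (PadicInt.toZModPow n : ℤ_[p] →+* ZMod (p ^ n)) (matE E p) σ =
      (PadicInt.toZModPow n : ℤ_[p] →+* ZMod (p ^ n)).mapMatrix (matE E p σ) := fun σ => rfl
    have h2 := tame_trivial (R := ZMod (p ^ n)) (N := n) hlp (CharP.cast_eq_zero _ _)
      (mapRep (PadicInt.toZModPow n : ℤ_[p] →+* ZMod (p ^ n)) (matE E p)) L (by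
        intro σ hσ
        have h3 := hLr σ hσ
        rw [hmap, ← sub_eq_zero, ← map_one (PadicInt.toZModPow n : ℤ_[p] →+* ZMod (p ^ n)).mapMatrix,
          ← map_sub]
        ext a b
        rw [RingHom.mapMatrix_apply, Matrix.map_apply, Matrix.zero_apply, ← RingHom.mem_ker,
          PadicInt.ker_toZModPow, ← Ideal.span_singleton_pow, ← PadicInt.maximalIdeal_eq_span_p]
        exact h3 a b) (by
        intro s hs
        have h3 := matE_inertia_mult E p hWE l.2 (Pl_lies l) hlp hΔ hc hs hs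
        rw [hmap, ← map_one (PadicInt.toZModPow n : ℤ_[p] →+* ZMod (p ^ n)).mapMatrix, ← map_sub,
          ← map_mul, h3, map_zero]) hcl hτ hτc (by rw [hmap, h1, map_one]) s hs
    rw [hmap, ← sub_eq_zero, ← map_one (PadicInt.toZModPow n : ℤ_[p] →+* ZMod (p ^ n)).mapMatrix,
      ← map_sub] at h2
    exact congrFun (congrFun h2 i) j
  rw [← sub_eq_zero]
  ext i j
  rw [Matrix.zero_apply]
  refine PadicInt.ext_of_toZModPow.mp fun n => ?_
  rw [key n i j, map_zero]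

end Curve

end Fermat.Agent.RTE
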